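import Fermat.Agent.CFT.SelmerP.Place

/-!
# Kummer radicands over the tame field

A homomorphism from `H` to `ZMod p` is given by a radicand fixed by `H`.  Levels of radicands,
their leading coefficients and how much inertia moves integral elements of the Kummer extension.
-/

set_option autoImplicit false

noncomputable section

open scoped Classical

namespace FermatAgent.CFT.SelmerP

open GaloisBasic Mazur

variable {A : ValuationSubring Qbar} {p : ℕ} [hp : Fact p.Prime]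

/-- The power of a root of unity with exponent in `ZMod p`. -/
def zp (ζ : Qbar) (b : ZMod p) : Qbar := ζ ^ b.val

section zp

variable {ζ : Qbar} (hζ : IsPrimitiveRoot ζ p)

/-- The zeroth power of the root of unity. -/
lemma zp_zero : zp ζ (0 : ZMod p) = 1 := by simp [zp]

include hζ

/-- Powers indexed by residues are natural powers. -/
lemma zp_natCast (n : ℕ) : zp ζ ((n : ZMod p)) = ζ ^ n := by
  rw [zp, ZMod.val_natCast]
  conv_rhs => rw [← pow_mod_orderOf, ← hζ.eq_orderOf]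

/-- Powers indexed by residues add. -/
lemma zp_add (a b : ZMod p) : zp ζ (a + b) = zp ζ a * zp ζ b := by
  rw [← ZMod.natCast_zmod_val a, ← ZMod.natCast_zmod_val b, ← Nat.cast_add, zp_natCast hζ,
    zp_natCast hζ, zp_natCast hζ, pow_add]

lemma zp_ne_zero (a : ZMod p) : zp ζ a ≠ 0 := pow_ne_zero _ (hζ.ne_zero hp.out.ne_zero)

lemma zp_pow (a : ZMod p) (n : ℕ) : zp ζ a ^ n = zp ζ ((n : ZMod p) * a) := by
  rw [← ZMod.natCast_zmod_val a, ← Nat.cast_mul, zp_natCast hζ, zp_natCast hζ, ← pow_mul, mul_comm]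

lemma zp_pow_p (a : ZMod p) : zp ζ a ^ p = 1 := by
  rw [zp_pow hζ, CharP.cast_eq_zero, zero_mul, zp_zero]

/-- Powers of a primitive root are distinct. -/
lemma zp_injective : Function.Injective (zp ζ : ZMod p → Qbar) := fun a b h =>
  ZMod.val_injective p (hζ.pow_inj (ZMod.val_lt a) (ZMod.val_lt b) h)

lemma zp_mem (a : ZMod p) : zp ζ a ∈ A :=
  mem_of_val (valuation_eq_one_of_pow hp.out.ne_zero (by rw [zp_pow_p hζ, map_one])).le

end zp

namespace TameRoot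

variable (R : TameRoot A p) (ζ : Qbar)

/-- `ρ` is a radicand root for `B` on `H`. -/
def IsRad (ρ : Qbar) (B : GQ → ZMod p) : Prop :=
  ρ ≠ 0 ∧ ∀ h ∈ R.H, h ρ = zp ζ (B h) * ρ

/-- A radicand congruent to one to a given order. -/
def Lev (j : ℕ) (B : GQ → ZMod p) : Prop :=
  ∃ ρ, R.IsRad ζ ρ B ∧ A.valuation (ρ ^ p - 1) ≤ A.valuation R.π ^ j

/-- The leading coefficient at a level. -/
def theta (j : ℕ) (B : GQ → ZMod p) : IsLocalRing.ResidueField A :=
  if h : R.Lev ζ j B then red A ((h.choose ^ p - 1) / R.π ^ j) else 0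

/-- The conjugate of a character by an element acting on roots of unity by the exponent `a`. -/
def conjChar (g : GQ) (a : ZMod p) (B : GQ → ZMod p) : GQ → ZMod p :=
  fun h => a * B (g⁻¹ * h * g)

variable {R} {ζ}

omit hp in
lemma isRad_congr {ρ : Qbar} {B B' : GQ → ZMod p} (h : R.IsRad ζ ρ B)
    (hB : ∀ σ ∈ R.H, B σ = B' σ) : R.IsRad ζ ρ B' :=
  ⟨h.1, fun σ hσ => by rw [← hB σ hσ]; exact h.2 σ hσ⟩

omit hp in
/-- Levels depend only on the values on `H`. -/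
lemma Lev.congr {j : ℕ} {B B' : GQ → ZMod p} (h : R.Lev ζ j B)
    (hB : ∀ σ ∈ R.H, B σ = B' σ) : R.Lev ζ j B' := by
  obtain ⟨ρ, h1, h2⟩ := h
  exact ⟨ρ, isRad_congr h1 hB, h2⟩

lemma Lev.mono {i j : ℕ} {B : GQ → ZMod p} (h : R.Lev ζ j B) (hij : i ≤ j) : R.Lev ζ i B := by
  obtain ⟨ρ, h1, h2⟩ := h
  exact ⟨ρ, h1, h2.trans (R.pow_le.mpr hij)⟩

lemma isRad_zero : R.IsRad ζ 1 (0 : GQ → ZMod p) :=
  ⟨one_ne_zero, fun h _ => by rw [map_one, Pi.zero_apply, zp_zero, one_mul]⟩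

/-- The zero character has every level. -/
lemma lev_zero (j : ℕ) : R.Lev ζ j (0 : GQ → ZMod p) :=
  ⟨1, isRad_zero, by rw [one_pow, sub_self, map_zero]; exact zero_le⟩

omit hp in
lemma isRad_div_fixed {ρ y : Qbar} {B : GQ → ZMod p} (h : R.IsRad ζ ρ B) (hy : y ≠ 0)
    (hfix : ∀ σ ∈ R.H, σ y = y) : R.IsRad ζ (ρ / y) B :=
  ⟨div_ne_zero h.1 hy, fun σ hσ => by rw [map_div₀, h.2 σ hσ, hfix σ hσ, mul_div_assoc]⟩

lemma smul_eq_nsmul (a : ZMod p) (B : GQ → ZMod p) : a • B = a.val • B := by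
  funext h
  rw [Pi.smul_apply, Pi.smul_apply, smul_eq_mul, nsmul_eq_mul, ZMod.natCast_zmod_val]

lemma p_mul (i : ℕ) : p * i = (p - 1) * i + i := by
  have h1 := Nat.le_mul_of_pos_left i hp.out.pos
  rw [Nat.sub_one_mul]
  omega

lemma p_mul_eK (R : TameRoot A p) : p * R.eK = R.e + R.eK := by
  rw [R.e_eq, mul_comm R.eK (p - 1)]; exact p_mul _

lemma mem_of_sub_one {y : Qbar} (h : A.valuation (y - 1) ≤ 1) : y ∈ A := by
  have := add_mem (mem_of_val h) (one_mem A)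
  rwa [sub_add_cancel] at this

lemma pow_mem_iff {y : Qbar} {n : ℕ} (hn : n ≠ 0) : y ^ n ∈ A ↔ y ∈ A := by
  rw [← A.valuation_le_one_iff, ← A.valuation_le_one_iff, map_pow,
    pow_le_one_iff_of_nonneg zero_le hn]

lemma pow_sub_one_expand (R : TameRoot A p) {y : Qbar} (hy : y ∈ A) :
    A.valuation (y ^ p - 1 - (y - 1) ^ p) ≤ A.valuation R.π ^ R.e * A.valuation (y - 1) := by
  obtain ⟨r, hr⟩ := exists_add_pow_prime_eq hp.out (⟨y - 1, sub_mem hy (one_mem A)⟩ : A) (1 : A)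
  have h := congrArg Subtype.val hr
  push_cast at h
  rw [sub_add_cancel, one_pow] at h
  rw [h, show (y - 1) ^ p + 1 + (p : Qbar) * (y - 1) * 1 * r - 1 - (y - 1) ^ p =
    (p : Qbar) * (y - 1) * r by ring, map_mul, map_mul, R.val_natCast_p]
  exact mul_le_of_le_one_right zero_le (val_le_one r.2)

lemma red_pow_eq_one (R : TameRoot A p) {y : Qbar} (hy : y ∈ A)
    (h : A.valuation (y ^ p - 1) < 1) : A.valuation (y - 1) < 1 := by
  have := ECLocal.residueChar A R.lies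
  rw [← red_eq_red_iff hy (one_mem A), red_one]
  have h1 : red A y ^ p = 1 := by
    rw [← red_pow hy, ← red_one (A := A)]
    exact (red_eq_red_iff (pow_mem hy p) (one_mem A)).mpr h
  exact frobenius_inj (IsLocalRing.ResidueField A) p
    (by rwa [frobenius_def, frobenius_def, one_pow])

/-- If `y ^ p` is congruent to one to the order `j` prime to `p` below the top then to a higher
order, for `y` fixed by `H`. -/
lemma fixed_pow_succ (R : TameRoot A p) {y : Qbar} (hfix : ∀ h ∈ R.H, h y = y) {j : ℕ}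
    (hj : ¬ p ∣ j) (hjt : j < p * R.eK) (h : A.valuation (y ^ p - 1) ≤ A.valuation R.π ^ j) :
    A.valuation (y ^ p - 1) ≤ A.valuation R.π ^ (j + 1) := by
  have hj0 : j ≠ 0 := fun h0 => hj (h0 ▸ dvd_zero p)
  have hlt : A.valuation (y ^ p - 1) < 1 := h.trans_lt (pow_lt_one₀ zero_le R.val_lt_one hj0)
  have hyA : y ∈ A := (pow_mem_iff hp.out.ne_zero).mp (mem_of_sub_one hlt.le)
  rcases eq_or_ne (y - 1) 0 with h0 | h0
  · rw [sub_eq_zero.mp h0, one_pow, sub_self, map_zero]; exact zero_le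
  obtain ⟨n, hn⟩ := R.exists_zpow h0 fun σ hσ => by rw [map_sub, map_one, hfix σ hσ]
  have hn1 : 0 < n := by
    have := red_pow_eq_one R hyA hlt
    rwa [hn, ← zpow_zero (A.valuation R.π), R.zpow_lt] at this
  obtain ⟨i, rfl⟩ := Int.eq_ofNat_of_zero_le hn1.le
  rw [zpow_natCast] at hn
  have he := pow_sub_one_expand R hyA
  rw [hn, ← pow_add] at he
  have hp1 := hp.out.two_le
  rcases lt_or_ge i R.eK with hi | hi
  · have hlt' : p * i < R.e + i := by
      have : (p - 1) * i < R.eK * (p - 1) := by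
        rw [mul_comm R.eK]; exact Nat.mul_lt_mul_of_pos_left hi (by omega)
      rw [R.e_eq]
      have := p_mul (p := p) i
      omega
    have hv : A.valuation (y ^ p - 1) = A.valuation R.π ^ (p * i) := by
      rw [show y ^ p - 1 = (y ^ p - 1 - (y - 1) ^ p) + (y - 1) ^ p by ring,
        Valuation.map_add_eq_of_lt_right, map_pow, hn, ← pow_mul, mul_comm]
      rw [map_pow, hn, ← pow_mul, mul_comm i p]
      exact he.trans_lt (R.pow_lt.mpr hlt')
    rw [hv, R.pow_le] at h ⊢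
    rcases h.lt_or_eq with h' | h'
    · omega
    · exact absurd (h' ▸ dvd_mul_right p i) hj
  · have h1 : p * R.eK ≤ R.e + i := by
      have := p_mul_eK R
      omega
    have h2 : p * R.eK ≤ p * i := Nat.mul_le_mul_left p hi
    rw [show y ^ p - 1 = (y ^ p - 1 - (y - 1) ^ p) + (y - 1) ^ p by ring]
    refine Valuation.map_add_le _ (he.trans (R.pow_le.mpr (by omega))) ?_
    rw [map_pow, hn, ← pow_mul, R.pow_le, mul_comm i p]
    omega

variable (hζ : IsPrimitiveRoot ζ p)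
include hζ

lemma isRad_add {ρ ρ' : Qbar} {B B' : GQ → ZMod p} (h : R.IsRad ζ ρ B) (h' : R.IsRad ζ ρ' B') :
    R.IsRad ζ (ρ * ρ') (B + B') :=
  ⟨mul_ne_zero h.1 h'.1, fun σ hσ => by
    rw [map_mul, h.2 σ hσ, h'.2 σ hσ, Pi.add_apply, zp_add hζ]; ring⟩

/-- The radicand is fixed by `H`. -/
lemma rad_pow_fixed {ρ : Qbar} {B : GQ → ZMod p} (h : R.IsRad ζ ρ B) :
    ∀ σ ∈ R.H, σ (ρ ^ p) = ρ ^ p := fun σ hσ => by
  rw [map_pow, h.2 σ hσ, mul_pow, zp_pow_p hζ, one_mul]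

lemma rad_ratio_fixed {ρ ρ' : Qbar} {B : GQ → ZMod p} (h : R.IsRad ζ ρ B)
    (h' : R.IsRad ζ ρ' B) : ∀ σ ∈ R.H, σ (ρ' / ρ) = ρ' / ρ := fun σ hσ => by
  rw [map_div₀, h.2 σ hσ, h'.2 σ hσ, mul_div_mul_left _ _ (zp_ne_zero hζ _)]

/-- Kummer theory. -/
theorem exists_rad {B : GQ → ZMod p} (hadd : ∀ σ ∈ R.H, ∀ τ ∈ R.H, B (σ * τ) = B σ + B τ)
    (U : Subgroup GQ) (hU : IsOpen (U : Set GQ)) (htriv : ∀ σ ∈ R.H, σ ∈ U → B σ = 0) :
    ∃ ρ, R.IsRad ζ ρ B := by
  obtain ⟨ρ, h0, h⟩ := exists_eq_mul_of_cocycle R.H (fun σ => zp ζ (B σ))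
    (fun σ hσ τ hτ => by
      rw [show σ (zp ζ (B τ)) = zp ζ (B τ) from R.H_fixes_zeta hσ (zp_pow_p hζ _), hadd σ hσ τ hτ,
        zp_add hζ])
    (fun σ _ => zp_ne_zero hζ _) U hU
    (fun σ hσ hσU => by rw [htriv σ hσ hσU, zp_zero])
  exact ⟨ρ, h0, h⟩

/-- Levels are stable under sums. -/
lemma Lev.add {j : ℕ} {B B' : GQ → ZMod p} (h : R.Lev ζ j B) (h' : R.Lev ζ j B') :
    R.Lev ζ j (B + B') := by
  obtain ⟨ρ, h1, h2⟩ := h
  obtain ⟨ρ', h1', h2'⟩ := h'
  refine ⟨ρ * ρ', isRad_add hζ h1 h1', ?_⟩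
  have hle : A.valuation R.π ^ j ≤ 1 := pow_le_one₀ zero_le R.val_lt_one.le
  rw [show (ρ * ρ') ^ p - 1 = (ρ ^ p - 1) * (ρ' ^ p - 1) + ((ρ ^ p - 1) + (ρ' ^ p - 1)) by ring]
  refine Valuation.map_add_le _ ?_ (Valuation.map_add_le _ h2 h2')
  rw [map_mul]
  exact (mul_le_mul' h2 (h2'.trans hle)).trans (mul_one _).le

lemma Lev.nsmul {j : ℕ} {B : GQ → ZMod p} (h : R.Lev ζ j B) (n : ℕ) : R.Lev ζ j (n • B) := by
  induction n with
  | zero => rw [zero_nsmul]; exact lev_zero j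
  | succ n ih => rw [succ_nsmul]; exact ih.add hζ h

/-- Levels are stable under multiples. -/
lemma Lev.smul {j : ℕ} {B : GQ → ZMod p} (h : R.Lev ζ j B) (a : ZMod p) : R.Lev ζ j (a • B) := by
  rw [smul_eq_nsmul]; exact h.nsmul hζ _

omit hζ hp in
lemma rad_val_one {ρ : Qbar} (h : A.valuation (ρ ^ p - 1) < 1) : A.valuation (ρ ^ p) = 1 := by
  rw [show ρ ^ p = (ρ ^ p - 1) + 1 by ring, Valuation.map_add_eq_of_lt_right, map_one]
  rwa [map_one]

/-- The leading coefficient does not depend on the radicand. -/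
theorem theta_eq {j : ℕ} (hj : ¬ p ∣ j) (hjt : j < p * R.eK) {B : GQ → ZMod p} {ρ : Qbar}
    (h : R.IsRad ζ ρ B) (hv : A.valuation (ρ ^ p - 1) ≤ A.valuation R.π ^ j) :
    R.theta ζ j B = red A ((ρ ^ p - 1) / R.π ^ j) := by
  have hL : R.Lev ζ j B := ⟨ρ, h, hv⟩
  rw [theta, dif_pos hL]
  obtain ⟨h0, hv0⟩ := hL.choose_spec
  set ρ₀ := hL.choose
  have hj0 : j ≠ 0 := fun h0 => hj (h0 ▸ dvd_zero p)
  have hlt : A.valuation R.π ^ j < 1 := pow_lt_one₀ zero_le R.val_lt_one hj0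
  have hu0 : A.valuation (ρ₀ ^ p) = 1 := rad_val_one (hv0.trans_lt hlt)
  set y := ρ / ρ₀
  have hy : A.valuation (y ^ p - 1) ≤ A.valuation R.π ^ j := by
    rw [div_pow, div_sub_one (pow_ne_zero _ h0.1), map_div₀, hu0, div_one,
      show ρ ^ p - ρ₀ ^ p = (ρ ^ p - 1) - (ρ₀ ^ p - 1) by ring]
    exact Valuation.map_sub_le _ hv hv0
  have hy' := fixed_pow_succ R (rad_ratio_fixed hζ h0 h) hj hjt hy
  have hmem : ∀ {z : Qbar}, A.valuation z ≤ A.valuation R.π ^ j → z / R.π ^ j ∈ A := fun {z} hz =>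
    mem_of_val (by rw [map_div₀, map_pow, div_le_one₀ (pow_pos R.val_pos j)]; exact hz)
  symm
  rw [red_eq_red_iff (hmem hv) (hmem hv0), ← sub_div, map_div₀, map_pow,
    div_lt_one₀ (pow_pos R.val_pos j),
    show ρ ^ p - 1 - (ρ₀ ^ p - 1) = (y ^ p - 1) * ρ₀ ^ p by
      rw [sub_one_mul, div_pow, div_mul_cancel₀ _ (pow_ne_zero _ h0.1)]; ring,
    map_mul, hu0, mul_one]
  exact hy'.trans_lt (R.pow_lt.mpr j.lt_succ_self)

/-- The leading coefficient depends only on the values on `H`. -/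
theorem theta_congr {j : ℕ} (hj : ¬ p ∣ j) (hjt : j < p * R.eK) {B B' : GQ → ZMod p}
    (hB : ∀ σ ∈ R.H, B σ = B' σ) : R.theta ζ j B = R.theta ζ j B' := by
  by_cases h : R.Lev ζ j B
  · obtain ⟨ρ, h1, h2⟩ := h
    rw [theta_eq hζ hj hjt h1 h2, theta_eq hζ hj hjt (isRad_congr h1 hB) h2]
  · rw [theta, theta, dif_neg h, dif_neg fun h' => h (h'.congr fun σ hσ => (hB σ hσ).symm)]

/-- The leading coefficient of zero. -/
theorem theta_zero {j : ℕ} (hj : ¬ p ∣ j) (hjt : j < p * R.eK) :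
    R.theta ζ j (0 : GQ → ZMod p) = 0 := by
  rw [theta_eq hζ hj hjt isRad_zero (by rw [one_pow, sub_self, map_zero]; exact zero_le), one_pow,
    sub_self, zero_div, red_zero]

/-- The leading coefficient is additive. -/
theorem theta_add {j : ℕ} (hj : ¬ p ∣ j) (hjt : j < p * R.eK) {B B' : GQ → ZMod p}
    (h : R.Lev ζ j B) (h' : R.Lev ζ j B') :
    R.theta ζ j (B + B') = R.theta ζ j B + R.theta ζ j B' := by
  have hj0 : j ≠ 0 := fun h0 => hj (h0 ▸ dvd_zero p)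
  obtain ⟨ρ, h1, h2⟩ := h
  obtain ⟨ρ', h1', h2'⟩ := h'
  have hlt : A.valuation R.π ^ j < 1 := pow_lt_one₀ zero_le R.val_lt_one hj0
  have hw : A.valuation (ρ ^ p) = 1 := rad_val_one (h2.trans_lt hlt)
  have e : (ρ * ρ') ^ p - 1 = (ρ ^ p - 1) + ρ ^ p * (ρ' ^ p - 1) := by ring
  have h3 : A.valuation (ρ ^ p * (ρ' ^ p - 1)) ≤ A.valuation R.π ^ j := by
    rwa [map_mul, hw, one_mul]
  have hmem : ∀ {z : Qbar}, A.valuation z ≤ A.valuation R.π ^ j → z / R.π ^ j ∈ A := fun {z} hz =>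
    mem_of_val (by rw [map_div₀, map_pow, div_le_one₀ (pow_pos R.val_pos j)]; exact hz)
  rw [theta_eq hζ hj hjt h1 h2, theta_eq hζ hj hjt h1' h2',
    theta_eq hζ hj hjt (isRad_add hζ h1 h1') (e ▸ Valuation.map_add_le _ h2 h3), e, add_div,
    red_add (hmem h2) (hmem h3), mul_div_assoc, red_mul (mem_of_val hw.le) (hmem h2')]
  rw [show red A (ρ ^ p) = 1 from by
    rw [← red_one (A := A)]
    exact (red_eq_red_iff (mem_of_val hw.le) (one_mem A)).mpr (h2.trans_lt hlt), one_mul]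

/-- The leading coefficient of a multiple. -/
theorem theta_smul {j : ℕ} (hj : ¬ p ∣ j) (hjt : j < p * R.eK) {B : GQ → ZMod p}
    (h : R.Lev ζ j B) (a : ZMod p) :
    R.theta ζ j (a • B) = (a.val : IsLocalRing.ResidueField A) * R.theta ζ j B := by
  rw [smul_eq_nsmul]
  generalize a.val = n
  induction n with
  | zero => rw [zero_nsmul, theta_zero hζ hj hjt, Nat.cast_zero, zero_mul]
  | succ n ih => rw [succ_nsmul, theta_add hζ hj hjt (h.nsmul hζ n) h, ih]; push_cast; ring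

/-- A zero leading coefficient raises the level. -/
theorem lev_succ_of_theta {j : ℕ} (hj : ¬ p ∣ j) (hjt : j < p * R.eK) {B : GQ → ZMod p}
    (h : R.Lev ζ j B) (h0 : R.theta ζ j B = 0) : R.Lev ζ (j + 1) B := by
  obtain ⟨ρ, h1, h2⟩ := h
  refine ⟨ρ, h1, R.le_succ (fun σ hσ => by rw [map_sub, map_one, rad_pow_fixed hζ h1 σ hσ]) ?_⟩
  rw [theta_eq hζ hj hjt h1 h2, red_eq_zero_iff (mem_of_val (by
    rw [map_div₀, map_pow, div_le_one₀ (pow_pos R.val_pos j)]; exact h2)), map_div₀, map_pow,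
    div_lt_one₀ (pow_pos R.val_pos j)] at h0
  exact h0

omit hζ in
lemma exists_pth_root {η : Qbar} {m : ℕ} (hm : ¬ p ∣ m) (hm0 : m ≠ 0) (hη : η ^ m = 1) :
    ∃ η' : Qbar, η' ^ m = 1 ∧ η' ^ p = η := by
  rcases (show m = 1 ∨ 1 < m by omega) with rfl | hm1
  · exact ⟨1, by rw [pow_one], by rw [pow_one] at hη; rw [one_pow, hη]⟩
  obtain ⟨k, hk⟩ := Nat.exists_mul_mod_eq_one_of_coprime (hp.out.coprime_iff_not_dvd.mpr hm) hm1
  refine ⟨η ^ k, by rw [← pow_mul, mul_comm, pow_mul, hη, one_pow], ?_⟩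
  rw [← pow_mul, mul_comm k p, ← Nat.div_add_mod (p * k) m, pow_add, pow_mul, hη, one_pow, one_mul,
    hk.2, pow_one]

/-- At an order divisible by `p` below the top the level rises. -/
theorem lev_succ_of_dvd {j : ℕ} (hj : p ∣ j) (hj0 : j ≠ 0) (hjt : j < p * R.eK)
    {B : GQ → ZMod p} (h : R.Lev ζ j B) : R.Lev ζ (j + 1) B := by
  obtain ⟨ρ, h1, h2⟩ := h
  have hfix : ∀ σ ∈ R.H, σ (ρ ^ p - 1) = ρ ^ p - 1 := fun σ hσ => by
    rw [map_sub, map_one, rad_pow_fixed hζ h1 σ hσ]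
  rcases h2.lt_or_eq with hlt | heq
  · exact ⟨ρ, h1, R.le_succ hfix hlt⟩
  obtain ⟨i, rfl⟩ := hj
  have hu : A.valuation ((ρ ^ p - 1) / R.π ^ (p * i)) = 1 := by
    rw [map_div₀, heq, map_pow, div_self (pow_ne_zero _ R.val_ne_zero)]
  obtain ⟨m, η, hm, hm0, hη, hlt⟩ := exists_root_lift R.lies hu
  obtain ⟨η', hη'm, hη'⟩ := exists_pth_root hm hm0 hη
  have hv' : A.valuation η' = 1 := valuation_eq_one_of_pow hm0 (by rw [hη'm, map_one])
  set y := 1 + η' * R.π ^ i with hy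
  have hi0 : i ≠ 0 := fun h0 => hj0 (by rw [h0, mul_zero])
  have hyv : A.valuation (y - 1) = A.valuation R.π ^ i := by
    rw [hy, add_sub_cancel_left, map_mul, map_pow, hv', one_mul]
  have hy1 : A.valuation y = 1 := by
    rw [hy, Valuation.map_one_add_of_lt]
    rw [map_mul, map_pow, hv', one_mul]
    exact pow_lt_one₀ zero_le R.val_lt_one hi0
  have hy0 : y ≠ 0 := fun h0 => by simp [h0] at hy1
  have hyfix : ∀ σ ∈ R.H, σ y = y := fun σ hσ => by
    obtain ⟨hσI, hσπ⟩ := mem_rootFix.mp hσ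
    rw [hy, map_add, map_one, map_mul, map_pow, hσπ, R.inertia_fixes hσI hm hm0 hη'm]
  have h1' := isRad_div_fixed h1 hy0 hyfix
  refine ⟨ρ / y, h1', R.le_succ (fun σ hσ => by
    rw [map_sub, map_one, rad_pow_fixed hζ h1' σ hσ]) ?_⟩
  rw [div_pow, div_sub_one (pow_ne_zero _ hy0), map_div₀, map_pow A.valuation y, hy1, one_pow,
    div_one, show ρ ^ p - y ^ p =
      ((ρ ^ p - 1) / R.π ^ (p * i) - η) * R.π ^ (p * i) - (y ^ p - 1 - (y - 1) ^ p) by
      rw [sub_mul, div_mul_cancel₀ _ (pow_ne_zero _ R.ne_zero),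
        show (y - 1) ^ p = η * R.π ^ (p * i) by
          rw [hy, add_sub_cancel_left, mul_pow, hη', ← pow_mul, mul_comm i]]
      ring]
  refine Valuation.map_sub_lt _ ?_ ?_
  · rw [map_mul, map_pow]
    exact mul_lt_of_lt_one_left (pow_pos R.val_pos _) hlt
  · refine (pow_sub_one_expand R (mem_of_val hy1.le)).trans_lt ?_
    rw [hyv, ← pow_add, R.pow_lt, R.e_eq]
    have hp1 := hp.out.two_le
    have : i < R.eK := Nat.lt_of_mul_lt_mul_left hjt
    have : (p - 1) * i < R.eK * (p - 1) := by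
      rw [mul_comm R.eK]; exact Nat.mul_lt_mul_of_pos_left this (by omega)
    have := p_mul (p := p) i
    omega

/-- Climbing through vanishing leading coefficients. -/
theorem lev_climb {j N : ℕ} (hj0 : j ≠ 0) (hN : N ≤ p * R.eK) {B : GQ → ZMod p}
    (h : R.Lev ζ j B)
    (hth : ∀ i, j ≤ i → i < N → ¬ p ∣ i → R.Lev ζ i B → R.theta ζ i B = 0) : R.Lev ζ N B := by
  rcases lt_or_ge N j with hlt | hle
  · exact h.mono hlt.le
  have key : ∀ d, j + d ≤ N → R.Lev ζ (j + d) B := fun d => by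
    induction d with
    | zero => exact fun _ => h
    | succ d ih =>
      intro hd
      have h' := ih (by omega)
      by_cases hdv : p ∣ j + d
      · exact lev_succ_of_dvd hζ hdv (by omega) (by omega) h'
      · exact lev_succ_of_theta hζ hdv (by omega) h' (hth _ (by omega) (by omega) hdv h')
  simpa [Nat.add_sub_cancel' hle] using key (N - j) (by omega)

/-- At the top level a character is trivial. -/
theorem lev_top {B : GQ → ZMod p} (h : R.Lev ζ (p * R.eK) B) : ∀ σ ∈ R.H, B σ = 0 := by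
  have := ECLocal.residueChar A R.lies
  obtain ⟨ρ, h1, h2⟩ := h
  have hp1 := hp.out.two_le
  have hlt : A.valuation (ρ ^ p - 1) < 1 := h2.trans_lt
    (pow_lt_one₀ zero_le R.val_lt_one (Nat.mul_ne_zero hp.out.ne_zero R.eK_pos.ne'))
  have hρA : ρ ∈ A := (pow_mem_iff hp.out.ne_zero).mp (mem_of_sub_one hlt.le)
  have hx : A.valuation (ρ - 1) ≤ A.valuation R.π ^ R.eK := by
    by_contra hcon
    rw [not_le] at hcon
    have h3 : A.valuation R.π ^ R.e * A.valuation (ρ - 1) < A.valuation ((ρ - 1) ^ p) := by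
      rw [map_pow, ← pow_sub_one_mul hp.out.ne_zero (A.valuation (ρ - 1))]
      refine mul_lt_mul_of_pos_right ?_ (lt_of_le_of_lt zero_le hcon)
      rw [R.e_eq, pow_mul]
      exact pow_lt_pow_left₀ hcon zero_le (by omega)
    have h4 : A.valuation (ρ ^ p - 1) = A.valuation ((ρ - 1) ^ p) := by
      rw [show ρ ^ p - 1 = (ρ ^ p - 1 - (ρ - 1) ^ p) + (ρ - 1) ^ p by ring]
      exact Valuation.map_add_eq_of_lt_right _ ((pow_sub_one_expand R hρA).trans_lt h3)
    rw [h4, map_pow, mul_comm p, pow_mul] at h2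
    exact not_lt.mpr h2 (pow_lt_pow_left₀ hcon zero_le hp.out.ne_zero)
  intro σ hσ
  have hσI := (mem_rootFix.mp hσ).1
  have hz := R.val_zeta_sub_one hζ
  have hz0 : ζ - 1 ≠ 0 := fun h0 => by
    rw [h0, map_zero] at hz
    exact pow_ne_zero _ R.val_ne_zero hz.symm
  set t := (ρ - 1) / (ζ - 1)
  have htA : t ∈ A := mem_of_val (by
    rw [map_div₀, hz, div_le_one₀ (pow_pos R.val_pos _)]; exact hx)
  have hsum : (∑ i ∈ Finset.range (B σ).val, ζ ^ i) ∈ A :=
    sum_mem fun i _ => by rw [← zp_natCast hζ i]; exact zp_mem hζ _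
  have e : σ t - t = ρ * ∑ i ∈ Finset.range (B σ).val, ζ ^ i := by
    rw [map_div₀, map_sub, map_one, h1.2 σ hσ,
      show σ (ζ - 1) = ζ - 1 by rw [map_sub, map_one, R.H_fixes_zeta hσ hζ.pow_eq_one], ← sub_div,
      div_eq_iff hz0, mul_assoc, geom_sum_mul]
    unfold zp
    ring
  have h5 := congrArg (red A) e
  rw [red_sub (map_mem_of_mem_decomposition (inertia_le_decomposition hσI) htA) htA,
    red_inertia R.lies hσI htA, sub_self, red_mul hρA hsum,
    red_sum _ fun i _ => (by rw [← zp_natCast hζ i]; exact zp_mem hζ _)] at h5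
  have hρ1 : red A ρ = 1 := by
    rw [← red_one (A := A)]
    exact (red_eq_red_iff hρA (one_mem A)).mpr (red_pow_eq_one R hρA hlt)
  have hζA : ζ ∈ A := by simpa [zp, ZMod.val_one] using zp_mem (A := A) hζ (1 : ZMod p)
  have hζ1 : red A ζ = 1 := by
    rw [← red_one (A := A)]
    exact (red_eq_red_iff hζA (one_mem A)).mpr (R.val_zeta_sub_one_lt hζ)
  rw [hρ1, one_mul, Finset.sum_congr rfl fun i _ => (show red A (ζ ^ i) = 1 by
    rw [red_pow hζA, hζ1, one_pow]), Finset.sum_const, Finset.card_range, nsmul_eq_mul, mul_one,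
    eq_comm, CharP.cast_eq_zero_iff _ p] at h5
  exact (ZMod.val_eq_zero _).mp (Nat.eq_zero_of_dvd_of_lt h5 (ZMod.val_lt _))

/-- Either the valuation of the radicand is prime to `p` or a radicand is congruent to one. -/
theorem rad_cases {B : GQ → ZMod p} {ρ : Qbar} (h : R.IsRad ζ ρ B) :
    (∃ (ρ' : Qbar) (m : ℤ), R.IsRad ζ ρ' B ∧ A.valuation (ρ' ^ p) = A.valuation R.π ^ m ∧
      ¬ (p : ℤ) ∣ m) ∨ R.Lev ζ 1 B := by
  obtain ⟨m, hm⟩ := R.exists_zpow (pow_ne_zero p h.1) (rad_pow_fixed hζ h)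
  by_cases hd : (p : ℤ) ∣ m
  swap
  · exact Or.inl ⟨ρ, m, h, hm, hd⟩
  obtain ⟨i, rfl⟩ := hd
  refine Or.inr ?_
  have hπi : R.π ^ i ≠ 0 := zpow_ne_zero _ R.ne_zero
  have h1 := isRad_div_fixed h hπi fun σ hσ => by
    rw [map_zpow₀, (mem_rootFix.mp hσ).2]
  have hv : A.valuation ((ρ / R.π ^ i) ^ p) = 1 := by
    rw [div_pow, map_div₀, hm, map_pow A.valuation, map_zpow₀, ← zpow_natCast (_ ^ i) p, ← zpow_mul,
      mul_comm i, div_self (zpow_ne_zero _ R.val_ne_zero)]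
  obtain ⟨n, η, hn, hn0, hη, hlt⟩ := exists_root_lift R.lies hv
  obtain ⟨η', hη'n, hη'⟩ := exists_pth_root hn hn0 hη
  have hv' : A.valuation η' = 1 := valuation_eq_one_of_pow hn0 (by rw [hη'n, map_one])
  have hη0 : η' ≠ 0 := fun h0 => by simp [h0] at hv'
  have h2 := isRad_div_fixed h1 hη0 fun σ hσ =>
    R.inertia_fixes (mem_rootFix.mp hσ).1 hn hn0 hη'n
  refine ⟨_, h2, ?_⟩
  refine R.le_succ (fun σ hσ => by rw [map_sub, map_one, rad_pow_fixed hζ h2 σ hσ]) ?_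
  rw [pow_zero, div_pow (ρ / R.π ^ i) η', div_sub_one (pow_ne_zero _ hη0), map_div₀,
    map_pow A.valuation η', hv', one_pow, div_one, hη']
  exact hlt

/-- Conjugating a radicand. -/
theorem isRad_conj {g : GQ} (hg : g ∈ A.decompositionSubgroup ℚ) {a : ZMod p}
    (ha : g ζ = zp ζ a) {ρ : Qbar} {B : GQ → ZMod p} (h : R.IsRad ζ ρ B) :
    R.IsRad ζ (g ρ) (conjChar g a B) := by
  refine ⟨by simpa using h.1, fun σ hσ => ?_⟩
  have h1 := h.2 _ (R.conj_mem_H hg hσ)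
  have h2 : σ (g ρ) = g ((g⁻¹ * σ * g) ρ) := by
    rw [← AlgEquiv.mul_apply, ← AlgEquiv.mul_apply]; group
  rw [h2, h1, map_mul]
  congr 1
  show g (ζ ^ (B _).val) = _
  rw [map_pow, ha, zp_pow hζ, ZMod.natCast_zmod_val, mul_comm]
  rfl

/-- Conjugation preserves the levels and transforms the leading coefficient semilinearly. -/
theorem lev_conj {g : GQ} (hg : g ∈ A.decompositionSubgroup ℚ) {a : ZMod p}
    (ha : g ζ = zp ζ a) {j : ℕ} {B : GQ → ZMod p} {ρ : Qbar} (h1 : R.IsRad ζ ρ B)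
    (h2 : A.valuation (ρ ^ p - 1) ≤ A.valuation R.π ^ j) :
    R.IsRad ζ (g ρ) (conjChar g a B) ∧
      A.valuation ((g ρ) ^ p - 1) ≤ A.valuation R.π ^ j :=
  ⟨isRad_conj hζ hg ha h1, by
    rw [← map_pow, show g (ρ ^ p) - 1 = g (ρ ^ p - 1) by rw [map_sub, map_one], val_map hg]
    exact h2⟩

theorem theta_conj {g : GQ} (hg : g ∈ A.decompositionSubgroup ℚ) {a : ZMod p}
    (ha : g ζ = zp ζ a) {j : ℕ} (hj : ¬ p ∣ j) (hjt : j < p * R.eK) {B : GQ → ZMod p} {ρ : Qbar}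
    (h1 : R.IsRad ζ ρ B) (h2 : A.valuation (ρ ^ p - 1) ≤ A.valuation R.π ^ j) :
    R.theta ζ j (conjChar g a B) =
      red A (g ((ρ ^ p - 1) / R.π ^ j)) * red A (g R.π / R.π) ^ j := by
  obtain ⟨h1', h2'⟩ := lev_conj hζ hg ha h1 h2
  have hmem : (ρ ^ p - 1) / R.π ^ j ∈ A := mem_of_val (by
    rw [map_div₀, map_pow, div_le_one₀ (pow_pos R.val_pos j)]; exact h2)
  rw [theta_eq hζ hj hjt h1' h2', ← red_pow (R.kappa_mem g),
    ← red_mul (map_mem_of_mem_decomposition hg hmem) (pow_mem (R.kappa_mem g) j)]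
  congr 1
  have hgπ : g R.π ≠ 0 := by simpa using R.ne_zero
  have := R.ne_zero
  rw [map_div₀, map_pow g, map_sub, map_pow g, map_one, div_pow]
  field_simp

/-- The leading coefficient of a conjugate under inertia. -/
theorem theta_conj_inertia {σ : GQ} (hσ : σ ∈ A.inertiaSubgroupIn ℚ) {a : ZMod p}
    (ha : σ ζ = zp ζ a) {j : ℕ} (hj : ¬ p ∣ j) (hjt : j < p * R.eK) {B : GQ → ZMod p}
    (h : R.Lev ζ j B) :
    R.theta ζ j (conjChar σ a B) = red A (σ R.π / R.π) ^ j * R.theta ζ j B := by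
  obtain ⟨ρ, h1, h2⟩ := h
  rw [theta_conj hζ (inertia_le_decomposition hσ) ha hj hjt h1 h2,
    theta_eq hζ hj hjt h1 h2, red_inertia R.lies hσ (mem_of_val (by
      rw [map_div₀, map_pow, div_le_one₀ (pow_pos R.val_pos j)]; exact h2)), mul_comm]

/-- The leading coefficient of a conjugate under Frobenius. -/
theorem theta_conj_frobenius {F : GQ} (hF : A.IsFrobeniusAt F p) (hFπ : F R.π = R.π) {a : ZMod p}
    (ha : F ζ = zp ζ a) {j : ℕ} (hj : ¬ p ∣ j) (hjt : j < p * R.eK) {B : GQ → ZMod p}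
    (h : R.Lev ζ j B) :
    R.theta ζ j (conjChar F a B) = R.theta ζ j B ^ p := by
  obtain ⟨ρ, h1, h2⟩ := h
  rw [theta_conj hζ hF.mem_decompositionSubgroup ha hj hjt h1 h2,
    theta_eq hζ hj hjt h1 h2, red_frobenius R.lies hF (mem_of_val (by
      rw [map_div₀, map_pow, div_le_one₀ (pow_pos R.val_pos j)]; exact h2)), hFπ,
    div_self R.ne_zero, red_one, one_pow, mul_one]

/-- Elements fixed by the kernel are polynomials in the radicand root. -/
theorem exists_coeffs {B : GQ → ZMod p}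
    (hadd : ∀ σ ∈ R.H, ∀ τ ∈ R.H, B (σ * τ) = B σ + B τ) {ρ : Qbar} (h : R.IsRad ζ ρ B)
    {h₀ : GQ} (hh₀ : h₀ ∈ R.H) (hB₀ : B h₀ = 1) {a : Qbar}
    (ha : ∀ σ ∈ R.H, B σ = 0 → σ a = a) :
    ∃ d : Fin p → Qbar, (∀ s, ∀ σ ∈ R.H, σ (d s) = d s) ∧ a = ∑ s, d s * ρ ^ (s : ℕ) := by
  have hB1 : B 1 = 0 := by simpa using hadd 1 (one_mem _) 1 (one_mem _)
  have hpowB : ∀ n : ℕ, B (h₀ ^ n) = n := fun n => by
    induction n with
    | zero => rw [pow_zero, hB1, Nat.cast_zero]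
    | succ n ih => rw [pow_succ, hadd _ (pow_mem hh₀ n) _ hh₀, ih, hB₀, Nat.cast_succ]
  set α : ZMod p → Qbar := fun b => (h₀ ^ b.val) a with hα
  have hαB : ∀ σ ∈ R.H, σ a = α (B σ) := fun σ hσ => by
    set τ := h₀ ^ (B σ).val with hτ
    have hτm : τ ∈ R.H := pow_mem hh₀ _
    have hinv : B τ⁻¹ = -B τ := eq_neg_of_add_eq_zero_left (by
      rw [← hadd _ (inv_mem hτm) _ hτm, inv_mul_cancel, hB1])
    have hk : B (τ⁻¹ * σ) = 0 := by
      rw [hadd _ (inv_mem hτm) _ hσ, hinv, hτ, hpowB, ZMod.natCast_zmod_val, neg_add_cancel]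
    show σ a = τ a
    conv_lhs => rw [show σ = τ * (τ⁻¹ * σ) by group, AlgEquiv.mul_apply,
      ha _ (mul_mem (inv_mem hτm) hσ) hk]
  have hσα : ∀ σ ∈ R.H, ∀ b, σ (α b) = α (B σ + b) := fun σ hσ b => by
    show σ ((h₀ ^ b.val) a) = _
    rw [← AlgEquiv.mul_apply, hαB _ (mul_mem hσ (pow_mem hh₀ _)), hadd σ hσ _ (pow_mem hh₀ _),
      hpowB, ZMod.natCast_zmod_val]
  have : NeZero p := ⟨hp.out.ne_zero⟩
  refine
    ⟨fun s => (p : Qbar)⁻¹ * (∑ b : ZMod p, zp ζ (-((s : ℕ) : ZMod p) * b) * α b) / ρ ^ (s : ℕ),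
    fun s σ hσ => ?_, ?_⟩
  · rw [map_div₀, map_mul, map_inv₀, map_natCast, map_sum, map_pow, h.2 σ hσ, mul_pow, zp_pow hζ]
    have e : (∑ b : ZMod p, σ (zp ζ (-((s : ℕ) : ZMod p) * b) * α b)) =
        zp ζ (((s : ℕ) : ZMod p) * B σ) * ∑ b : ZMod p, zp ζ (-((s : ℕ) : ZMod p) * b) * α b := by
      rw [Finset.mul_sum]
      refine Fintype.sum_equiv (Equiv.addLeft (B σ)) _ _ fun b => ?_
      rw [map_mul, R.H_fixes_zeta hσ (zp_pow_p hζ _), hσα σ hσ, Equiv.coe_addLeft, ← mul_assoc,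
        ← zp_add hζ]
      congr 2
      ring
    rw [e]
    have := zp_ne_zero hζ (((s : ℕ) : ZMod p) * B σ)
    have := pow_ne_zero (s : ℕ) h.1
    field_simp
  · have hgeom : ∀ b : ZMod p, (∑ s : Fin p, zp ζ (-((s : ℕ) : ZMod p) * b)) =
        if b = 0 then (p : Qbar) else 0 := fun b => by
      have e : ∀ s : Fin p, zp ζ (-((s : ℕ) : ZMod p) * b) = zp ζ (-b) ^ (s : ℕ) := fun s => by
        rw [zp_pow hζ]; congr 1; ring
      rw [Finset.sum_congr rfl fun s _ => e s, Fin.sum_univ_eq_sum_range (fun i => zp ζ (-b) ^ i) p]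
      split_ifs with hb
      · simp [hb, zp_zero]
      · refine eq_zero_of_ne_zero_of_mul_right_eq_zero (sub_ne_zero.mpr fun h1 => hb ?_)
          ((geom_sum_mul _ p).trans (by rw [zp_pow_p hζ, sub_self]))
        simpa using zp_injective hζ (h1.trans zp_zero.symm)
    have hρs : ∀ s : Fin p, ρ ^ (s : ℕ) ≠ 0 := fun s => pow_ne_zero _ h.1
    rw [Finset.sum_congr rfl fun (s : Fin p) _ => div_mul_cancel₀ _ (hρs s), ← Finset.mul_sum,
      Finset.sum_comm]
    simp_rw [← Finset.sum_mul, hgeom, ite_mul, zero_mul]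
    rw [Finset.sum_ite_eq' Finset.univ (0 : ZMod p), if_pos (Finset.mem_univ _), ← mul_assoc,
      inv_mul_cancel₀ (Nat.cast_ne_zero.mpr hp.out.ne_zero), one_mul]
    simp [hα]

omit hζ in
/-- The main bound: inertia moves integral elements of the extension only a little. -/
theorem move_bound (R : TameRoot A p) {θ : Qbar} {j : ℤ} {N : ℕ} (hN : 0 < N)
    (hθ : A.valuation θ ^ p = A.valuation R.π ^ j) (hj : ¬ (p : ℤ) ∣ j) {σ : GQ} (hσ : σ ∈ R.H)
    (hmove : A.valuation (σ θ - θ) ^ p ≤ A.valuation R.π ^ N * A.valuation θ ^ p) {a : Qbar}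
    (haA : a ∈ A) {d : Fin p → Qbar} (hd : ∀ s, ∀ τ ∈ R.H, τ (d s) = d s)
    (ha : a = ∑ s, d s * θ ^ (s : ℕ)) :
    A.valuation (σ a - a) ^ p ≤ A.valuation R.π ^ (N + 1) := by
  have hθ0 : θ ≠ 0 := fun h0 => by
    rw [h0, map_zero, zero_pow hp.out.ne_zero] at hθ
    exact zpow_ne_zero _ R.val_ne_zero hθ.symm
  -- the exponents of the terms
  have hexp : ∀ s : Fin p, d s ≠ 0 → ∃ n : ℤ,
      A.valuation (d s * θ ^ (s : ℕ)) ^ p = A.valuation R.π ^ ((p : ℤ) * n + (s : ℤ) * j) := by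
    intro s hs
    obtain ⟨n, hn⟩ := R.exists_zpow hs (hd s)
    refine ⟨n, ?_⟩
    rw [map_mul, map_pow, mul_pow, ← pow_mul, mul_comm (s : ℕ) p, pow_mul, hθ, hn, ← zpow_natCast,
      ← zpow_mul, ← zpow_natCast (_ ^ j), ← zpow_mul, zpow_add₀ R.val_ne_zero,
      mul_comm n, mul_comm j]
  have hne : ∀ s t : Fin p, d s ≠ 0 → d t ≠ 0 → s ≠ t →
      A.valuation (d s * θ ^ (s : ℕ)) ≠ A.valuation (d t * θ ^ (t : ℕ)) := by
    intro s t hs ht hst heq
    obtain ⟨n, hn⟩ := hexp s hs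
    obtain ⟨n', hn'⟩ := hexp t ht
    rw [heq, hn', R.zpow_inj] at hn
    have hdiv : (p : ℤ) ∣ ((s : ℤ) - t) * j := ⟨n' - n, by linarith [hn]⟩
    refine hst (Fin.ext ?_)
    have h1 := ((Nat.prime_iff_prime_int.mp hp.out).dvd_mul.mp hdiv).resolve_right hj
    have h2 := Int.eq_zero_of_dvd_of_natAbs_lt_natAbs h1 (by
      have := s.isLt; have := t.isLt; simp only [Int.natAbs_natCast]; omega)
    omega
  -- each term is integral
  have hterm : ∀ s : Fin p, A.valuation (d s * θ ^ (s : ℕ)) ≤ 1 := by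
    intro s
    obtain ⟨t, -, ht⟩ := Finset.exists_max_image Finset.univ
      (fun s : Fin p => A.valuation (d s * θ ^ (s : ℕ))) ⟨⟨0, hp.out.pos⟩, Finset.mem_univ _⟩
    refine (ht s (Finset.mem_univ _)).trans ?_
    by_cases ht0 : d t = 0
    · simp [ht0]
    refine le_of_eq_of_le ?_ (val_le_one haA)
    rw [ha]
    refine (A.valuation.map_sum_eq_of_lt (f := fun u => d u * θ ^ (u : ℕ))
      (Finset.mem_univ t) fun u hu => ?_).symm
    rw [Finset.mem_sdiff, Finset.mem_singleton] at hu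
    rcases eq_or_ne (d u) 0 with hu0 | hu0
    · rw [hu0, zero_mul, map_zero]
      exact zero_lt_iff.mpr ((Valuation.ne_zero_iff _).mpr (mul_ne_zero ht0 (pow_ne_zero _ hθ0)))
    exact lt_of_le_of_ne (ht u (Finset.mem_univ _)) (hne u t hu0 ht0 hu.2)
  -- the moves
  rw [ha, map_sum, ← Finset.sum_sub_distrib]
  have hmove' : ∀ s : Fin p, A.valuation (σ (d s * θ ^ (s : ℕ)) - d s * θ ^ (s : ℕ)) ^ p ≤
      A.valuation R.π ^ (N + 1) := by
    intro s
    rw [map_mul, hd s σ hσ, map_pow, ← mul_sub]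
    rcases eq_or_ne (d s) 0 with hs | hs
    · rw [hs, zero_mul, map_zero, zero_pow hp.out.ne_zero]; exact zero_le
    rcases eq_or_ne (s : ℕ) 0 with hs0 | hs0
    · rw [hs0, pow_zero, pow_zero, sub_self, mul_zero, map_zero, zero_pow hp.out.ne_zero]
      exact zero_le
    set q := σ θ / θ with hq
    have hq' : A.valuation (q - 1) ^ p ≤ A.valuation R.π ^ N := by
      rw [hq, div_sub_one hθ0, map_div₀, div_pow,
        div_le_iff₀ (pow_pos (zero_lt_iff.mpr (by simpa using hθ0)) p)]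
      exact hmove
    have hq1 : A.valuation (q - 1) < 1 := (pow_lt_one_iff hp.out.ne_zero).mp
      (hq'.trans_lt (pow_lt_one₀ zero_le R.val_lt_one hN.ne'))
    have hqA : q ∈ A := mem_of_sub_one hq1.le
    have hqs : A.valuation (q ^ (s : ℕ) - 1) ≤ A.valuation (q - 1) := by
      rw [← geom_sum_mul, map_mul]
      exact mul_le_of_le_one_left zero_le (val_le_one (sum_mem fun l _ => pow_mem hqA l))
    rw [show σ θ ^ (s : ℕ) - θ ^ (s : ℕ) = θ ^ (s : ℕ) * (q ^ (s : ℕ) - 1) by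
      rw [hq, mul_sub, div_pow, mul_div_cancel₀ _ (pow_ne_zero _ hθ0), mul_one], ← mul_assoc,
      map_mul, mul_pow, pow_succ' (A.valuation R.π)]
    refine mul_le_mul' ?_ ((pow_le_pow_left₀ zero_le hqs p).trans hq')
    obtain ⟨n, hn⟩ := hexp s hs
    have h1 := pow_le_one₀ (n := p) zero_le (hterm s)
    rw [hn] at h1 ⊢
    rw [← zpow_zero (A.valuation R.π), R.zpow_le] at h1
    rw [← zpow_one (A.valuation R.π), ← zpow_mul, R.zpow_le]
    rcases eq_or_lt_of_le h1 with h2 | h2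
    · exfalso
      have hdiv : (p : ℤ) ∣ (s : ℤ) * j := ⟨-n, by linarith⟩
      have h3 := ((Nat.prime_iff_prime_int.mp hp.out).dvd_mul.mp hdiv).resolve_right hj
      have h4 := Nat.le_of_dvd (Nat.pos_of_ne_zero hs0) (Int.natCast_dvd_natCast.mp h3)
      have := s.isLt
      omega
    · omega
  obtain ⟨t, -, ht⟩ := Finset.exists_max_image Finset.univ
    (fun s : Fin p => A.valuation (σ (d s * θ ^ (s : ℕ)) - d s * θ ^ (s : ℕ)))
    ⟨⟨0, hp.out.pos⟩, Finset.mem_univ _⟩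
  exact (pow_le_pow_left₀ zero_le (Valuation.map_sum_le _ fun s hs => ht s hs) p).trans (hmove' t)

/-- The bound when the radicand has valuation prime to `p`. -/
theorem move_of_val {B : GQ → ZMod p} (hadd : ∀ σ ∈ R.H, ∀ τ ∈ R.H, B (σ * τ) = B σ + B τ)
    {ρ : Qbar} (h : R.IsRad ζ ρ B) {m : ℤ} (hm : A.valuation (ρ ^ p) = A.valuation R.π ^ m)
    (hmp : ¬ (p : ℤ) ∣ m) {h₀ : GQ} (hh₀ : h₀ ∈ R.H) (hB₀ : B h₀ = 1) {a : Qbar} (haA : a ∈ A)
    (ha : ∀ σ ∈ R.H, B σ = 0 → σ a = a) :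
    A.valuation (h₀ a - a) ^ p ≤ A.valuation R.π ^ (p * R.eK + 1) := by
  obtain ⟨d, hd, hda⟩ := exists_coeffs hζ hadd h hh₀ hB₀ ha
  refine move_bound R (Nat.mul_pos hp.out.pos R.eK_pos) (by rw [← map_pow]; exact hm) hmp hh₀ ?_
    haA hd hda
  rw [h.2 h₀ hh₀, hB₀, ← sub_one_mul, map_mul, mul_pow, mul_comm p, pow_mul]
  refine mul_le_mul' (pow_le_pow_left₀ zero_le (le_of_eq ?_) p) le_rfl
  rw [zp, ZMod.val_one, pow_one, R.val_zeta_sub_one hζ]

/-- The bound at an exact level. -/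
theorem move_of_lev {B : GQ → ZMod p} (hadd : ∀ σ ∈ R.H, ∀ τ ∈ R.H, B (σ * τ) = B σ + B τ)
    {ρ : Qbar} (h : R.IsRad ζ ρ B) {j : ℕ}
    (hj : A.valuation (ρ ^ p - 1) = A.valuation R.π ^ j) (hjp : ¬ p ∣ j) (hjt : j < p * R.eK)
    {h₀ : GQ} (hh₀ : h₀ ∈ R.H) (hB₀ : B h₀ = 1) {a : Qbar} (haA : a ∈ A)
    (ha : ∀ σ ∈ R.H, B σ = 0 → σ a = a) :
    A.valuation (h₀ a - a) ^ p ≤ A.valuation R.π ^ (p * R.eK - j + 1) := by
  obtain ⟨d, hd, hda⟩ := exists_coeffs hζ hadd h hh₀ hB₀ ha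
  have hj0 : j ≠ 0 := fun h0 => hjp (h0 ▸ dvd_zero p)
  have hlt : A.valuation (ρ ^ p - 1) < 1 := hj ▸ pow_lt_one₀ zero_le R.val_lt_one hj0
  have hρA : ρ ∈ A := (pow_mem_iff hp.out.ne_zero).mp (mem_of_sub_one hlt.le)
  have hx0 : A.valuation (ρ - 1) < 1 := red_pow_eq_one R hρA hlt
  -- the valuation of `ρ - 1`
  have hθ : A.valuation (ρ - 1) ^ p = A.valuation R.π ^ j := by
    have he := pow_sub_one_expand R hρA
    by_contra hcon
    rcases lt_or_ge (A.valuation R.π ^ R.e * A.valuation (ρ - 1)) (A.valuation (ρ - 1) ^ p)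
      with h1 | h1
    · refine hcon ?_
      rw [← hj, show ρ ^ p - 1 = (ρ ^ p - 1 - (ρ - 1) ^ p) + (ρ - 1) ^ p by ring,
        Valuation.map_add_eq_of_lt_right, map_pow]
      rw [map_pow]
      exact he.trans_lt h1
    · have hp1 := hp.out.two_le
      have h2 : A.valuation (ρ ^ p - 1) ≤ A.valuation R.π ^ R.e * A.valuation (ρ - 1) := by
        rw [show ρ ^ p - 1 = (ρ ^ p - 1 - (ρ - 1) ^ p) + (ρ - 1) ^ p by ring]
        exact Valuation.map_add_le _ he (by rwa [map_pow])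
      rcases eq_or_ne (ρ - 1) 0 with h0 | h0
      · rw [h0, map_zero, mul_zero, hj] at h2
        exact pow_ne_zero _ R.val_ne_zero (le_antisymm h2 zero_le)
      have h3 : A.valuation (ρ - 1) ≤ A.valuation R.π ^ R.eK := by
        rw [← pow_sub_one_mul hp.out.ne_zero (A.valuation (ρ - 1))] at h1
        have h4 := le_of_mul_le_mul_right h1 (zero_lt_iff.mpr (by simpa using h0))
        rw [R.e_eq, pow_mul] at h4
        exact le_of_pow_le_pow_left₀ (by omega) zero_le h4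
      have h5 : A.valuation R.π ^ j ≤ A.valuation R.π ^ (R.e + R.eK) := by
        rw [← hj, pow_add]; exact h2.trans (mul_le_mul' le_rfl h3)
      rw [R.pow_le] at h5
      have := p_mul_eK R
      omega
  refine move_bound R (j := (j : ℤ)) (θ := ρ - 1) (by omega) (by rw [hθ, zpow_natCast])
    (by exact_mod_cast hjp) hh₀ ?_ haA (d := fun t => ∑ s : Fin p, d s * (s : ℕ).choose t)
    (fun t τ hτ => by
      rw [map_sum]
      refine Finset.sum_congr rfl fun s _ => ?_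
      rw [map_mul, hd s τ hτ, map_natCast]) ?_
  · rw [map_sub h₀, map_one h₀, h.2 h₀ hh₀, hθ, hB₀, ← pow_add, Nat.sub_add_cancel hjt.le,
      show zp ζ (1 : ZMod p) * ρ - 1 - (ρ - 1) = (zp ζ (1 : ZMod p) - 1) * ρ by ring, map_mul,
      mul_pow, mul_comm p R.eK, pow_mul]
    refine mul_le_of_le_of_le_one (pow_le_pow_left₀ zero_le (le_of_eq ?_) p)
      (pow_le_one₀ zero_le (val_le_one hρA))
    rw [zp, ZMod.val_one, pow_one, R.val_zeta_sub_one hζ]
  · rw [hda]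
    simp_rw [Finset.sum_mul]
    rw [Finset.sum_comm]
    refine Finset.sum_congr rfl fun s _ => ?_
    have e : ρ ^ (s : ℕ) = ∑ t : Fin p, ((s : ℕ).choose t : Qbar) * (ρ - 1) ^ (t : ℕ) := by
      rw [Fin.sum_univ_eq_sum_range (fun t => ((s : ℕ).choose t : Qbar) * (ρ - 1) ^ t) p]
      conv_lhs => rw [show ρ = (ρ - 1) + 1 by ring, add_pow]
      rw [← Finset.sum_subset (Finset.range_subset_range.mpr s.isLt) fun t _ ht => by
        rw [Nat.choose_eq_zero_of_lt (by simpa using ht), Nat.cast_zero, zero_mul]]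
      exact Finset.sum_congr rfl fun t _ => by rw [one_pow, mul_one, mul_comm]
    rw [e, Finset.mul_sum]
    exact Finset.sum_congr rfl fun t _ => by ring

end TameRoot

end FermatAgent.CFT.SelmerP

end
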