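import Fermat.Agent.CFT.SelmerP.Sys

/-!
# Coordinate systems of the extensions given by roots of units

The extension of `ZMod n` by the roots of unity of order `n` cut out by an `n`-th root of a unit
fixed by inertia has a coordinate system.
-/

set_option autoImplicit false

noncomputable section

open scoped Classical

namespace FermatAgent.CFT.SelmerP

open GaloisBasic Mazur
open Flat (Sys)

/-- The roots of unity of order `n`, written additively. -/
abbrev MuAdd (n : ℕ) : Type := Additive (rootsOfUnity n Qbar)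

/-- The value of a root of unity. -/
def muVal {n : ℕ} (l : MuAdd n) : Qbar := ((Additive.toMul l : rootsOfUnity n Qbar) : Qbarˣ).1

/-- The action on roots of unity. -/
def muAct {n : ℕ} [NeZero n] (σ : GQ) (l : MuAdd n) : MuAdd n :=
  Additive.ofMul (rootsOfUnity.mkOfPowEq (σ (muVal l)) (by
    rw [← map_pow, muVal, ← Units.val_pow_eq_pow_val,
      (mem_rootsOfUnity n _).mp (Additive.toMul l).2, Units.val_one, map_one]))

/-- The action on an extension of `ZMod n` by the roots of unity. -/
def extAct {n : ℕ} [NeZero n] (κ : GQ → MuAdd n) (σ : GQ) (z : ZMod n × MuAdd n) :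
    ZMod n × MuAdd n :=
  (z.1, muAct σ z.2 + z.1.val • κ σ)

section

variable {n : ℕ}

/-- The value of zero. -/
@[simp] lemma muVal_zero : muVal (0 : MuAdd n) = 1 := rfl

/-- Values turn sums into products. -/
lemma muVal_add (l l' : MuAdd n) : muVal (l + l') = muVal l * muVal l' := rfl

/-- Values turn multiples into powers. -/
lemma muVal_nsmul (k : ℕ) (l : MuAdd n) : muVal (k • l) = muVal l ^ k := by
  rw [muVal, toMul_nsmul, SubgroupClass.coe_pow, Units.val_pow_eq_pow_val]
  rfl

lemma muVal_pow (l : MuAdd n) : muVal l ^ n = 1 := by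
  rw [muVal, ← Units.val_pow_eq_pow_val, (mem_rootsOfUnity n _).mp (Additive.toMul l).2,
    Units.val_one]

/-- The value map is injective. -/
lemma muVal_injective : Function.Injective (muVal : MuAdd n → Qbar) := fun _ _ h =>
  Additive.toMul.injective (Subtype.ext (Units.ext h))

variable [NeZero n]

/-- The action on values. -/
@[simp] lemma muVal_act (σ : GQ) (l : MuAdd n) : muVal (muAct σ l) = σ (muVal l) := by
  simp [muAct, muVal, rootsOfUnity.val_mkOfPowEq_coe]

lemma muVal_val {A : ValuationSubring Qbar} (l : MuAdd n) : A.valuation (muVal l) = 1 :=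
  valuation_eq_one_of_pow (NeZero.ne n) (by rw [muVal_pow, map_one])

variable {A : ValuationSubring Qbar} {κ : GQ → MuAdd n} {s : Qbar}

/-- The twisted point. -/
def unitPt (s : Qbar) (z : ZMod n × MuAdd n) : Qbar := s ^ z.1.val * muVal z.2

/-- The functions of a coordinate system. -/
def unitFun (s : Qbar) (q : ZMod n × ℕ) (z : ZMod n × MuAdd n) : Qbar :=
  if z.1 = q.1 then unitPt s z ^ q.2 else 0

lemma unitPt_val (hs : A.valuation s = 1) (z : ZMod n × MuAdd n) :
    A.valuation (unitPt s z) = 1 := by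
  rw [unitPt, map_mul, map_pow, hs, one_pow, muVal_val, one_mul]

omit [NeZero n] in
lemma unitPt_pow (z : ZMod n × MuAdd n) : unitPt s z ^ n = (s ^ z.1.val) ^ n := by
  rw [unitPt, mul_pow, muVal_pow, mul_one]

lemma unitPt_equiv (hs : ∀ σ ∈ A.inertiaSubgroupIn ℚ, σ s = muVal (κ σ) * s) {σ : GQ}
    (hσ : σ ∈ A.inertiaSubgroupIn ℚ) (z : ZMod n × MuAdd n) :
    unitPt s (extAct κ σ z) = σ (unitPt s z) := by
  simp only [unitPt, extAct, muVal_add, muVal_act, muVal_nsmul, map_mul, map_pow, hs σ hσ, mul_pow]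
  ring

/-- The indicator of a point as a combination of the coordinate functions. -/
private lemma basisFun_eq_sum_unitFun (hs1 : A.valuation s = 1) (b : ZMod n) (l₀ : MuAdd n) :
    Pi.basisFun Qbar (ZMod n × MuAdd n) (b, l₀) = ∑ j ∈ Finset.range n,
      ((n : Qbar)⁻¹ / unitPt s (b, l₀) ^ j) • unitFun s (b, j) := by
  have hw : unitPt s (b, l₀) ≠ 0 := fun h => by
    have := unitPt_val (A := A) hs1 (b, l₀)
    simp [h] at this
  funext z
  rw [Pi.basisFun_apply, Pi.single_apply, Finset.sum_apply]
  simp only [Pi.smul_apply, smul_eq_mul, unitFun]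
  by_cases hb : z.1 = b
  · simp only [if_pos hb]
    have e1 : ∀ j : ℕ, (n : Qbar)⁻¹ / unitPt s (b, l₀) ^ j * unitPt s z ^ j =
        (n : Qbar)⁻¹ * (unitPt s z / unitPt s (b, l₀)) ^ j := fun j => by rw [div_pow]; ring
    rw [Finset.sum_congr rfl fun j _ => e1 j, ← Finset.mul_sum]
    have hn : (n : Qbar) ≠ 0 := Nat.cast_ne_zero.mpr (NeZero.ne n)
    by_cases hz : z = (b, l₀)
    · rw [if_pos hz, hz, div_self hw]
      simp [hn]
    · rw [if_neg hz]
      have hne : unitPt s z / unitPt s (b, l₀) ≠ 1 := fun h => hz (Prod.ext hb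
        (muVal_injective (by
          rw [div_eq_one_iff_eq hw, unitPt, unitPt, hb] at h
          exact mul_left_cancel₀ (fun h0 => hw (by rw [unitPt, h0, zero_mul])) h)))
      rw [eq_zero_of_ne_zero_of_mul_right_eq_zero (sub_ne_zero.mpr hne)
        ((geom_sum_mul _ n).trans (by
          rw [div_pow, unitPt_pow, unitPt_pow, hb, div_self, sub_self]
          exact pow_ne_zero _ (fun h0 => hw (by rw [unitPt, h0, zero_mul])))), mul_zero]
  · rw [if_neg (fun h => hb (congrArg Prod.fst h))]
    simp [hb]

/-- **The coordinate system of the extension cut out by a root of a unit.** -/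
theorem exists_sys_unit (hs1 : A.valuation s = 1)
    (hs : ∀ σ ∈ A.inertiaSubgroupIn ℚ, σ s = muVal (κ σ) * s) :
    Nonempty (Sys A (A.inertiaSubgroupIn ℚ) (extAct κ)) := by
  let G : Finset (ZMod n × MuAdd n → Qbar) :=
    (Finset.univ ×ˢ Finset.range n).image (unitFun s)
  let C : Submodule A (ZMod n × MuAdd n → Qbar) := Submodule.span A (G : Set _)
  have hgen : ∀ (b : ZMod n) (j : ℕ), j < n → unitFun s (b, j) ∈ G := fun b j hj =>
    Finset.mem_image.mpr ⟨(b, j), by simp [hj], rfl⟩
  -- every power of the point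
  have hall : ∀ (b : ZMod n) (k : ℕ), unitFun s (b, k) ∈ C := fun b k => by
    have hc : A.valuation ((s ^ b.val) ^ (n * (k / n))) = 1 := by
      rw [map_pow, map_pow, hs1, one_pow, one_pow]
    have h1 := C.smul_mem ⟨_, mem_of_val hc.le⟩
      (Submodule.subset_span (hgen b (k % n) (Nat.mod_lt _ (Nat.pos_of_ne_zero (NeZero.ne n)))))
    convert h1 using 1
    funext z
    show unitFun s (b, k) z = (s ^ b.val) ^ (n * (k / n)) * unitFun s (b, k % n) z
    simp only [unitFun]
    split_ifs with h
    · conv_lhs => rw [← Nat.div_add_mod k n, pow_add, pow_mul, unitPt_pow, h]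
      rw [← pow_mul]
    · rw [mul_zero]
  refine ⟨{
    gens := G
    integral := ?_
    equiv := ?_
    one := ?_
    mul := ?_
    add := ?_
    spans := ?_ }⟩
  · intro g hg z
    obtain ⟨⟨b, j⟩, -, rfl⟩ := Finset.mem_image.mp hg
    refine mem_of_val ?_
    simp only [unitFun]
    split_ifs
    · rw [map_pow, unitPt_val hs1, one_pow]
    · rw [map_zero]; exact zero_le
  · intro g hg σ hσ z
    obtain ⟨⟨b, j⟩, -, rfl⟩ := Finset.mem_image.mp hg
    simp only [unitFun, apply_ite σ, map_zero, map_pow, ← unitPt_equiv hs hσ]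
    rfl
  · have e : (fun _ : ZMod n × MuAdd n => (1 : Qbar)) = ∑ b : ZMod n, unitFun s (b, 0) := by
      funext z
      simp [unitFun, Finset.sum_apply]
    rw [e]
    exact Submodule.sum_mem _ fun b _ => hall b 0
  · intro f hf g hg
    obtain ⟨⟨b, i⟩, -, rfl⟩ := Finset.mem_image.mp hf
    obtain ⟨⟨b', j⟩, -, rfl⟩ := Finset.mem_image.mp hg
    rcases eq_or_ne b b' with rfl | hne
    · convert hall b (i + j) using 1
      funext z
      simp only [Pi.mul_apply, unitFun, pow_add]
      split_ifs <;> simp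
    · convert C.zero_mem using 1
      funext z
      simp only [Pi.mul_apply, unitFun, Pi.zero_apply]
      split_ifs with h1 h2 <;> simp_all
  · intro g hg
    obtain ⟨⟨b₀, j⟩, hj, rfl⟩ := Finset.mem_image.mp hg
    have hj' : j < n := by simpa using hj
    let co : ZMod n → A :=
      fun b => ⟨(s ^ b₀.val / (s ^ b.val * s ^ (b₀ - b).val)) ^ j, mem_of_val (by
      simp [map_pow, map_div₀, hs1])⟩
    have hs0 : s ≠ 0 := fun h => by simp [h] at hs1
    have e : (fun q : (ZMod n × MuAdd n) × (ZMod n × MuAdd n) => unitFun s (b₀, j) (q.1 + q.2)) =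
        ∑ b : ZMod n, co b • fun q : (ZMod n × MuAdd n) × (ZMod n × MuAdd n) =>
          unitFun s (b, j) q.1 * unitFun s (b₀ - b, j) q.2 := by
      funext q
      rw [Finset.sum_apply]
      rw [Finset.sum_eq_single q.1.1 (fun b _ hb => by
        show (co b : Qbar) * (unitFun s (b, j) q.1 * _) = 0
        simp [unitFun, Ne.symm hb]) (fun h => absurd (Finset.mem_univ _) h)]
      show unitFun s (b₀, j) (q.1 + q.2) =
        (co q.1.1 : Qbar) * (unitFun s (q.1.1, j) q.1 * unitFun s (b₀ - q.1.1, j) q.2)
      simp only [unitFun, if_true, Prod.fst_add]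
      by_cases h : q.1.1 + q.2.1 = b₀
      · have h' : q.2.1 = b₀ - q.1.1 := by rw [← h, add_sub_cancel_left]
        rw [if_pos h, if_pos h']
        simp only [co, unitPt, Prod.fst_add, Prod.snd_add, muVal_add, ← h', h]
        rw [← mul_pow, ← mul_pow]
        congr 1
        field_simp
      · rw [if_neg h, if_neg fun h' => h (by rw [h', add_sub_cancel]), mul_zero, mul_zero]
    rw [e]
    exact Submodule.sum_mem _ fun b _ => Submodule.smul_mem _ _ (Submodule.subset_span
      (Finset.mem_image₂.mpr ⟨_, hgen b j hj', _, hgen _ j hj', rfl⟩))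
  · rw [eq_top_iff, ← (Pi.basisFun Qbar (ZMod n × MuAdd n)).span_eq]
    refine Submodule.span_le.mpr ?_
    rintro _ ⟨⟨b, l₀⟩, rfl⟩
    rw [SetLike.mem_coe, basisFun_eq_sum_unitFun (A := A) hs1 b l₀]
    exact Submodule.sum_mem _ fun j hj => Submodule.smul_mem _ _
      (Submodule.subset_span (hgen b j (Finset.mem_range.mp hj)))

end

end FermatAgent.CFT.SelmerP

end
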