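import Fermat.Agent.CFT.SelmerP.OrdTau
import Fermat.Agent.CFT.SelmerP.Kummer
import Fermat.Agent.CFT.SelmerP.KummerSys

/-!
# Flat weakly ordinary representations are trivial at the tame element

Removing a unit from the radicand of the cocycle leaves a flat extension cut out by a root of `p`,
whose integral functions move less than the roots of unity of order `p`.
-/

set_option autoImplicit false

noncomputable section

open scoped Matrix

namespace FermatAgent.CFT.SelmerP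

open GaloisBasic RT IsLocalRing Mazur
open Flat (Sys)

variable {p : ℕ} [hp : Fact p.Prime] {A : ValuationSubring Qbar}

/-- An action with a coordinate system on all of the group is trivial on an open subgroup. -/
lemma _root_.FermatAgent.Flat.Sys.exists_open_trivial {M : Type} [AddCommGroup M] [Finite M]
    {act : GQ → M → M} (Z : Sys A ⊤ act) :
    ∃ L : IntermediateField ℚ Qbar, FiniteDimensional ℚ L ∧
      ∀ σ ∈ L.fixingSubgroup, ∀ x, act σ x = x := by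
  set V : Set Qbar := ⋃ g ∈ Z.gens, Set.range g
  have hV : V.Finite := Set.Finite.biUnion Z.gens.finite_toSet fun g _ => Set.finite_range g
  have : Finite V := hV.to_subtype
  refine ⟨IntermediateField.adjoin ℚ V, IntermediateField.finiteDimensional_adjoin fun x _ =>
    Algebra.IsIntegral.isIntegral x, fun σ hσ x => Z.eq_of_values fun g hg => ?_⟩
  rw [Z.equiv g hg σ (Subgroup.mem_top σ)]
  exact hσ ⟨g x, IntermediateField.subset_adjoin ℚ V (Set.mem_biUnion hg (Set.mem_range_self x))⟩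

/-- A root of unity as an element of the additive group. -/
def muMk {n : ℕ} [NeZero n] (z : Qbar) : MuAdd n :=
  if h : z ^ n = 1 then Additive.ofMul (rootsOfUnity.mkOfPowEq z h) else 0

lemma muVal_mk {n : ℕ} [NeZero n] {z : Qbar} (h : z ^ n = 1) : muVal (muMk (n := n) z) = z := by
  simp [muMk, dif_pos h, muVal, rootsOfUnity.val_mkOfPowEq_coe]

/-- The ratios of a power of a root of `p` are roots of unity of order `p`. -/
private lemma zpow_ratio_pow {P : Qbar} (hP : P ^ p = (p : Qbar)) (w : ℤ) (σ : GQ) :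
    (σ (P ^ w) / P ^ w) ^ p = 1 := by
  rw [div_pow, ← map_pow, show (P ^ w) ^ p = (p : Qbar) ^ w by
    rw [← zpow_natCast, ← zpow_mul, mul_comm, zpow_mul, zpow_natCast, hP], map_zpow₀, map_natCast,
    div_self (zpow_ne_zero w (Nat.cast_ne_zero.mpr hp.out.ne_zero))]

/-- The tame element moves the powers of a root of `p` prime to `p`. -/
private lemma zpow_ratio_ne_one {P : Qbar} (hP : P ^ p = (p : Qbar)) {w : ℤ}
    (hw : ¬ (p : ℤ) ∣ w) {τ : GQ} (hτ : IsTauZero A p τ) : τ (P ^ w) / P ^ w ≠ 1 := fun h => by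
  have hP0 : P ≠ 0 := fun h => by
    rw [h, zero_pow hp.out.ne_zero] at hP
    exact hp.out.ne_zero (by exact_mod_cast hP.symm)
  have hz : (τ P / P) ^ w = 1 := by
    rw [div_zpow, ← map_zpow₀]; exact h
  have hzp : (τ P / P) ^ (p : ℤ) = 1 := by
    rw [zpow_natCast, div_pow, ← map_pow, hP, map_natCast,
      div_self (Nat.cast_ne_zero.mpr hp.out.ne_zero)]
  obtain ⟨a, b, hab⟩ : IsCoprime w (p : ℤ) :=
    ((Nat.prime_iff_prime_int.mp hp.out).coprime_iff_not_dvd.mpr hw).symm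
  have h1 : τ P / P = 1 := by
    have hne : τ P / P ≠ 0 := div_ne_zero ((map_ne_zero τ).mpr hP0) hP0
    rw [← zpow_one (τ P / P), ← hab, zpow_add₀ hne, mul_comm a, mul_comm b, zpow_mul, zpow_mul,
      hz, hzp, one_zpow, one_zpow, one_mul]
  exact hτ.move P hP ((div_eq_one_iff_eq hP0).mp h1)

/-- The power of the tame element fixing the tame root. -/
private lemma tau_pow_mem_rootFix (R : TameRoot A p) {τ : GQ} (hτ : IsTauZero A p τ) :
    τ ^ R.e ∈ R.H := by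
  have hpow : ∀ k : ℕ, (τ ^ k) R.π / R.π = (τ R.π / R.π) ^ k := fun k => by
    induction k with
    | zero => rw [pow_zero, pow_zero, AlgEquiv.one_apply, div_self R.ne_zero]
    | succ k ih => rw [pow_succ', R.kappa_mul hτ.mem, ih, pow_succ']
  refine mem_rootFix.mpr ⟨pow_mem hτ.mem _, ?_⟩
  have h1 := hpow R.e
  rw [R.kappa_pow] at h1
  exact (div_eq_one_iff_eq R.ne_zero).mp h1

/-- A radicand all of whose ratios are roots of unity of order `p` has additive exponents. -/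
private lemma exists_exponents (R : TameRoot A p) {ζ : Qbar} (hζ : IsPrimitiveRoot ζ p) {ρ : Qbar}
    (hρ0 : ρ ≠ 0) (hratio : ∀ σ : GQ, (σ ρ / ρ) ^ p = 1) {h₀ : GQ} (hζρ : h₀ ρ / ρ = ζ) :
    ∃ Bc : GQ → ZMod p, (∀ σ, zp ζ (Bc σ) = σ ρ / ρ) ∧ R.IsRad ζ ρ Bc ∧
      (∀ σ ∈ R.H, ∀ σ' ∈ R.H, Bc (σ * σ') = Bc σ + Bc σ') ∧ Bc h₀ = 1 := by
  have : NeZero p := ⟨hp.out.ne_zero⟩
  choose b hb hbe using fun σ : GQ => hζ.eq_pow_of_pow_eq_one (hratio σ)
  set Bc : GQ → ZMod p := fun σ => (b σ : ZMod p)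
  have hBc : ∀ σ, zp ζ (Bc σ) = σ ρ / ρ := fun σ => (zp_natCast hζ _).trans (hbe σ)
  refine ⟨Bc, hBc, ⟨hρ0, fun σ _ => by rw [hBc, div_mul_cancel₀ _ hρ0]⟩, fun σ hσ σ' _ => ?_,
    zp_injective hζ (by rw [hBc, hζρ, zp, ZMod.val_one, pow_one])⟩
  refine zp_injective hζ ?_
  rw [zp_add hζ, hBc, hBc, hBc, AlgEquiv.mul_apply,
    show σ' ρ = σ' ρ / ρ * ρ from (div_mul_cancel₀ _ hρ0).symm, map_mul,
    R.H_fixes_zeta hσ (hratio σ'), div_mul_cancel₀ _ hρ0]
  ring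

/-- The extension cut out by a root of `p` has no coordinate system. -/
theorem no_sys_root (hA : A.LiesOverPrime p) {n : ℕ} [NeZero n] (hn1 : 1 < n) (hpn : p ∣ n)
    {P : Qbar} (hP : P ^ p = (p : Qbar)) {w : ℤ} (hw : ¬ (p : ℤ) ∣ w) {τ : GQ}
    (hτ : IsTauZero A p τ) :
    IsEmpty (Sys A (A.inertiaSubgroupIn ℚ)
      (extAct fun σ => muMk (n := n) (σ (P ^ w) / P ^ w))) := by
  refine ⟨fun Z => ?_⟩
  set ρ := P ^ w with hρ
  have hP0 : P ≠ 0 := fun h => by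
    rw [h, zero_pow hp.out.ne_zero] at hP
    exact hp.out.ne_zero (by exact_mod_cast hP.symm)
  have hρ0 : ρ ≠ 0 := zpow_ne_zero w hP0
  have hρp : ρ ^ p = (p : Qbar) ^ w := by
    rw [hρ, ← zpow_natCast, ← zpow_mul, mul_comm, zpow_mul, zpow_natCast, hP]
  have hratio : ∀ σ : GQ, (σ ρ / ρ) ^ p = 1 := zpow_ratio_pow hP w
  have hratio' : ∀ σ : GQ, (σ ρ / ρ) ^ n = 1 := fun σ => by
    obtain ⟨k, rfl⟩ := hpn
    rw [pow_mul, hratio, one_pow]
  obtain ⟨R, hR⟩ := TameRoot.exists_of hA one_pos hp.out.not_dvd_one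
  -- the power of the tame element fixing the root
  set h₀ := τ ^ (p - 1) with hh₀
  have he : R.e = p - 1 := by rw [R.e_eq, hR, one_mul]
  have hh₀H : h₀ ∈ R.H := by rw [hh₀, ← he]; exact tau_pow_mem_rootFix R hτ
  set ξ := τ ρ / ρ
  have hτξ : τ ξ = ξ := hτ.fixes_root (m := 1) (by rw [pow_one]; exact hratio τ)
  have hτk : ∀ k : ℕ, (τ ^ k) ρ = ξ ^ k * ρ := fun k => by
    induction k with
    | zero => rw [pow_zero, pow_zero, AlgEquiv.one_apply, one_mul]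
    | succ k ih =>
      rw [pow_succ', AlgEquiv.mul_apply, ih, map_mul, map_pow, hτξ,
        show τ ρ = ξ * ρ from (div_mul_cancel₀ _ hρ0).symm, pow_succ, mul_assoc]
  have hξ1 : ξ ≠ 1 := zpow_ratio_ne_one hP hw hτ
  have hξ : IsPrimitiveRoot ξ p :=
    (IsPrimitiveRoot.iff_orderOf).mpr (orderOf_eq_prime (hratio τ) hξ1)
  set ζ := ξ ^ (p - 1)
  have hζ : IsPrimitiveRoot ζ p := hξ.pow_of_coprime _ (by
    refine ((hp.out.coprime_iff_not_dvd).mpr fun hd => ?_).symm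
    have h2 := hp.out.two_le
    have := Nat.le_of_dvd (by omega) hd
    omega)
  have hζρ : h₀ ρ / ρ = ζ := by rw [hτk, mul_div_assoc, div_self hρ0, mul_one]
  obtain ⟨Bc, hBc, hrad, hadd, hB₀⟩ := exists_exponents R hζ hρ0 hratio hζρ
  have hm : A.valuation (ρ ^ p) = A.valuation R.π ^ ((R.e : ℤ) * w) := by
    rw [hρp, map_zpow₀, R.val_natCast_p, zpow_mul, zpow_natCast]
  have hmp : ¬ (p : ℤ) ∣ (R.e : ℤ) * w := fun hd =>
    ((Nat.prime_iff_prime_int.mp hp.out).dvd_mul.mp hd).elim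
      (fun h => R.not_dvd (Int.natCast_dvd_natCast.mp h)) hw
  -- the moved point
  set κ : GQ → MuAdd n := fun σ => muMk (σ ρ / ρ)
  have : Fact (1 < n) := ⟨hn1⟩
  set x₁ : ZMod n × MuAdd n := (1, 0)
  set z₁ : ZMod n × MuAdd n := (0, κ h₀)
  have hx : ∀ σ, extAct κ σ x₁ = x₁ + (0, κ σ) := fun σ => by
    refine Prod.ext ?_ (muVal_injective ?_)
    · simp [extAct, x₁]
    · simp [extAct, x₁, muVal_add, ZMod.val_one]
  have hbound : ∀ g ∈ Z.gens,
      A.valuation (g (x₁ + z₁) - g x₁) ^ p ≤ A.valuation R.π ^ (p * R.eK + 1) := fun g hg => by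
    rw [show x₁ + z₁ = extAct κ h₀ x₁ from (hx h₀).symm, Z.equiv g hg h₀ (mem_rootFix.mp hh₀H).1]
    refine TameRoot.move_of_val hζ hadd hrad hm hmp hh₀H hB₀ (Z.integral g hg x₁) fun σ hσ hσ0 => ?_
    rw [← Z.equiv g hg σ (mem_rootFix.mp hσ).1, hx,
      show κ σ = 0 from muVal_injective (by
        rw [muVal_mk (hratio' σ), muVal_zero, ← hBc, hσ0, zp_zero])]
    simp [Prod.mk_zero_zero]
  have hz0 : z₁ ≠ 0 := fun h => by
    have h1 : muVal (muMk (n := n) (h₀ ρ / ρ)) = muVal (0 : MuAdd n) :=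
      congrArg (fun q : ZMod n × MuAdd n => muVal q.2) h
    rw [muVal_mk (hratio' h₀), hζρ, muVal_zero] at h1
    exact hζ.ne_one hp.out.one_lt h1
  have hpz : p • z₁ = 0 := by
    refine Prod.ext (smul_zero p) (muVal_injective ?_)
    rw [Prod.smul_snd, muVal_nsmul, muVal_mk (hratio' h₀), hratio, Prod.snd_zero, muVal_zero]
  obtain ⟨g, hg, hfar⟩ := Z.exists_far hA hz0 hpz
  obtain ⟨g₀, hg₀, hmax⟩ :=
    Z.gens.exists_max_image (fun g => A.valuation (g (x₁ + z₁) - g x₁)) ⟨g, hg⟩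
  have hclose := Z.close_of_translate x₁ (z := z₁) hmax
  have h1 := pow_le_pow_left₀ zero_le (hfar.trans (pow_le_pow_left₀ zero_le (hclose g hg) _)) p
  rw [← pow_mul, mul_comm (p - 1) p, pow_mul, R.val_natCast_p, ← pow_mul] at h1
  have h2 := h1.trans (pow_le_pow_left₀ zero_le (hbound g₀ hg₀) (p - 1))
  rw [← pow_mul, R.pow_le, hR, he, mul_one, add_mul, one_mul, mul_comm (p - 1) p] at h2
  have := hp.out.two_le
  omega

variable {B : Type} [CommRing B] {M : MatRep B} {χ : GQ → B} {π : Matrix (Fin 2) (Fin 2) B}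

/-- The part on the line of the extension generated by a vector. -/
def lineExtAct (W : Submodule B (Fin 2 → B)) {n : ℕ} [NeZero n] (χ : GQ → B) (c : GQ → W)
    (κ : GQ → MuAdd n) (σ : GQ) (z : W × (ZMod n × MuAdd n)) : W × (ZMod n × MuAdd n) :=
  (χ σ • z.1 + z.2.1.val • c σ, extAct κ σ z.2)

variable {𝒪 : Type} [CommRing 𝒪] [IsLocalRing 𝒪] [Algebra ℤ_[p] 𝒪] [Algebra 𝒪 B] [Finite B]

/-- The cocycle of a vector, moved to the line. -/
private def lineCocycle (M : MatRep B) (π : Matrix (Fin 2) (Fin 2) B) (x : Fin 2 → B) (σ : GQ) :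
    LinearMap.range (Matrix.mulVecLin π) :=
  ⟨π *ᵥ ((M σ - 1) *ᵥ x), LinearMap.mem_range_self (Matrix.mulVecLin π) _⟩

omit [Finite B] [IsLocalRing 𝒪] [Algebra ℤ_[p] 𝒪] [Algebra 𝒪 B] in
/-- A functional taking a value of exact order `p` at a nonzero vector. -/
private lemma exists_functional_order {G : Type*} [AddCommGroup G] [Finite G]
    {m : ℕ} (hkill : ∀ y : G, (p ^ m) • y = 0) {y : G} (hy : y ≠ 0) :
    m ≠ 0 ∧ ∃ φ : Multiplicative G →* Qbarˣ,
      ((φ (Multiplicative.ofAdd y) : Qbarˣ) : Qbar) ^ p = 1 ∧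
        ((φ (Multiplicative.ofAdd y) : Qbarˣ) : Qbar) ≠ 1 := by
  have : NeZero (p ^ m) := ⟨pow_ne_zero m hp.out.ne_zero⟩
  obtain ⟨φ₀, hφ₀⟩ : ∃ φ : Multiplicative G →* Qbarˣ, φ (Multiplicative.ofAdd y) ≠ 1 := by
    by_contra hall
    push Not at hall
    exact hy (eq_of_functionals fun φ => by rw [hall φ, ofAdd_zero, map_one])
  have hord : orderOf (φ₀ (Multiplicative.ofAdd y)) ∣ p ^ m := orderOf_dvd_of_pow_eq_one
    (Units.ext (by rw [Units.val_pow_eq_pow_val]; exact functional_pow hkill φ₀ _))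
  obtain ⟨j, hjm, hj⟩ := (Nat.dvd_prime_pow hp.out).mp hord
  obtain ⟨i, rfl⟩ : ∃ i, j = i + 1 := ⟨j - 1, (Nat.succ_pred_eq_of_ne_zero fun h => hφ₀ (by
    rw [h, pow_zero, orderOf_eq_one_iff] at hj; exact hj)).symm⟩
  refine ⟨by omega, φ₀ ^ p ^ i, ?_, fun h => ?_⟩
  · rw [MonoidHom.pow_apply, ← Units.val_pow_eq_pow_val, ← pow_mul, ← pow_succ, ← hj,
      pow_orderOf_eq_one, Units.val_one]
  · have h1 : φ₀ (Multiplicative.ofAdd y) ^ p ^ i = 1 := Units.ext h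
    have h2 := orderOf_dvd_of_pow_eq_one h1
    rw [hj, Nat.pow_dvd_pow_iff_le_right hp.out.one_lt] at h2
    omega

omit [IsLocalRing 𝒪] [Finite B] in
/-- The radicand of a cocycle, nontrivial at the tame element, is a power of a root of `p` prime
to `p` times a unit. -/
private lemma exists_unit_radicand (hA : A.LiesOverPrime p) {τ : GQ}
    (hτ : IsTauZero A p τ) {m' : ℕ} (hm : (p : B) ^ (m' + 1) = 0) {G : Type*} [AddCommGroup G]
    [Module B G] (φ : Multiplicative G →* Qbarˣ) (c : GQ → G)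
    (hcoc : ∀ σ ∈ A.inertiaSubgroupIn ℚ, ∀ σ' ∈ A.inertiaSubgroupIn ℚ,
      c (σ * σ') = algebraMap 𝒪 B (cycloO p 𝒪 σ) • c σ' + c σ)
    {U : Subgroup GQ} (hU : IsOpen (U : Set GQ)) (hU0 : ∀ σ ∈ U, c σ = 0)
    (hξ : ((φ (Multiplicative.ofAdd (c τ)) : Qbarˣ) : Qbar) ^ p = 1)
    (hξ1 : ((φ (Multiplicative.ofAdd (c τ)) : Qbarˣ) : Qbar) ≠ 1) :
    ∃ (P : Qbar) (w : ℤ) (s : Qbar), P ^ p = (p : Qbar) ∧ ¬ (p : ℤ) ∣ w ∧ A.valuation s = 1 ∧
      ∀ σ ∈ A.inertiaSubgroupIn ℚ, σ s / s =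
        σ (P ^ w) / P ^ w / (φ (Multiplicative.ofAdd (c σ)) : Qbarˣ) := by
  set n := p ^ (m' + 1) with hn
  have : NeZero n := ⟨pow_ne_zero _ hp.out.ne_zero⟩
  obtain ⟨r, v, hr0, hr, hrn, hv⟩ := exists_radicand hA hm φ c hcoc hU hU0
  obtain ⟨Pn, hPn⟩ := IsAlgClosed.exists_pow_nat_eq (p : Qbar) (Nat.pos_of_ne_zero (NeZero.ne n))
  obtain ⟨hs1, hτr⟩ := tau_ratio hτ hPn hr0 hrn hv
  rw [hr τ hτ.mem, mul_div_cancel_right₀ _ hr0] at hτr
  set P := Pn ^ p ^ m' with hPdef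
  have hPp : P ^ p = (p : Qbar) := by rw [hPdef, ← pow_mul, ← pow_succ]; exact hPn
  have hPn0 : Pn ≠ 0 := fun h => by
    rw [h, zero_pow (NeZero.ne n)] at hPn
    exact hp.out.ne_zero (by exact_mod_cast hPn.symm)
  have hξn : IsPrimitiveRoot (τ Pn / Pn) (p ^ (m' + 1)) := by
    refine IsPrimitiveRoot.iff_orderOf.mpr (orderOf_eq_prime_pow (fun h => ?_) (by
      rw [div_pow, ← map_pow, hPn, map_natCast, div_self (Nat.cast_ne_zero.mpr hp.out.ne_zero)]))
    rw [div_pow, ← map_pow, div_eq_one_iff_eq (pow_ne_zero _ hPn0)] at h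
    exact hτ.move P hPp h
  obtain ⟨w, rfl⟩ : ((p ^ m' : ℕ) : ℤ) ∣ v := by
    have h1 : (τ Pn / Pn) ^ (v * p) = 1 := by
      rw [zpow_mul, ← hτr, zpow_natCast]; exact hξ
    obtain ⟨k, hk⟩ := (hξn.zpow_eq_one_iff_dvd _).mp h1
    refine ⟨k, mul_right_cancel₀ (Nat.cast_ne_zero.mpr hp.out.ne_zero : (p : ℤ) ≠ 0) ?_⟩
    rw [hk]
    push_cast
    ring
  have hPw : Pn ^ (((p ^ m' : ℕ) : ℤ) * w) = P ^ w := by rw [zpow_mul, zpow_natCast]
  have hw : ¬ (p : ℤ) ∣ w := fun ⟨k, hk⟩ => hξ1 (by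
    rw [hτr, hk, ← mul_assoc, zpow_mul, ← Nat.cast_mul, zpow_natCast, ← pow_succ,
      hξn.pow_eq_one, one_zpow])
  rw [hPw] at hs1
  refine ⟨P, w, P ^ w / r, hPp, hw, by rw [← inv_div, map_inv₀, hs1, inv_one], fun σ hσ => ?_⟩
  have := (φ (Multiplicative.ofAdd (c σ))).ne_zero
  rw [map_div₀, hr σ hσ]
  field_simp

omit hp [IsLocalRing 𝒪] [Algebra ℤ_[p] 𝒪] [Algebra 𝒪 B] in
/-- The coordinate system of the sub extension on the line. -/
private lemma nonempty_sys_lineExt (S : OrdShape A M χ π)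
    (Z0 : Sys A ⊤ fun σ (y : Fin 2 → B) => matAct M σ y) {n : ℕ} [NeZero n] (x : Fin 2 → B)
    (hx : n • x = 0) {κ : GQ → MuAdd n} (Zu : Sys A (A.inertiaSubgroupIn ℚ) (extAct κ)) :
    Nonempty (Sys A (A.inertiaSubgroupIn ℚ)
      (lineExtAct (LinearMap.range (Matrix.mulVecLin π)) χ (lineCocycle M π x) κ)) := by
  let W : Submodule B (Fin 2 → B) := LinearMap.range (Matrix.mulVecLin π)
  let ax : ZMod n →+ (Fin 2 → B) := ZMod.lift n ⟨zmultiplesHom _ x, by
    show ((n : ℕ) : ℤ) • x = 0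
    rw [natCast_zsmul]; exact hx⟩
  have hax : ∀ a : ZMod n, ax a = a.val • x := fun a => by
    conv_lhs => rw [← ZMod.natCast_zmod_val a, ← Int.cast_natCast (R := ZMod n)]
    rw [ZMod.lift_coe]
    exact natCast_zsmul x _
  let ι : W × (ZMod n × MuAdd n) →+ (Fin 2 → B) × (ZMod n × MuAdd n) :=
    AddMonoidHom.mk' (fun z => (ax z.2.1 + z.1.1, z.2)) fun a b => by
      refine Prod.ext ?_ rfl
      show ax (a.2.1 + b.2.1) + ((a.1 : Fin 2 → B) + b.1) = ax a.2.1 + a.1.1 + (ax b.2.1 + b.1.1)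
      rw [map_add]
      abel
  have hιinj : Function.Injective ι := fun a b h' => by
    have h : ((ax a.2.1 + a.1.1, a.2) : (Fin 2 → B) × (ZMod n × MuAdd n)) =
        (ax b.2.1 + b.1.1, b.2) := h'
    have h2 : a.2 = b.2 := congrArg (fun z : (Fin 2 → B) × (ZMod n × MuAdd n) => z.2) h
    have h1 : ax a.2.1 + (a.1 : Fin 2 → B) = ax b.2.1 + b.1 :=
      congrArg (fun z : (Fin 2 → B) × (ZMod n × MuAdd n) => z.1) h
    rw [h2] at h1
    exact Prod.ext (Subtype.ext (add_left_cancel h1)) h2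
  refine ⟨((Z0.mono le_top).prod Zu).restrict
    (act' := lineExtAct W χ (lineCocycle M π x) κ) ι hιinj fun σ hσ z => ?_⟩
  obtain ⟨⟨wv, y, rfl⟩, a, l⟩ := z
  refine Prod.ext ?_ rfl
  show ax a + (χ σ • (π *ᵥ y) + a.val • (π *ᵥ ((M σ - 1) *ᵥ x))) = M σ *ᵥ (ax a + π *ᵥ y)
  rw [Matrix.mulVec_mulVec _ π (M σ - 1), S.proj_mul_sub hσ, Matrix.mulVec_add,
    Matrix.mulVec_mulVec, S.mul_proj_inertia hσ, Matrix.smul_mulVec, hax, Matrix.mulVec_smul]
  simp only [Matrix.sub_mulVec, Matrix.one_mulVec, smul_sub]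
  abel

omit [IsLocalRing 𝒪] in
/-- The quotient of the sub extension on the line is the extension cut out by the root. -/
private lemma nonempty_sys_root_of_line
    (S : OrdShape A M (fun σ => algebraMap 𝒪 B (cycloO p 𝒪 σ)) π) {m : ℕ} (hm : (p : B) ^ m = 0)
    [NeZero (p ^ m)] (x : Fin 2 → B) (φ : Multiplicative (Fin 2 → B) →* Qbarˣ) {s ρ : Qbar}
    (hρn : ∀ σ : GQ, (σ ρ / ρ) ^ p ^ m = 1)
    (hsρ : ∀ σ ∈ A.inertiaSubgroupIn ℚ,
      σ s / s = σ ρ / ρ / (φ (Multiplicative.ofAdd ((M σ - 1) *ᵥ x)) : Qbarˣ))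
    (Z1 : Sys A (A.inertiaSubgroupIn ℚ) (lineExtAct (LinearMap.range (Matrix.mulVecLin π))
      (fun σ => algebraMap 𝒪 B (cycloO p 𝒪 σ)) (lineCocycle M π x)
      (fun σ => muMk (n := p ^ m) (σ s / s)))) :
    Nonempty (Sys A (A.inertiaSubgroupIn ℚ)
      (extAct fun σ => muMk (n := p ^ m) (σ ρ / ρ))) := by
  set n := p ^ m with hn
  let W : Submodule B (Fin 2 → B) := LinearMap.range (Matrix.mulVecLin π)
  have hkill : ∀ y : Fin 2 → B, n • y = 0 := fun y => nsmul_mat_eq_zero hm y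
  have hκs : ∀ σ ∈ A.inertiaSubgroupIn ℚ, (σ s / s) ^ n = 1 := fun σ hσ => by
    rw [hsρ σ hσ, div_pow, hρn σ, functional_pow hkill, div_one]
  let φW : W →+ MuAdd n := AddMonoidHom.mk'
    (fun y => muMk ((φ (Multiplicative.ofAdd (y : Fin 2 → B)) : Qbarˣ) : Qbar)) fun a b => by
      refine muVal_injective ?_
      rw [muVal_add, muVal_mk (functional_pow hkill φ _), muVal_mk (functional_pow hkill φ _),
        muVal_mk (functional_pow hkill φ _), Submodule.coe_add, ofAdd_add, map_mul, Units.val_mul]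
  have hφW : ∀ y : W, muVal (φW y) = ((φ (Multiplicative.ofAdd (y : Fin 2 → B)) : Qbarˣ) : Qbar) :=
    fun y => muVal_mk (functional_pow hkill φ _)
  let q : W × (ZMod n × MuAdd n) →+ ZMod n × MuAdd n :=
    AddMonoidHom.mk' (fun z => (z.2.1, z.2.2 + φW z.1)) fun a b => by
      refine Prod.ext rfl ?_
      show a.2.2 + b.2.2 + φW (a.1 + b.1) = a.2.2 + φW a.1 + (b.2.2 + φW b.1)
      rw [map_add]
      abel
  have hqsurj : Function.Surjective q := fun z =>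
    ⟨(0, z), Prod.ext rfl (show z.2 + φW 0 = z.2 by rw [map_zero, add_zero])⟩
  have : Finite W := inferInstance
  obtain ⟨Z2, -⟩ := Z1.exists_quotient
    (act' := extAct fun σ => muMk (n := n) (σ ρ / ρ)) q hqsurj fun σ hσ z => by
      obtain ⟨y, a, l⟩ := z
      refine Prod.ext rfl (muVal_injective ?_)
      show muVal (muAct σ l + a.val • muMk (n := n) (σ s / s) +
          φW ((algebraMap 𝒪 B (cycloO p 𝒪 σ)) • y + a.val • lineCocycle M π x σ)) =
        muVal (muAct σ (l + φW y) + a.val • muMk (n := n) (σ ρ / ρ))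
      have hcW : ((lineCocycle M π x σ : W) : Fin 2 → B) = (M σ - 1) *ᵥ x := by
        show π *ᵥ ((M σ - 1) *ᵥ x) = (M σ - 1) *ᵥ x
        rw [Matrix.mulVec_mulVec, S.proj_mul_sub hσ]
      simp only [muVal_add, muVal_act, muVal_nsmul, hφW, muVal_mk (hκs σ hσ),
        muVal_mk (hρn σ), Submodule.coe_add, SetLike.val_smul, SetLike.val_smul_of_tower,
        ofAdd_add, map_mul, Units.val_mul, functional_cyclo hm, functional_nsmul, hcW]
      rw [hsρ σ hσ]
      simp only [div_pow]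
      have := (φ (Multiplicative.ofAdd ((M σ - 1) *ᵥ x))).ne_zero
      field_simp
  exact ⟨Z2⟩

omit [IsLocalRing 𝒪] in
/-- **A flat representation of ordinary shape is trivial at the tame element.** -/
theorem tau_eq_one_of_flat (hA : A.LiesOverPrime p)
    (S : OrdShape A M (fun σ => algebraMap 𝒪 B (cycloO p 𝒪 σ)) π) (hpB : IsNilpotent (p : B))
    (hflat : Flat.IsFlatAct p (matAct M)) {τ : GQ} (hτ : IsTauZero A p τ) : M τ = 1 := by
  classical
  obtain ⟨Z0⟩ := Sys.exists_of_isFlatAct hA hflat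
  obtain ⟨L, hL, hLM⟩ := Z0.exists_open_trivial
  obtain ⟨m, hm⟩ := hpB
  have : NeZero (p ^ m) := ⟨pow_ne_zero m hp.out.ne_zero⟩
  by_contra hne
  obtain ⟨x, hx⟩ : ∃ x, (M τ - 1) *ᵥ x ≠ 0 := by
    by_contra hall
    push Not at hall
    refine hne (sub_eq_zero.mp (Matrix.ext fun i j => ?_))
    have h1 := congrFun (hall (Pi.single j 1)) i
    simpa [Matrix.mulVec_single_one] using h1
  set c : GQ → Fin 2 → B := fun σ => (M σ - 1) *ᵥ x
  have hkill : ∀ y : Fin 2 → B, (p ^ m) • y = 0 := fun y => nsmul_mat_eq_zero hm y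
  obtain ⟨hm0, φ, hξ, hξ1⟩ := exists_functional_order hkill hx
  obtain ⟨m', rfl⟩ : ∃ m', m = m' + 1 := ⟨m - 1, by omega⟩
  have hn1 : 1 < p ^ (m' + 1) := Nat.one_lt_pow m'.succ_ne_zero hp.out.one_lt
  have hcoc : ∀ σ ∈ A.inertiaSubgroupIn ℚ, ∀ σ' ∈ A.inertiaSubgroupIn ℚ,
      c (σ * σ') = algebraMap 𝒪 B (cycloO p 𝒪 σ) • c σ' + c σ := fun σ hσ σ' hσ' => by
    simp only [c, S.cocycle hσ hσ', Matrix.add_mulVec, Matrix.smul_mulVec]
  obtain ⟨P, w, s, hPp, hw, hs1, hsρ⟩ := exists_unit_radicand hA hτ hm φ c hcoc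
    (L.fixingSubgroup_isOpen) (fun σ hσ => by
      show (M σ - 1) *ᵥ x = 0
      rw [Matrix.sub_mulVec, Matrix.one_mulVec, ← matAct_apply, hLM σ hσ, sub_self]) hξ hξ1
  have hPratio : ∀ σ : GQ, (σ (P ^ w) / P ^ w) ^ p ^ (m' + 1) = 1 := fun σ => by
    rw [pow_succ', pow_mul, zpow_ratio_pow hPp, one_pow]
  have hs0 : s ≠ 0 := fun h => by rw [h, map_zero] at hs1; exact zero_ne_one hs1
  have hκs : ∀ σ ∈ A.inertiaSubgroupIn ℚ, (σ s / s) ^ p ^ (m' + 1) = 1 := fun σ hσ => by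
    rw [hsρ σ hσ, div_pow, hPratio σ, functional_pow hkill, div_one]
  obtain ⟨Zu⟩ := exists_sys_unit (A := A) (κ := fun σ => muMk (n := p ^ (m' + 1)) (σ s / s)) hs1
    fun σ hσ => by rw [muVal_mk (hκs σ hσ), div_mul_cancel₀ _ hs0]
  -- the sub extension on the line, and its quotient
  obtain ⟨Z1⟩ := nonempty_sys_lineExt S Z0 x (hkill x) Zu
  obtain ⟨Z2⟩ := nonempty_sys_root_of_line S hm x φ hPratio hsρ Z1
  exact (no_sys_root hA hn1 (dvd_pow_self p m'.succ_ne_zero) hPp hw hτ).false Z2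

/-- The vanishing at an index of the weak equations. -/
theorem flat_weakOrd_tau_eq_one [IsLocalRing B] [Finite (ResidueField 𝒪)]
    (hpB : IsNilpotent (p : B))
    (hw : (Lifting.weakOrdMatCond (cycloO p 𝒪) p).P M)
    (hdet : ∀ σ, (M σ).det = algebraMap 𝒪 B (cycloO p 𝒪 σ))
    (hflat : (flatMatCond (𝒪 := 𝒪) p).P M)
    (i : OrdIndex (cycloO p 𝒪) p) {τ : GQ} (hτ : IsTauZero i.P p τ) : M τ = 1 :=
  tau_eq_one_of_flat i.lies (ordShape_of_weakOrd hw hdet i) hpB hflat hτ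

end FermatAgent.CFT.SelmerP

end
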