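import Fermat.Agent.CFT.SelmerP.OrdLine

/-!
# The bounds on ordinary local classes

Local classes of deformations of the ordinary shape lie on the line of trace free matrices mapping
the quotient to the line. Strictly ordinary deformations have local classes of dimension at most
one more than that of the fixed trace free matrices; deformations with constant quotient eigenvalue
of square one, trivial at the element moving only the roots of `p`, at most that dimension.
-/

set_option autoImplicit false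

noncomputable section

open scoped Classical

namespace FermatAgent.CFT.SelmerP

open GaloisBasic Selmer Euler Pairing Global Local LocalEuler

variable {p : ℕ} [hp : Fact p.Prime] {k : Type} [Field k] [CharP k p] [Finite k]

omit [Finite k] in
/-- The cyclotomic character of an element fixing the roots of unity of order `p`. -/
lemma chiK_eq_one {σ : GQ} (h : σ (zet p) = zet p) : (chiK k p σ : k) = 1 := by
  have : NeZero p := ⟨hp.out.ne_zero⟩
  have h1 := apply_zet p σ
  rw [h] at h1
  have h2 : ((chiQ p σ : ZMod p)).val = 1 := ((zet_spec p).pow_inj (ZMod.val_lt _) hp.out.one_lt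
    (h1.symm.trans (pow_one _).symm))
  rw [coe_chiK, show (chiQ p σ : ZMod p) = 1 from
    ZMod.val_injective p (h2.trans (ZMod.val_one p).symm), map_one]

omit [Finite k] in
/-- The class of a root of `p` is a cocycle of the line taking a nonzero value at an element
moving that root. -/
theorem exists_root_class {P : Qbar} (hP : P ^ p = (p : Qbar)) :
    ∃ β ∈ lineCoc k p, ∀ d : Gal' p,
      localGaloisToGlobal p d P ≠ P → localGaloisToGlobal p d (zet p) = zet p → β d ≠ 0 := by
  have : NeZero p := ⟨hp.out.ne_zero⟩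
  have hP0 : P ≠ 0 := fun h => by
    rw [h, zero_pow hp.out.ne_zero] at hP
    exact hp.out.ne_zero (by exact_mod_cast hP.symm)
  have hroot : ∀ σ : GQ, (σ P / P) ^ p = 1 := fun σ => by
    rw [div_pow, ← map_pow, hP, map_natCast, div_self (Nat.cast_ne_zero.mpr hp.out.ne_zero)]
  choose b hb hbe using fun σ : GQ => (zet_spec p).eq_pow_of_pow_eq_one (hroot σ)
  have hval : ∀ σ, σ P = zet p ^ b σ * P := fun σ => by rw [hbe, div_mul_cancel₀ _ hP0]
  have hinj : ∀ {a c : ℕ}, zet p ^ a = zet p ^ c → (a : k) = c := fun h => by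
    rw [CharP.natCast_eq_natCast k p]
    have hmod : ∀ i : ℕ, zet p ^ (i % p) = zet p ^ i := fun i => by
      have := pow_mod_orderOf (zet p) i
      rwa [← (zet_spec p).eq_orderOf] at this
    exact (zet_spec p).pow_inj (Nat.mod_lt _ hp.out.pos) (Nat.mod_lt _ hp.out.pos)
      ((hmod _).trans (h.trans (hmod _).symm))
  have hχ : ∀ σ, ((chiQ p σ : ZMod p).val : k) = chiK k p σ := fun σ => by
    rw [coe_chiK, ← map_natCast (ZMod.castHom (dvd_refl p) k), ZMod.natCast_zmod_val]
  set e : GQ → k := fun σ => (b σ : k) with he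
  have hmul : ∀ σ τ, e (σ * τ) = e σ + (chiK k p σ : k) * e τ := fun σ τ => by
    rw [← hχ, he]
    dsimp only
    rw [← Nat.cast_mul, ← Nat.cast_add]
    refine hinj (mul_right_cancel₀ hP0 ?_)
    rw [← hval, AlgEquiv.mul_apply, hval τ, map_mul, map_pow, apply_zet, hval σ, ← pow_mul, pow_add]
    ring
  set K := IntermediateField.adjoin ℚ ({P} : Set Qbar)
  have hK0 : ∀ s ∈ K.fixingSubgroup, e s = 0 := fun s hs => by
    have h1 : s P = P := hs ⟨P, IntermediateField.mem_adjoin_simple_self ℚ P⟩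
    rw [he]
    dsimp only
    rw [← Nat.cast_zero]
    refine hinj (mul_right_cancel₀ hP0 ?_)
    rw [← hval, h1, pow_zero, one_mul]
  have : FiniteDimensional ℚ K :=
    IntermediateField.adjoin.finiteDimensional (Algebra.IsIntegral.isIntegral P)
  refine ⟨fun d => e (localGaloisToGlobal p d), ⟨fun g h => by dsimp only; rw [map_mul, hmul]; rfl,
    K.fixingSubgroup.comap (localGaloisToGlobal p),
    mem_LL_of_comap _ (LQ.comap_mem _ ⟨K, inferInstance, le_rfl⟩), fun g s hs => by
      show e (localGaloisToGlobal p (g * s)) = e (localGaloisToGlobal p g)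
      rw [map_mul, hmul, hK0 _ hs, mul_zero, add_zero]⟩, fun d hd _ h0 => hd ?_⟩
  set σ := localGaloisToGlobal p d
  have h1 : (b σ : k) = 0 := h0
  rw [CharP.cast_eq_zero_iff k p] at h1
  rw [hval, Nat.eq_zero_of_dvd_of_lt h1 (hb σ), pow_zero, one_mul]

/-! ### Ingredients of the bound -/

omit [CharP k p] in
/-- A common level for a representation and a finite space of cochains. -/
private lemma exists_common_level {r : MatRep k}
    (hr : ∃ L : IntermediateField ℚ Qbar, FiniteDimensional ℚ L ∧ ∀ σ ∈ L.fixingSubgroup, r σ = 1)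
    (V : Submodule k (GQ → M22 k)) [Module.Finite k V]
    (hcont : ∀ c ∈ V, ∃ L : IntermediateField ℚ Qbar, FiniteDimensional ℚ L ∧
      ∀ σ ∈ L.fixingSubgroup, c σ = 0) :
    ∃ L : IntermediateField ℚ Qbar, FiniteDimensional ℚ L ∧
      ∀ σ ∈ L.fixingSubgroup, r σ = 1 ∧ ∀ c ∈ V, c σ = 0 := by
  obtain ⟨Lr, hLr, hrL⟩ := hr
  have : Finite V := Module.finite_of_finite k
  choose Lc hLc hLc0 using fun c : V => hcont c.1 c.2
  have := hLc
  set LV : IntermediateField ℚ Qbar := ⨆ c : V, Lc c
  have : FiniteDimensional ℚ LV := IntermediateField.finiteDimensional_iSup_of_finite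
  refine ⟨LV ⊔ Lr, IntermediateField.finiteDimensional_sup LV Lr, fun σ hσ => ?_⟩
  rw [IntermediateField.fixingSubgroup_sup] at hσ
  exact ⟨hrL σ hσ.2, fun c hc => hLc0 ⟨c, hc⟩ σ
    (IntermediateField.fixingSubgroup_antitone (le_iSup Lc ⟨c, hc⟩) hσ.1)⟩

omit [Finite k] in
/-- What a lift says about the representation and about its class. -/
private lemma exists_shape_of_lift {r : MatRep k} {c : GQ → M22 k} (hc : c ∈ adCoc r)
    {L : IntermediateField ℚ Qbar} [FiniteDimensional ℚ L]
    (hL : ∀ σ ∈ L.fixingSubgroup, r σ = 1 ∧ c σ = 0) {σ₀ τ F : GQ} {u d₀ : k}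
    (hF : (padicPlace p).IsFrobeniusAt F p) {N : MatRep (DualNumber k)}
    (hN : ∀ g, N g = epsLift r c g)
    (S : OrdShape (padicPlace p) N (fun σ => TrivSqZeroExt.inl (chiK k p σ : k))
      ((TrivSqZeroExt.inl u : DualNumber k) • (N σ₀ - 1)))
    (hd : ((1 - (TrivSqZeroExt.inl u : DualNumber k) • (N σ₀ - 1)) * N F).trace =
      TrivSqZeroExt.inl d₀) (hNτ : N τ = 1) :
    OrdShape (padicPlace p) r (fun σ => (chiK k p σ : k)) (u • (r σ₀ - 1)) ∧
      ((1 - u • (r σ₀ - 1)) * r F).trace = d₀ ∧ r τ = 1 ∧ c τ = 0 ∧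
      ∃ e : M22 k, ∀ σ ∈ (padicPlace p).decompositionSubgroup ℚ,
        u • (r σ₀ - 1) * (c σ - (r σ * e * r σ⁻¹ - e)) = c σ - (r σ * e * r σ⁻¹ - e) ∧
          (c σ - (r σ * e * r σ⁻¹ - e)) * (u • (r σ₀ - 1)) = 0 := by
  obtain ⟨h1, h2, h3⟩ := exists_line_normalisation liesOverPrime_padicPlace hc hN S hL hF hd
  have e1 := congrArg fstMat hNτ
  have e2 := congrArg sndMat hNτ
  rw [map_one] at e1
  rw [sndMat_one] at e2
  have hrτ : r τ = 1 := by
    rw [← e1]; ext i j; simp [fstMat, hN, epsLift]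
  refine ⟨h1, h2, hrτ, ?_, h3⟩
  rw [← e2]; ext i j; simp [sndMat, hN, epsLift, hrτ]

omit [CharP k p] [Finite k] in
/-- The quotient character has square one, as this is so at Frobenius and on inertia. -/
private lemma quotChar_sq {r : MatRep k} {χ : GQ → k} {π : M22 k}
    (S : OrdShape (padicPlace p) r χ π)
    (hr : ∃ L : IntermediateField ℚ Qbar, FiniteDimensional ℚ L ∧ ∀ σ ∈ L.fixingSubgroup, r σ = 1)
    {F : GQ} (hF : (padicPlace p).IsFrobeniusAt F p) {d₀ : k} (hd₀ : d₀ * d₀ = 1)
    (hdF : ((1 - π) * r F).trace = d₀) {σ : GQ}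
    (hσ : σ ∈ (padicPlace p).decompositionSubgroup ℚ) :
    ((1 - π) * r σ).trace * ((1 - π) * r σ).trace = 1 := by
  obtain ⟨Lr, hLr, hrL⟩ := hr
  obtain ⟨j, ι, hι, h, hh, rfl⟩ :=
    exists_frob_pow_mul_inertia hp.out liesOverPrime_padicPlace hF hσ Lr
  have hFD := pow_mem hF.mem_decompositionSubgroup j
  have hιD := inertiaSubgroupIn_le_decompositionSubgroup (padicPlace p) hι
  have hpow : ∀ i : ℕ, ((1 - π) * r (F ^ i)).trace * ((1 - π) * r (F ^ i)).trace = 1 := fun i => by
    induction i with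
    | zero => rw [pow_zero, map_one, mul_one, S.trace_one_sub, one_mul]
    | succ i ih =>
      rw [pow_succ, S.quotChar_mul (pow_mem hF.mem_decompositionSubgroup i),
        hdF, mul_mul_mul_comm, ih, hd₀, one_mul]
  rw [S.quotChar_mul (mul_mem hFD hιD), S.quotChar_mul hFD, hrL h hh, mul_one,
    S.trace_one_sub, mul_one, S.quotChar_inertia hι, mul_one, hpow]

omit [CharP k p] [Finite k] in
/-- A local element agreeing with the tame element at a given level and on the roots of `p`. -/
private lemma exists_local_tame {τ : GQ} (hτ : IsTauZero (padicPlace p) p τ)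
    (L : IntermediateField ℚ Qbar) [FiniteDimensional ℚ L] :
    ∃ (d : Gal' p) (P : Qbar), (localGaloisToGlobal p d)⁻¹ * τ ∈ L.fixingSubgroup ∧
      P ^ p = (p : Qbar) ∧ localGaloisToGlobal p d P ≠ P ∧
      localGaloisToGlobal p d (zet p) = zet p := by
  obtain ⟨P, hP⟩ := IsAlgClosed.exists_pow_nat_eq (p : Qbar) hp.out.pos
  set K := IntermediateField.adjoin ℚ ({P, zet p} : Set Qbar)
  have : FiniteDimensional ℚ K :=
    IntermediateField.finiteDimensional_adjoin fun x _ => Algebra.IsIntegral.isIntegral x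
  have := IntermediateField.finiteDimensional_sup K L
  obtain ⟨d, hd⟩ := exists_localGalois_eq p (K ⊔ L)
    (inertiaSubgroupIn_le_decompositionSubgroup _ hτ.mem)
  rw [IntermediateField.fixingSubgroup_sup] at hd
  have hK : ∀ x ∈ K, localGaloisToGlobal p d x = τ x := fun x hx => by
    have h1 : ((localGaloisToGlobal p d)⁻¹ * τ) x = x := hd.1 ⟨x, hx⟩
    conv_lhs => rw [← h1]
    rw [← AlgEquiv.mul_apply, mul_inv_cancel_left]
  refine ⟨d, P, hd.2, hP, ?_, ?_⟩
  · rw [hK _ (IntermediateField.subset_adjoin ℚ _ (by simp))]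
    exact hτ.move P hP
  · rw [hK _ (IntermediateField.subset_adjoin ℚ _ (by simp))]
    exact hτ.fixes_root (m := 1) (by rw [pow_one]; exact (zet_spec p).pow_eq_one)

/-- Evaluation of classes of the line at an element fixing the roots of unity of order `p`. -/
private def lineEval (d : Gal' p) (hd : localGaloisToGlobal p d (zet p) = zet p) :
    (lineCoc k p ⧸ lineCob k p) →ₗ[k] k :=
  (lineCob k p).liftQ ((LinearMap.proj d).comp (lineCoc k p).subtype) fun β hβ => by
    obtain ⟨t, ht⟩ := Submodule.mem_span_singleton.mp hβ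
    have h1 : β.1 d = t * (chiLK k p d - 1) := (congrFun ht d).symm
    show β.1 d = 0
    rw [h1, show chiLK k p d = (1 : k) from chiK_eq_one hd, sub_self, mul_zero]

/-- Classes of the line vanishing at an element moving a root of `p` form at most a line. -/
private lemma finrank_ker_lineEval_le (hp2 : p ≠ 2) {d : Gal' p} {P : Qbar}
    (hP : P ^ p = (p : Qbar)) (hdP : localGaloisToGlobal p d P ≠ P)
    (hd : localGaloisToGlobal p d (zet p) = zet p) :
    Module.finrank k (LinearMap.ker (lineEval (k := k) d hd)) ≤ 1 := by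
  obtain ⟨hfin, hle2⟩ := finrank_lineCoc (k := k) (p := p) hp2
  have : Module.Finite k (lineCoc k p ⧸ lineCob k p) := Module.Finite.of_finite
  obtain ⟨β, hβ, hβ0⟩ := exists_root_class (k := k) hP
  have hsurj : 0 < Module.finrank k (LinearMap.range (lineEval (k := k) d hd)) :=
    Module.finrank_pos_iff_exists_ne_zero.mpr ⟨⟨_, ⟨Submodule.Quotient.mk ⟨β, hβ⟩, rfl⟩⟩,
      fun h => hβ0 d hdP hd (congrArg Subtype.val h)⟩
  have := LinearMap.finrank_range_add_finrank_ker (lineEval (k := k) d hd)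
  omega

omit [CharP k p] [Finite k] hp in
/-- The coboundary of the diagonal element of a shape lies on the line. -/
private lemma conjSub_diag_mem_line {r : MatRep k} {A : ValuationSubring Qbar} {χ : GQ → k}
    {π : M22 k} (S : OrdShape A r χ π) {σ : GQ} (hσ : σ ∈ A.decompositionSubgroup ℚ) :
    π * (r σ * (π + π - 1) * r σ⁻¹ - (π + π - 1)) = r σ * (π + π - 1) * r σ⁻¹ - (π + π - 1) ∧
      (r σ * (π + π - 1) * r σ⁻¹ - (π + π - 1)) * π = 0 := by
  have hY : r σ * (π + π - 1) * r σ⁻¹ - (π + π - 1) =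
      (r σ * π * r σ⁻¹ - π) + (r σ * π * r σ⁻¹ - π) := by
    simp only [mul_sub, mul_add, sub_mul, add_mul, mul_one, rep_mul_inv]
    abel
  have e1 : π * (r σ * π * r σ⁻¹ - π) = r σ * π * r σ⁻¹ - π := by
    rw [mul_sub, S.idem, S.mul_proj hσ, smul_mul_assoc, mul_smul_comm, ← mul_assoc, S.idem]
  have e2 : (r σ * π * r σ⁻¹ - π) * π = 0 := by
    have h1 : r σ⁻¹ * π = π * r σ⁻¹ * π := by
      have := S.stable σ⁻¹ (inv_mem hσ)
      rw [sub_mul, one_mul, sub_mul, sub_eq_zero] at this
      exact this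
    rw [sub_mul, S.idem, mul_assoc (r σ * π), h1, mul_assoc (r σ), mul_assoc π (r σ⁻¹),
      ← mul_assoc π π, S.idem, ← mul_assoc π (r σ⁻¹), ← h1, ← mul_assoc, rep_mul_inv, one_mul,
      sub_self]
  rw [hY]
  exact ⟨by rw [mul_add, e1], by rw [add_mul, e2, add_zero]⟩

omit [CharP k p] [Finite k] hp in
/-- The diagonal element of a shape is trace free and off the line. -/
private lemma diag_sub_smul_ne_zero {r : MatRep k} {A : ValuationSubring Qbar} {χ : GQ → k}
    {π nn : M22 k} (S : OrdShape A r χ π) (hπn : π * nn = nn) :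
    (π + π - 1).trace = 0 ∧ ∀ t : k, π + π - 1 - t • nn ≠ 0 := by
  refine ⟨?_, fun t h0 => ?_⟩
  · rw [Matrix.trace_sub, Matrix.trace_add, S.trace, Matrix.trace_one, Fintype.card_fin]
    push_cast; ring
  · have h2 : (1 - π) * nn = 0 := by rw [sub_mul, one_mul, hπn, sub_self]
    have e : (1 - π) * (π + π - 1 - t • nn) = -(1 - π) := by
      rw [mul_sub, mul_smul_comm, h2, smul_zero, sub_zero, mul_sub, mul_add, S.one_sub_mul,
        add_zero, zero_sub, mul_one]
    rw [h0, mul_zero] at e
    have h3 := congrArg Matrix.trace e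
    rw [Matrix.trace_zero, Matrix.trace_neg, S.trace_one_sub] at h3
    exact one_ne_zero (neg_eq_zero.mp h3.symm)

omit [Finite k] in
/-- The determinant of a first order deformation by a trace free cocycle. -/
lemma det_epsLift {r : MatRep k} {c : GQ → M22 k} (hc : c ∈ adCoc r) (g : GQ) :
    (Matrix.det (epsLift r c g)) = TrivSqZeroExt.inl (r g).det := by
  refine TrivSqZeroExt.ext ?_ ?_
  · simp [epsLift, Matrix.det_fin_two]
  · have h := hc.2 g
    rw [Matrix.trace_fin_two] at h
    simp [epsLift, Matrix.det_fin_two, Matrix.mul_apply, Fin.sum_univ_two]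
    linear_combination (r g 0 0 * r g 1 1 - r g 0 1 * r g 1 0) * h

/-- Local classes lying on the line of a shape, in a space of classes of the line containing every
class that vanishes where the representation and the cochains are trivial. -/
private lemma finrank_le_of_line {r : MatRep k} {V : Submodule k (GQ → M22 k)}
    [Module.Finite k V] (hV : V ≤ adCoc r) (hp2 : p ≠ 2) {L : IntermediateField ℚ Qbar}
    [FiniteDimensional ℚ L] (hL : ∀ σ ∈ L.fixingSubgroup, r σ = 1 ∧ ∀ c ∈ V, c σ = 0)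
    {χ : GQ → k} {π : M22 k} (S : OrdShape (padicPlace p) r χ π)
    (hscal : ∀ σ ∈ (padicPlace p).decompositionSubgroup ℚ,
      (π * r σ).trace * ((1 - π) * r σ⁻¹).trace = (chiK k p σ : k))
    (hnorm : ∀ c ∈ V, ∃ e : M22 k, ∀ σ ∈ (padicPlace p).decompositionSubgroup ℚ,
      π * (c σ - (r σ * e * r σ⁻¹ - e)) = c σ - (r σ * e * r σ⁻¹ - e) ∧
        (c σ - (r σ * e * r σ⁻¹ - e)) * π = 0)
    (T : Submodule k (lineCoc k p ⧸ lineCob k p))
    (hT : ∀ β : lineCoc k p, (∀ d, r (localGaloisToGlobal p d) = 1 →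
      (∀ c ∈ V, c (localGaloisToGlobal p d) = 0) → β.1 d = 0) →
        Submodule.Quotient.mk β ∈ T) :
    Module.finrank k V + 1 ≤
      Module.finrank k (V ⊓ locCob r ((padicPlace p).decompositionSubgroup ℚ) :
        Submodule k (GQ → M22 k)) +
      Module.finrank k (locFix r ((padicPlace p).decompositionSubgroup ℚ)) +
      Module.finrank k T := by
  set D := (padicPlace p).decompositionSubgroup ℚ
  set loc := localGaloisToGlobal p
  have hlocD : ∀ d, loc d ∈ D := fun d => localGaloisToGlobal_mem_decompositionSubgroup p d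
  have hdens : ∀ c ∈ V, ∀ σ ∈ D, ∃ d, r (loc d) = r σ ∧ c (loc d) = c σ := fun c hc σ hσ =>
    exists_local_eq (hV hc) (L := L) (fun s hs => ⟨(hL s hs).1, (hL s hs).2 c hc⟩) hσ
  -- the line
  obtain ⟨nn, n', hπn, hnπ, -, htr, hline⟩ := S.exists_nilpotents
  have hnn0 : nn ≠ 0 := fun h => by
    rw [h, zero_mul, Matrix.trace_zero] at htr
    exact zero_ne_one htr
  have hn : ∀ d, r (loc d) * nn * r (loc d)⁻¹ = chiLK k p d • nn := fun d => by
    rw [S.conj_line (hlocD d) hπn hnπ, hscal _ (hlocD d)]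
    rfl
  -- the local classes lie in the line
  set Λ := (lineClass hn).comp T.subtype
  have hrange : LinearMap.range (locClass p r V) ≤ LinearMap.range Λ := by
    rintro _ ⟨⟨c, hc⟩, rfl⟩
    obtain ⟨e, he⟩ := hnorm c hc
    have ht : ∀ d, c (loc d) - (r (loc d) * e * r (loc d)⁻¹ - e) =
        ((c (loc d) - (r (loc d) * e * r (loc d)⁻¹ - e)) * n').trace • nn :=
      fun d => hline _ (he _ (hlocD d)).1 (he _ (hlocD d)).2
    have hβ := mem_lineCoc_of_smul hn hnn0 (Y := fun σ => c σ - (r σ * e * r σ⁻¹ - e)) (L := L)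
      (fun σ σ' => by
        simp only [(hV hc).1, map_mul, mul_inv_rev, mul_sub, sub_mul, mul_assoc]
        abel)
      (fun s hs => by simp only [(hL s hs).2 c hc, conjSub_eq_zero (hL s hs).1, sub_self]) ht
    refine ⟨⟨Submodule.Quotient.mk ⟨_, hβ⟩, hT _ fun d h1 h2 => ?_⟩,
      lineClass_eq_locClass hn ⟨c, hc⟩ ht⟩
    show ((c (loc d) - (r (loc d) * e * r (loc d)⁻¹ - e)) * n').trace = 0
    rw [h2 c hc, conjSub_eq_zero h1, sub_self, zero_mul, Matrix.trace_zero]
  -- the class of the representation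
  set h₂ : M22 k := π + π - 1
  obtain ⟨htr₂, hne⟩ := diag_sub_smul_ne_zero S hπn
  have hext : ∀ d, r (loc d) * h₂ * r (loc d)⁻¹ - h₂ =
      ((r (loc d) * h₂ * r (loc d)⁻¹ - h₂) * n').trace • nn := fun d =>
    hline _ (conjSub_diag_mem_line S (hlocD d)).1 (conjSub_diag_mem_line S (hlocD d)).2
  have hbr := mem_lineCoc_of_smul hn hnn0 (conjSub_mul r h₂)
    (fun s hs => conjSub_eq_zero (hL s hs).1 _) hext
  obtain ⟨hfin, -⟩ := finrank_lineCoc (k := k) (p := p) hp2
  have : Module.Finite k (lineCoc k p ⧸ lineCob k p) := Module.Finite.of_finite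
  have hkerR : Module.finrank k (LinearMap.ker (locClass p r V)) ≤
      Module.finrank k (V ⊓ locCob r D : Submodule k (GQ → M22 k)) :=
    finrank_ker_locClass_le V hdens
  have hR := LinearMap.finrank_range_add_finrank_ker (locClass p r V)
  have hΛ := LinearMap.finrank_range_add_finrank_ker Λ
  have hmono := Submodule.finrank_mono hrange
  suffices Module.finrank k (LinearMap.range Λ) + 1 ≤
      Module.finrank k (locFix r D) + Module.finrank k T by omega
  by_cases hin : (⟨_, hbr⟩ : lineCoc k p) ∈ lineCob k p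
  · have : 0 < Module.finrank k (locFix r D) := finrank_locFix_pos hn hin hext htr₂
      (by rw [← hπn, Matrix.trace_mul_comm, hnπ, Matrix.trace_zero]) hne
      fun σ hσ => (hdens 0 V.zero_mem σ hσ).imp fun _ h => h.1
    omega
  · let x : T := ⟨Submodule.Quotient.mk ⟨_, hbr⟩, hT _ fun d h1 _ => by
      show ((r (loc d) * h₂ * r (loc d)⁻¹ - h₂) * n').trace = 0
      rw [conjSub_eq_zero h1, zero_mul, Matrix.trace_zero]⟩
    have hx : x ∈ LinearMap.ker Λ := lineClass_eq_zero hn (β := ⟨_, hbr⟩) hext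
    have h1 : 0 < Module.finrank k (LinearMap.ker Λ) :=
      Module.finrank_pos_iff_exists_ne_zero.mpr ⟨⟨x, hx⟩, fun h => hin
          ((Submodule.Quotient.mk_eq_zero _).mp (congrArg Subtype.val (congrArg Subtype.val h)))⟩
    omega

/-- **Strictly ordinary deformations have local classes of dimension at most one more than the
fixed elements.** -/
theorem finrank_le_strict (hp2 : p ≠ 2) (r : MatRep k)
    (hr : ∃ L : IntermediateField ℚ Qbar, FiniteDimensional ℚ L ∧ ∀ σ ∈ L.fixingSubgroup, r σ = 1)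
    (V : Submodule k (GQ → M22 k)) [Module.Finite k V] (hV : V ≤ adCoc r)
    (hcont : ∀ c ∈ V, ∃ L : IntermediateField ℚ Qbar, FiniteDimensional ℚ L ∧
      ∀ σ ∈ L.fixingSubgroup, c σ = 0)
    {σ₀ : GQ} {u : k}
    (hlift : ∀ c ∈ V, ∃ N : MatRep (DualNumber k), (∀ g, N g = epsLift r c g) ∧
      OrdShape (padicPlace p) N (fun σ => TrivSqZeroExt.inl (r σ).det)
        ((TrivSqZeroExt.inl u : DualNumber k) • (N σ₀ - 1)) ∧
      ∀ σ ∈ (padicPlace p).decompositionSubgroup ℚ,
        (N σ * ((TrivSqZeroExt.inl u : DualNumber k) • (N σ₀ - 1))).trace =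
          TrivSqZeroExt.inl (chiK k p σ : k) *
            (N σ * (1 - (TrivSqZeroExt.inl u : DualNumber k) • (N σ₀ - 1))).trace) :
    Module.finrank k V ≤
      Module.finrank k (V ⊓ locCob r ((padicPlace p).decompositionSubgroup ℚ) :
        Submodule k (GQ → M22 k)) +
      Module.finrank k (locFix r ((padicPlace p).decompositionSubgroup ℚ)) + 1 := by
  set D := (padicPlace p).decompositionSubgroup ℚ
  obtain ⟨L, hLfin, hL⟩ := exists_common_level hr V hcont
  obtain ⟨F, hF⟩ := GaloisBasic.exists_isFrobeniusAt hp.out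
    (liesOverPrime_padicPlace (q := p))
  have hFD := hF.mem_decompositionSubgroup
  have h2 : (2 : k) ≠ 0 := fun h0 => hp2 ((Nat.prime_dvd_prime_iff_eq hp.out Nat.prime_two).mp
    ((CharP.cast_eq_zero_iff k p 2).mp (by exact_mod_cast h0)))
  set π := u • (r σ₀ - 1) with hπ
  have hfst : ∀ c ∈ V, (OrdShape (padicPlace p) r (fun σ => (r σ).det) π ∧ ∀ σ ∈ D,
      (π * r σ).trace = (chiK k p σ : k) * ((1 - π) * r σ).trace) ∧
      ∃ e : M22 k, ∀ σ ∈ D, π * (c σ - (r σ * e * r σ⁻¹ - e)) = c σ - (r σ * e * r σ⁻¹ - e) ∧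
        (c σ - (r σ * e * r σ⁻¹ - e)) * π = 0 := fun c hc => by
    obtain ⟨N, hN, S, hstrict⟩ := hlift c hc
    set πN := (TrivSqZeroExt.inl u : DualNumber k) • (N σ₀ - 1)
    set d := ((1 - πN) * N F).trace
    -- the square of the quotient eigenvalue at Frobenius is constant
    have h1 : (πN * N F).trace = TrivSqZeroExt.inl (chiK k p F : k) * d := by
      rw [Matrix.trace_mul_comm, hstrict F hFD, Matrix.trace_mul_comm]
    have h3 := S.char_mul hFD
    rw [h1, mul_assoc] at h3
    have hdd := congrArg TrivSqZeroExt.snd h3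
    simp only [TrivSqZeroExt.snd_mul, TrivSqZeroExt.snd_inl, TrivSqZeroExt.fst_inl,
      smul_zero, add_zero, smul_eq_mul, MulOpposite.smul_eq_mul_unop, MulOpposite.unop_op] at hdd
    have hd0 : d.fst ≠ 0 := fun h0 => (S.isUnit_char F).map (TrivSqZeroExt.fstHom k k k)
      |>.ne_zero (by
        show (TrivSqZeroExt.inl (r F).det : DualNumber k).fst = 0
        rw [← h3, TrivSqZeroExt.fst_mul, TrivSqZeroExt.fst_mul, h0, mul_zero, mul_zero])
    have hd : d = TrivSqZeroExt.inl d.fst := by
      refine TrivSqZeroExt.ext (TrivSqZeroExt.fst_inl k d.fst).symm ?_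
      rw [TrivSqZeroExt.snd_inl]
      have : (chiK k p F : k) * ((2 : k) * (d.fst * d.snd)) = 0 := by linear_combination hdd
      exact (mul_eq_zero.mp ((mul_eq_zero.mp ((mul_eq_zero.mp this).resolve_left
        (Units.ne_zero _))).resolve_left h2)).resolve_left hd0
    obtain ⟨Sr, -, he⟩ := exists_line_normalisation liesOverPrime_padicPlace (hV hc) hN S
      (fun σ hσ => ⟨(hL σ hσ).1, (hL σ hσ).2 c hc⟩) hF hd
    refine ⟨⟨Sr, fun σ hσ => ?_⟩, he⟩
    have hfN : fstMat (N σ) = r σ := by ext i j; simp [fstMat, hN, epsLift]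
    have hfπ : fstMat πN = π := by
      ext i j
      simp [πN, hπ, fstMat, hN, epsLift, Matrix.one_apply]
      split_ifs <;> simp
    have h := congrArg TrivSqZeroExt.fst (hstrict σ hσ)
    rw [TrivSqZeroExt.fst_mul, TrivSqZeroExt.fst_inl, ← trace_fstMat, ← trace_fstMat,
      map_mul fstMat, map_mul fstMat, map_sub fstMat, map_one fstMat, hfπ, hfN] at h
    rw [Matrix.trace_mul_comm, h, Matrix.trace_mul_comm]
  obtain ⟨⟨S, hst⟩, -⟩ := hfst 0 V.zero_mem
  have := finrank_le_of_line hV hp2 hL S (fun σ hσ => by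
      rw [hst σ hσ, mul_assoc, ← S.quotChar_mul hσ, mul_inv_cancel, map_one, mul_one,
        S.trace_one_sub, mul_one])
    (fun c hc => (hfst c hc).2) ⊤ fun _ _ => Submodule.mem_top
  rw [finrank_top] at this
  exact Nat.le_of_succ_le_succ
    (this.trans (Nat.add_le_add_left (finrank_lineCoc (k := k) (p := p) hp2).2 _))

/-- **Weakly ordinary deformations with constant quotient eigenvalue, trivial at the tame element,
have local classes of dimension at most that of the fixed elements.** -/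
theorem finrank_le_ordinary (hp2 : p ≠ 2) (r : MatRep k)
    (hr : ∃ L : IntermediateField ℚ Qbar, FiniteDimensional ℚ L ∧ ∀ σ ∈ L.fixingSubgroup, r σ = 1)
    (V : Submodule k (GQ → M22 k)) [Module.Finite k V] (hV : V ≤ adCoc r)
    (hcont : ∀ c ∈ V, ∃ L : IntermediateField ℚ Qbar, FiniteDimensional ℚ L ∧
      ∀ σ ∈ L.fixingSubgroup, c σ = 0)
    {σ₀ : GQ} {u : k} {τ : GQ} (hτ : IsTauZero (padicPlace p) p τ)
    {F : GQ} (hF : (padicPlace p).IsFrobeniusAt F p) {d₀ : k} (hd₀ : d₀ * d₀ = 1)
    (hlift : ∀ c ∈ V, ∃ N : MatRep (DualNumber k), (∀ g, N g = epsLift r c g) ∧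
      OrdShape (padicPlace p) N (fun σ => TrivSqZeroExt.inl (chiK k p σ : k))
        ((TrivSqZeroExt.inl u : DualNumber k) • (N σ₀ - 1)) ∧
      ((1 - (TrivSqZeroExt.inl u : DualNumber k) • (N σ₀ - 1)) * N F).trace =
        TrivSqZeroExt.inl d₀ ∧ N τ = 1) :
    Module.finrank k V ≤
      Module.finrank k (V ⊓ locCob r ((padicPlace p).decompositionSubgroup ℚ) :
        Submodule k (GQ → M22 k)) +
      Module.finrank k (locFix r ((padicPlace p).decompositionSubgroup ℚ)) := by
  obtain ⟨L, hLfin, hL⟩ := exists_common_level hr V hcont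
  have hnorm := fun c hc => let ⟨N, hN, S, hd, hNτ⟩ := hlift c hc
    exists_shape_of_lift (hV hc) (fun σ hσ => ⟨(hL σ hσ).1, (hL σ hσ).2 c hc⟩) hF hN S hd hNτ
  obtain ⟨S, hdF, hrτ, -, -⟩ := hnorm 0 V.zero_mem
  -- the classes vanish at the tame element
  obtain ⟨dτ, P, hdτ, hP, hτP, hτz⟩ := exists_local_tame hτ L
  obtain ⟨hr1, hc1⟩ := hL _ (inv_mem hdτ)
  rw [mul_inv_rev, inv_inv] at hr1 hc1
  have hloc : localGaloisToGlobal p dτ = τ * (τ⁻¹ * localGaloisToGlobal p dτ) := by group
  have := finrank_le_of_line hV hp2 hL S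
    (fun σ hσ => S.line_scalar hσ (quotChar_sq S hr hF hd₀ hdF hσ))
    (fun c hc => (hnorm c hc).2.2.2.2) (LinearMap.ker (lineEval (k := k) dτ hτz))
    fun β hβ => hβ dτ (by rw [hloc, map_mul, hrτ, hr1, one_mul]) fun c hc => by
      rw [hloc, (hV hc).1, (hnorm c hc).2.2.2.1, hc1 c hc, mul_zero, zero_mul, add_zero]
  have := finrank_ker_lineEval_le (k := k) hp2 hP hτP hτz
  omega

end FermatAgent.CFT.SelmerP

end
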