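import Fermat.Agent.CFT.SelmerP.Place
import Fermat.Agent.RT.Tame
import Mathlib.FieldTheory.Galois.Infinite

/-!
# An inertia element moving only the roots of `p`

An element of inertia at `p` moving every `p`-th root of `p` and fixing every root of `p`-power
order of a unit fixed by inertia.
-/

set_option autoImplicit false

noncomputable section

open scoped Classical

namespace FermatAgent.CFT.SelmerP

open GaloisBasic Mazur
open ECLocal (valuation_natCast_ne_zero)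

/-- An inertia element moving the `p`-th roots of `p` and fixing the roots of `p`-power order of
the units fixed by inertia. -/
structure IsTauZero (A : ValuationSubring Qbar) (p : ℕ) (τ : GQ) : Prop where
  mem : τ ∈ A.inertiaSubgroupIn ℚ
  move : ∀ P : Qbar, P ^ p = (p : Qbar) → τ P ≠ P
  fixes : ∀ (m : ℕ) (s : Qbar), A.valuation s = 1 →
    (∀ σ ∈ A.inertiaSubgroupIn ℚ, σ (s ^ p ^ m) = s ^ p ^ m) → τ s = s

variable {A : ValuationSubring Qbar} {p : ℕ} [hp : Fact p.Prime]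

/-- An inertia element of this kind fixes the roots of unity of `p`-power order. -/
lemma IsTauZero.fixes_root {τ : GQ} (h : IsTauZero A p τ) {m : ℕ} {z : Qbar}
    (hz : z ^ p ^ m = 1) : τ z = z :=
  h.fixes m z (valuation_eq_one_of_pow (pow_ne_zero m hp.out.ne_zero) (by rw [hz, map_one]))
    fun σ _ => by rw [hz, map_one]

/-- Sets of elements sending a point into a given set are clopen. -/
lemma isClopen_eval (x : Qbar) (T : Set Qbar) : IsClopen {σ : GQ | σ x ∈ T} := by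
  have hopen : ∀ T : Set Qbar, IsOpen {σ : GQ | σ x ∈ T} := fun T => by
    refine isOpen_iff_mem_nhds.mpr fun σ hσ => ?_
    set E := IntermediateField.adjoin ℚ ({x} : Set Qbar)
    have : FiniteDimensional ℚ E :=
      IntermediateField.adjoin.finiteDimensional (Algebra.IsIntegral.isIntegral x)
    refine Filter.mem_of_superset ((E.fixingSubgroup_isOpen.preimage
      (continuous_const_mul σ⁻¹)).mem_nhds (by simp [one_mem])) fun τ hτ => ?_
    have h1 : (σ⁻¹ * τ) x = x := hτ ⟨x, IntermediateField.mem_adjoin_simple_self ℚ x⟩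
    show τ x ∈ T
    rw [AlgEquiv.mul_apply] at h1
    rw [← σ.apply_symm_apply (τ x)]
    exact (show σ.symm (τ x) = x from h1).symm ▸ hσ
  exact ⟨⟨by
    rw [show {σ : GQ | σ x ∈ T}ᶜ = {σ : GQ | σ x ∈ Tᶜ} from rfl]; exact hopen Tᶜ⟩, hopen T⟩

lemma isClosed_inertia (hA : A.LiesOverPrime p) :
    IsClosed (A.inertiaSubgroupIn ℚ : Set GQ) := by
  have e : (A.inertiaSubgroupIn ℚ : Set GQ) =
      ⋂ b : ZBar, {σ : GQ | σ (b : Qbar) ∈ {y : Qbar | A.valuation (y - (b : Qbar)) < 1}} := by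
    ext σ
    rw [SetLike.mem_coe, mem_inertiaSubgroupIn_iff hp.out hA, Set.mem_iInter]
    refine forall_congr' fun b => ?_
    rw [mem_center, A.mem_nonunits_iff]
    rfl
  rw [e]
  exact isClosed_iInter fun b => (isClopen_eval _ _).1

/-- An element `y` fixed wherever the elements of a list are differs from a product of them by an
element fixed by the group, when the group fixes the roots of unity in question. -/
lemma exists_div_fixed {n : ℕ} [NeZero n] (l : List Qbar) :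
    ∀ (H : Subgroup GQ), (∀ σ ∈ H, ∀ z : Qbar, z ^ n = 1 → σ z = z) →
      (∀ s ∈ l, s ≠ 0 ∧ ∀ σ ∈ H, σ (s ^ n) = s ^ n) →
      ∀ y : Qbar, y ≠ 0 → (∀ σ ∈ H, σ (y ^ n) = y ^ n) →
      (∀ σ ∈ H, (∀ s ∈ l, σ s = s) → σ y = y) →
      ∃ z ∈ Submonoid.closure {s | s ∈ l}, ∀ σ ∈ H, σ (y / z) = y / z := by
  induction l with
  | nil =>
    intro H _ _ y _ _ h
    exact ⟨1, one_mem _,
      fun σ hσ => by rw [div_one]; exact h σ hσ fun s hs => absurd hs (List.not_mem_nil)⟩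
  | cons s l ih =>
    intro H hμ hl y hy0 hyn h
    obtain ⟨hs0, hsn⟩ := hl s List.mem_cons_self
    obtain ⟨z, hz, hzfix⟩ := ih (H ⊓ MulAction.stabilizer GQ s) (fun σ hσ => hμ σ hσ.1)
      (fun t ht => ⟨(hl t (List.mem_cons_of_mem _ ht)).1,
        fun σ hσ => (hl t (List.mem_cons_of_mem _ ht)).2 σ hσ.1⟩)
      y hy0 (fun σ hσ => hyn σ hσ.1) (fun σ hσ hfix => h σ hσ.1 fun t ht => by
        rcases List.mem_cons.mp ht with rfl | ht
        · exact hσ.2
        · exact hfix t ht)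
    -- properties of the product
    have hzP : z ≠ 0 ∧ ∀ σ ∈ H, σ (z ^ n) = z ^ n := by
      refine Submonoid.closure_induction (fun t ht => hl t (List.mem_cons_of_mem _ ht))
        ⟨one_ne_zero, fun σ _ => by rw [one_pow, map_one]⟩ ?_ hz
      rintro a b - - ⟨ha, ha'⟩ ⟨hb, hb'⟩
      exact ⟨mul_ne_zero ha hb, fun σ hσ => by rw [mul_pow, map_mul, ha' σ hσ, hb' σ hσ]⟩
    set y' := y / z with hy'
    have hy'0 : y' ≠ 0 := div_ne_zero hy0 hzP.1
    have hy'n : ∀ σ ∈ H, σ (y' ^ n) = y' ^ n := fun σ hσ => by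
      rw [hy', div_pow, map_div₀, hyn σ hσ, hzP.2 σ hσ]
    -- the two characters
    have hroot : ∀ (t : Qbar), t ≠ 0 → (∀ σ ∈ H, σ (t ^ n) = t ^ n) → ∀ σ : H,
        ((σ : GQ) t / t) ^ n = 1 := fun t ht htn σ => by
      rw [div_pow, ← map_pow, htn σ σ.2, div_self (pow_ne_zero n ht)]
    let χ : ∀ (t : Qbar), t ≠ 0 → (∀ σ ∈ H, σ (t ^ n) = t ^ n) → H →* rootsOfUnity n Qbar :=
      fun t ht htn =>
      { toFun := fun σ => rootsOfUnity.mkOfPowEq _ (hroot t ht htn σ)
        map_one' := Subtype.ext (Units.ext (by simp [div_self ht]))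
        map_mul' := fun σ τ => Subtype.ext (Units.ext (by
          simp only [rootsOfUnity.val_mkOfPowEq_coe, Subgroup.coe_mul, Units.val_mul,
            AlgEquiv.mul_apply]
          have h1 := hμ σ σ.2 _ (hroot t ht htn τ)
          rw [map_div₀, div_eq_iff ((map_ne_zero _).mpr ht)] at h1
          rw [h1]
          ring)) }
    set f := χ s hs0 hsn with hf
    set g := χ y' hy'0 hy'n with hg
    have hfg : ∀ σ : H, f σ = 1 → g σ = 1 := fun σ hσ => by
      have h1 : ((σ : GQ) s / s) = 1 := by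
        simpa [hf, χ] using congrArg (fun x : rootsOfUnity n Qbar => ((x : Qbarˣ) : Qbar)) hσ
      refine Subtype.ext (Units.ext ?_)
      simp only [hg, χ, MonoidHom.coe_mk, OneHom.coe_mk, rootsOfUnity.val_mkOfPowEq_coe,
        OneMemClass.coe_one, Units.val_one]
      rw [hzfix σ ⟨σ.2, (div_eq_one_iff_eq hs0).mp h1⟩, div_self hy'0]
    have : Finite f.range := inferInstance
    obtain ⟨⟨_, h₀, rfl⟩, hgen⟩ := IsCyclic.exists_monoid_generator (α := f.range)
    have hprim : IsPrimitiveRoot (((f h₀ : rootsOfUnity n Qbar) : Qbarˣ) : Qbar)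
        (orderOf (f h₀)) := by
      exact IsPrimitiveRoot.coe_units_iff.mpr ((IsPrimitiveRoot.orderOf (f h₀)).map_of_injective
        (f := (rootsOfUnity n Qbar).subtype) Subtype.val_injective)
    have : NeZero (orderOf (f h₀)) := ⟨(orderOf_pos _).ne'⟩
    obtain ⟨a, -, ha⟩ := hprim.eq_pow_of_pow_eq_one
      (show (((g h₀ : rootsOfUnity n Qbar) : Qbarˣ) : Qbar) ^ orderOf (f h₀) = 1 by
        have h1 := hfg (h₀ ^ orderOf (f h₀)) (by rw [map_pow, pow_orderOf_eq_one])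
        rw [map_pow] at h1
        rw [← Units.val_pow_eq_pow_val, ← SubgroupClass.coe_pow, h1, OneMemClass.coe_one,
          Units.val_one])
    refine ⟨s ^ a * z, mul_mem (pow_mem (Submonoid.subset_closure
      (show s ∈ {t | t ∈ s :: l} from List.mem_cons_self)) a)
      (Submonoid.closure_mono (fun t ht => List.mem_cons_of_mem _ ht) hz), fun σ hσ => ?_⟩
    obtain ⟨k, hk⟩ := hgen ⟨f ⟨σ, hσ⟩, ⟨σ, hσ⟩, rfl⟩
    have hk' : f ⟨σ, hσ⟩ = f h₀ ^ k := (congrArg Subtype.val hk).symm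
    have hga : g ⟨σ, hσ⟩ = f ⟨σ, hσ⟩ ^ a := by
      have h1 := hfg (⟨σ, hσ⟩ * (h₀ ^ k)⁻¹) (by
        rw [map_mul, map_inv, map_pow, hk', mul_inv_cancel])
      rw [map_mul, map_inv, map_pow, mul_inv_eq_one] at h1
      rw [h1, hk', ← pow_mul, mul_comm, pow_mul]
      congr 1
      exact Subtype.ext (Units.ext (by
        rw [SubgroupClass.coe_pow, Units.val_pow_eq_pow_val, ha]))
    have h2 : σ y' / y' = (σ s / s) ^ a := by
      simpa [hg, hf, χ] using congrArg (fun x : rootsOfUnity n Qbar => ((x : Qbarˣ) : Qbar)) hga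
    have e : y / (s ^ a * z) = y' / s ^ a := by rw [hy', div_div, mul_comm]
    rw [e, map_div₀, map_pow, ← div_eq_one_iff_eq (div_ne_zero hy'0 (pow_ne_zero a hs0)),
      div_div_div_comm, h2, div_pow, div_self]
    exact div_ne_zero (pow_ne_zero _ ((map_ne_zero σ).mpr hs0)) (pow_ne_zero _ hs0)

/-- No element of valuation that of a `p`-th root of `p` has a `p`-power fixed by inertia and is
fixed by the inertia elements fixing the roots of unity of that order. -/
lemma no_small_descent (hA : A.LiesOverPrime p) (hp2 : p ≠ 2) {N : ℕ} {ζ : Qbar}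
    (hζ : IsPrimitiveRoot ζ (p ^ (N + 1))) {y : Qbar}
    (hyn : ∀ σ ∈ A.inertiaSubgroupIn ℚ, σ (y ^ p ^ (N + 1)) = y ^ p ^ (N + 1))
    (hfix : ∀ σ ∈ A.inertiaSubgroupIn ℚ, σ ζ = ζ → σ y = y)
    (hv : A.valuation y ^ p = A.valuation (p : Qbar)) : False := by
  set n := p ^ (N + 1) with hn
  have hp1 := hp.out.two_le
  have : NeZero n := ⟨pow_ne_zero _ hp.out.ne_zero⟩
  have : Fact p.Prime := hp
  have hy0 : y ≠ 0 := fun h => by
    rw [h, map_zero, zero_pow hp.out.ne_zero] at hv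
    exact valuation_natCast_ne_zero (A := A) hp.out hv.symm
  have hv1 : ∀ {z : Qbar}, z ^ n = 1 → A.valuation z = 1 := fun hz =>
    valuation_eq_one_of_pow (NeZero.ne n) (by rw [hz, map_one])
  let e : GQ → Qbar := fun σ => σ y / y
  have he : ∀ σ ∈ A.inertiaSubgroupIn ℚ, e σ ^ n = 1 := fun σ hσ => by
    show (σ y / y) ^ n = 1
    rw [div_pow, ← map_pow, hyn σ hσ, div_self (pow_ne_zero n hy0)]
  have hey : ∀ σ : GQ, σ y = e σ * y := fun σ => (div_mul_cancel₀ _ hy0).symm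
  -- inertia acting by minus one on the `p`-th roots of unity
  obtain ⟨m, hm, hmζ⟩ := RT.exists_inertia_cyclotomic hp.out hA (-1)
  obtain ⟨a, -, ha⟩ := hζ.eq_pow_of_pow_eq_one
    (show m ζ ^ n = 1 by rw [← map_pow, hζ.pow_eq_one, map_one])
  have hma : ∀ z : Qbar, z ^ n = 1 → m z = z ^ a := fun z hz => by
    obtain ⟨i, -, rfl⟩ := hζ.eq_pow_of_pow_eq_one hz
    rw [map_pow, ← ha, ← pow_mul, ← pow_mul, mul_comm]
  have hap : (a : ZMod p) = -1 := by
    have hξ : IsPrimitiveRoot (ζ ^ p ^ N) p :=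
      hζ.pow (pow_pos hp.out.pos _) (pow_succ p N)
    have h1 := hmζ _ hξ.pow_eq_one
    rw [hma _ (by rw [← pow_mul, mul_comm, pow_mul, hζ.pow_eq_one, one_pow]), ← pow_mod_orderOf,
      ← hξ.eq_orderOf] at h1
    have h2 := hξ.pow_inj (Nat.mod_lt _ hp.out.pos) (ZMod.val_lt _) h1
    rw [← ZMod.natCast_mod a p, h2, ZMod.natCast_zmod_val, Units.val_neg, Units.val_one]
  obtain ⟨c, rfl⟩ : ∃ c, a = c + 1 := ⟨a - 1, (Nat.succ_pred_eq_of_ne_zero fun h => by
    rw [h, Nat.cast_zero, eq_comm, neg_eq_zero] at hap; exact one_ne_zero hap).symm⟩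
  have hc : Nat.Coprime c n := by
    refine Nat.Coprime.pow_right _ (Nat.Coprime.symm (hp.out.coprime_iff_not_dvd.mpr fun hd => ?_))
    rw [Nat.cast_succ, (ZMod.natCast_eq_zero_iff _ _).mpr hd, zero_add,
      eq_neg_iff_add_eq_zero, one_add_one_eq_two] at hap
    have h2 := (ZMod.natCast_eq_zero_iff 2 p).mp (by exact_mod_cast hap)
    exact hp2 ((Nat.prime_dvd_prime_iff_eq hp.out Nat.prime_two).mp h2)
  have hinj : ∀ z : Qbar, z ^ n = 1 → z ^ c = 1 → z = 1 := fun z hz hzc => by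
    have h := (pow_gcd_eq_one (a := z)).mpr ⟨hzc, hz⟩
    rwa [hc, pow_one] at h
  -- commutation
  have hcomm : ∀ σ ∈ A.inertiaSubgroupIn ℚ, e σ ^ c = σ (e m) / e m := fun σ hσ => by
    obtain ⟨b, -, hb⟩ := hζ.eq_pow_of_pow_eq_one
      (show σ ζ ^ n = 1 by rw [← map_pow, hζ.pow_eq_one, map_one])
    have h1 : σ (m y) = m (σ y) := by
      have hmem : (m * σ)⁻¹ * (σ * m) ∈ A.inertiaSubgroupIn ℚ :=
        mul_mem (inv_mem (mul_mem hm hσ)) (mul_mem hσ hm)
      have h2 : σ (m ζ) = m (σ ζ) := by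
        rw [hma ζ hζ.pow_eq_one, map_pow, ← hb, map_pow, hma ζ hζ.pow_eq_one, ← pow_mul, ← pow_mul,
          mul_comm]
      have h3 := hfix _ hmem (by
        rw [AlgEquiv.mul_apply, AlgEquiv.mul_apply, h2, ← AlgEquiv.mul_apply m σ]
        exact (m * σ).symm_apply_apply ζ)
      rw [AlgEquiv.mul_apply, AlgEquiv.mul_apply] at h3
      have := congrArg (⇑(m * σ)) h3
      rw [show (m * σ) ((m * σ)⁻¹ (σ (m y))) = σ (m y) from (m * σ).apply_symm_apply _] at this
      exact this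
    rw [hey m, map_mul, hey σ, map_mul, hma _ (he σ hσ), hey m, ← mul_assoc, ← mul_assoc,
      pow_succ, mul_left_inj' hy0] at h1
    have hem0 : e m ≠ 0 := div_ne_zero ((map_ne_zero m).mpr hy0) hy0
    have hes0 : e σ ≠ 0 := div_ne_zero ((map_ne_zero σ).mpr hy0) hy0
    rw [eq_div_iff hem0]
    refine mul_right_cancel₀ hes0 ?_
    rw [h1]
    ring
  obtain ⟨d, hd⟩ := Nat.exists_mul_mod_eq_one_of_coprime hc (Nat.one_lt_pow (by omega) hp1)
  set ε := e m ^ d with hε
  have hεn : ε ^ n = 1 := by rw [hε, ← pow_mul, mul_comm, pow_mul, he m hm, one_pow]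
  have hεc : ε ^ c = e m := by
    rw [hε, ← pow_mul, mul_comm d c, ← Nat.div_add_mod (c * d) n, pow_add, pow_mul, he m hm,
      one_pow, one_mul, hd.2, pow_one]
  have hε0 : ε ≠ 0 := fun h => by simp [h, zero_pow (NeZero.ne n)] at hεn
  have hwfix : ∀ σ ∈ A.inertiaSubgroupIn ℚ, σ (y / ε) = y / ε := fun σ hσ => by
    have h1 : e σ / (σ ε / ε) = 1 := hinj _
      (by rw [div_pow, he σ hσ, div_pow, ← map_pow, hεn, map_one, div_one, div_one])
      (by rw [div_pow, hcomm σ hσ, div_pow, ← map_pow, hεc, div_self]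
          exact div_ne_zero ((map_ne_zero σ).mpr (fun h => hε0 (by
            rw [hε, h, zero_pow]; rintro rfl; simp at hd))) (fun h => hε0 (by
            rw [hε, h, zero_pow]; rintro rfl; simp at hd)))
    rw [div_eq_one_iff_eq (div_ne_zero ((map_ne_zero σ).mpr hε0) hε0)] at h1
    rw [map_div₀, hey σ, h1]
    have := (map_ne_zero σ).mpr hε0
    field_simp
  obtain ⟨k, hk⟩ := exists_zpow_valuation_eq hp.out hA (div_ne_zero hy0 hε0) hwfix
  rw [map_div₀, hv1 hεn, div_one] at hk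
  rw [hk, ← zpow_natCast, ← zpow_mul] at hv
  nth_rw 2 [← zpow_one (A.valuation (p : Qbar))] at hv
  have h1 := valuation_zpow_injective hp.out hA hv
  have h2 : (p : ℤ) ∣ 1 := ⟨k, by rw [mul_comm]; exact h1.symm⟩
  exact hp.out.not_dvd_one (Int.natCast_dvd_natCast.mp h2)

/-- **Such elements exist.** -/
theorem exists_isTauZero (hA : A.LiesOverPrime p) (hp2 : p ≠ 2) : ∃ τ, IsTauZero A p τ := by
  obtain ⟨P₀, hP₀⟩ := IsAlgClosed.exists_pow_nat_eq (p : Qbar) hp.out.pos
  have hP0 : P₀ ≠ 0 := fun h => by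
    rw [h, zero_pow hp.out.ne_zero] at hP₀
    exact hp.out.ne_zero (by exact_mod_cast hP₀.symm)
  let ι := {q : ℕ × Qbar // A.valuation q.2 = 1 ∧
    ∀ σ ∈ A.inertiaSubgroupIn ℚ, σ (q.2 ^ p ^ q.1) = q.2 ^ p ^ q.1}
  let t : Option ι → Set GQ := fun o => match o with
    | none => (A.inertiaSubgroupIn ℚ : Set GQ) ∩ {σ | σ P₀ ∈ ({P₀}ᶜ : Set Qbar)}
    | some i => {σ | σ i.1.2 ∈ ({i.1.2} : Set Qbar)}
  have hclosed : ∀ o, IsClosed (t o) := fun o => match o with
    | none => (isClosed_inertia hA).inter (isClopen_eval _ _).1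
    | some i => (isClopen_eval _ _).1
  have hfin : ∀ S : Finset (Option ι), (⋂ o ∈ S, t o).Nonempty := by
    intro S
    set T : Finset ι := S.eraseNone
    obtain ⟨N, hN⟩ : ∃ N, ∀ i ∈ T, i.1.1 ≤ N + 1 :=
      ⟨T.sup fun i => i.1.1, fun i hi => (Finset.le_sup (f := fun i : ι => i.1.1) hi).trans
        (Nat.le_succ _)⟩
    set n := p ^ (N + 1) with hn
    have : NeZero n := ⟨pow_ne_zero _ hp.out.ne_zero⟩
    obtain ⟨ζ, hζ⟩ := HasEnoughRootsOfUnity.exists_primitiveRoot Qbar n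
    by_contra hempty
    set H := A.inertiaSubgroupIn ℚ ⊓ MulAction.stabilizer GQ ζ
    have hμ : ∀ σ ∈ H, ∀ z : Qbar, z ^ n = 1 → σ z = z := fun σ hσ z hz => by
      obtain ⟨i, -, rfl⟩ := hζ.eq_pow_of_pow_eq_one hz
      rw [map_pow, show σ ζ = ζ from hσ.2]
    have hsn : ∀ i ∈ T, ∀ σ ∈ A.inertiaSubgroupIn ℚ,
        σ (i.1.2 ^ n) = i.1.2 ^ n := fun i hi σ hσ => by
      obtain ⟨c, hc⟩ : p ^ i.1.1 ∣ n := pow_dvd_pow p (hN i hi)
      rw [hc, pow_mul, map_pow, i.2.2 σ hσ]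
    have hP0n : ∀ σ : GQ, σ (P₀ ^ n) = P₀ ^ n := fun σ => by
      rw [hn, pow_succ', pow_mul, hP₀, map_pow, map_natCast]
    set l := (T.image fun i => i.1.2).toList with hl
    have hlT : ∀ s ∈ l, ∃ i ∈ T, i.1.2 = s := fun s hs => by
      simpa [hl, Finset.mem_image] using hs
    obtain ⟨z, hz, hzfix⟩ := exists_div_fixed l H hμ (fun s hs => by
        obtain ⟨i, hi, rfl⟩ := hlT s hs
        exact ⟨fun h => by simpa [h] using i.2.1, fun σ hσ => hsn i hi σ hσ.1⟩)
      P₀ hP0 (fun σ _ => hP0n σ) fun σ hσ hfix => by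
        by_contra hne
        refine hempty ⟨σ, Set.mem_iInter₂.mpr fun o ho => ?_⟩
        match o, ho with
        | none, _ => exact ⟨hσ.1, hne⟩
        | some i, ho =>
          refine hfix _ ?_
          rw [hl, Finset.mem_toList]
          exact Finset.mem_image_of_mem _ (Finset.mem_eraseNone.mpr ho)
    have hzP : A.valuation z = 1 ∧ ∀ σ ∈ A.inertiaSubgroupIn ℚ, σ (z ^ n) = z ^ n := by
      refine Submonoid.closure_induction (fun s hs => ?_)
        ⟨map_one _, fun σ _ => by rw [one_pow, map_one]⟩ ?_ hz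
      · obtain ⟨i, hi, rfl⟩ := hlT s hs
        exact ⟨i.2.1, hsn i hi⟩
      · rintro a b - - ⟨ha, ha'⟩ ⟨hb, hb'⟩
        exact ⟨by rw [map_mul, ha, hb, one_mul],
          fun σ hσ => by rw [mul_pow, map_mul, ha' σ hσ, hb' σ hσ]⟩
    refine no_small_descent hA hp2 hζ (y := P₀ / z) (fun σ hσ => ?_)
      (fun σ hσ hσζ => hzfix σ ⟨hσ, hσζ⟩) ?_
    · rw [div_pow, map_div₀, hP0n, hzP.2 σ hσ]
    · rw [map_div₀, hzP.1, div_one, ← map_pow, hP₀]
  obtain ⟨τ, hτ⟩ := CompactSpace.iInter_nonempty hclosed hfin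
  rw [Set.mem_iInter] at hτ
  have hfix : ∀ (m : ℕ) (s : Qbar), A.valuation s = 1 →
      (∀ σ ∈ A.inertiaSubgroupIn ℚ, σ (s ^ p ^ m) = s ^ p ^ m) → τ s = s :=
    fun m s h1 h2 => hτ (some ⟨(m, s), h1, h2⟩)
  refine ⟨τ, (hτ none).1, fun P hP hτP => ?_, hfix⟩
  have hP' : P ≠ 0 := fun h => by
    rw [h, zero_pow hp.out.ne_zero] at hP
    exact hp.out.ne_zero (by exact_mod_cast hP.symm)
  have hw : (P₀ / P) ^ p = 1 := by
    rw [div_pow, hP₀, hP, div_self (Nat.cast_ne_zero.mpr hp.out.ne_zero)]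
  have hτw : τ (P₀ / P) = P₀ / P := hfix 1 _
    (valuation_eq_one_of_pow hp.out.ne_zero (by rw [hw, map_one]))
    (fun σ _ => by rw [pow_one, hw, map_one])
  refine (hτ none).2 ?_
  show τ P₀ = P₀
  rw [show P₀ = P₀ / P * P by rw [div_mul_cancel₀ _ hP'], map_mul, hτw, hτP]

end FermatAgent.CFT.SelmerP

end
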