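import Fermat.Agent.CFT.SelmerP.OrdShape
import Fermat.Agent.CFT.SelmerP.TauZero
import Fermat.Agent.Mazur.Kummer

/-!
# The value of a weakly ordinary representation at the tame element

The cocycle on inertia composed with a functional is given by a radicand fixed by inertia.  Its
valuation is the value at the element moving only the roots of `p`, and it does not change under
Frobenius.
-/

set_option autoImplicit false

noncomputable section

open scoped Matrix

namespace FermatAgent.CFT.SelmerP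

open GaloisBasic RT IsLocalRing Mazur
open ECLocal (valuation_natCast_ne_zero)

variable {p : ℕ} [hp : Fact p.Prime]

/-- A functional is a power of roots of unity. -/
lemma functional_pow {G : Type*} [AddCommGroup G] {n : ℕ} (hn : ∀ x : G, n • x = 0)
    (φ : Multiplicative G →* Qbarˣ) (x : G) :
    ((φ (Multiplicative.ofAdd x) : Qbarˣ) : Qbar) ^ n = 1 := by
  rw [← Units.val_pow_eq_pow_val, ← map_pow, ← ofAdd_nsmul, hn, ofAdd_zero, map_one, Units.val_one]

/-- Functionals turn multiples into powers. -/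
lemma functional_nsmul {G : Type*} [AddCommGroup G] (φ : Multiplicative G →* Qbarˣ) (a : ℕ)
    (x : G) : ((φ (Multiplicative.ofAdd (a • x)) : Qbarˣ) : Qbar) =
      ((φ (Multiplicative.ofAdd x) : Qbarˣ) : Qbar) ^ a := by
  rw [ofAdd_nsmul, map_pow, Units.val_pow_eq_pow_val]

/-- Functionals separate the elements of a finite group. -/
lemma eq_of_functionals {G : Type*} [AddCommGroup G] [Finite G] {x y : G}
    (h : ∀ φ : Multiplicative G →* Qbarˣ, φ (Multiplicative.ofAdd x) = φ (Multiplicative.ofAdd y)) :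
    x = y := by
  by_contra hne
  have : NeZero (Monoid.exponent (Multiplicative G)) := ⟨Monoid.exponent_ne_zero_of_finite⟩
  obtain ⟨φ, hφ⟩ := CommGroup.exists_apply_ne_one_of_hasEnoughRootsOfUnity (Multiplicative G) Qbar
    (a := Multiplicative.ofAdd (x - y)) (fun h0 => hne (sub_eq_zero.mp (ofAdd_eq_one.mp h0)))
  refine hφ ?_
  rw [ofAdd_sub, map_div, h φ, div_self']

variable {𝒪 : Type} [CommRing 𝒪] [IsLocalRing 𝒪] [Algebra ℤ_[p] 𝒪]
variable {B : Type} [CommRing B] [Algebra 𝒪 B] {M : MatRep B}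
variable {A : ValuationSubring Qbar} {π : Matrix (Fin 2) (Fin 2) B}

/-- The exponent of an element on the roots of unity of a given order. -/
lemma exists_exponent (σ : GQ) (n : ℕ) [NeZero n] :
    ∃ a : ℕ, ∀ z : Qbar, z ^ n = 1 → σ z = z ^ a := by
  obtain ⟨ζ, hζ⟩ := HasEnoughRootsOfUnity.exists_primitiveRoot Qbar n
  obtain ⟨a, -, ha⟩ := hζ.eq_pow_of_pow_eq_one
    (show σ ζ ^ n = 1 by rw [← map_pow, hζ.pow_eq_one, map_one])
  refine ⟨a, fun z hz => ?_⟩
  obtain ⟨i, -, rfl⟩ := hζ.eq_pow_of_pow_eq_one hz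
  rw [map_pow, ← ha, ← pow_mul, ← pow_mul, mul_comm]

omit hp in
/-- Modules over the ring are killed by the power of `p`. -/
lemma nsmul_mat_eq_zero {m : ℕ} (hm : (p : B) ^ m = 0) {G : Type*} [AddCommGroup G] [Module B G]
    (x : G) : (p ^ m) • x = 0 := by
  rw [← Nat.cast_smul_eq_nsmul B, Nat.cast_pow, hm, zero_smul]

omit [IsLocalRing 𝒪] in
/-- Functionals turn the cyclotomic scalar into the Galois action. -/
lemma functional_cyclo {m : ℕ} (hm : (p : B) ^ m = 0) {G : Type*} [AddCommGroup G] [Module B G]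
    (φ : Multiplicative G →* Qbarˣ) (σ : GQ) (x : G) :
    ((φ (Multiplicative.ofAdd (algebraMap 𝒪 B (cycloO p 𝒪 σ) • x)) : Qbarˣ) : Qbar) =
      σ ((φ (Multiplicative.ofAdd x) : Qbarˣ) : Qbar) := by
  have : NeZero (p ^ m) := ⟨pow_ne_zero m hp.out.ne_zero⟩
  obtain ⟨a, ha⟩ := exists_exponent σ (p ^ m)
  rw [cyclo_eq_exponent hm ha, Nat.cast_smul_eq_nsmul, functional_nsmul,
    ha _ (functional_pow (nsmul_mat_eq_zero hm) φ x)]

omit [IsLocalRing 𝒪] in
/-- **A cocycle composed with a functional has a radicand fixed by inertia.** -/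
theorem exists_radicand (hA : A.LiesOverPrime p) {m : ℕ} (hm : (p : B) ^ m = 0)
    {G : Type*} [AddCommGroup G] [Module B G] (φ : Multiplicative G →* Qbarˣ) (c : GQ → G)
    (hc : ∀ σ ∈ A.inertiaSubgroupIn ℚ, ∀ τ ∈ A.inertiaSubgroupIn ℚ,
      c (σ * τ) = algebraMap 𝒪 B (cycloO p 𝒪 σ) • c τ + c σ)
    {U : Subgroup GQ} (hU : IsOpen (U : Set GQ)) (hU0 : ∀ σ ∈ U, c σ = 0) :
    ∃ (r : Qbar) (v : ℤ), r ≠ 0 ∧
      (∀ σ ∈ A.inertiaSubgroupIn ℚ, σ r = (φ (Multiplicative.ofAdd (c σ)) : Qbarˣ) * r) ∧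
      (∀ σ ∈ A.inertiaSubgroupIn ℚ, σ (r ^ p ^ m) = r ^ p ^ m) ∧
      A.valuation (r ^ p ^ m) = A.valuation (p : Qbar) ^ v := by
  obtain ⟨r, hr0, hr⟩ := exists_eq_mul_of_cocycle (A.inertiaSubgroupIn ℚ)
    (fun σ => ((φ (Multiplicative.ofAdd (c σ)) : Qbarˣ) : Qbar)) (fun σ hσ τ hτ => by
      rw [hc σ hσ τ hτ, ofAdd_add, map_mul, Units.val_mul, functional_cyclo hm, mul_comm])
    (fun σ _ => Units.ne_zero _) U hU (fun σ _ hσU => by rw [hU0 σ hσU, ofAdd_zero, map_one,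
      Units.val_one])
  have hfix : ∀ σ ∈ A.inertiaSubgroupIn ℚ, σ (r ^ p ^ m) = r ^ p ^ m := fun σ hσ => by
    rw [map_pow, hr σ hσ, mul_pow, functional_pow (nsmul_mat_eq_zero hm), one_mul]
  obtain ⟨v, hv⟩ := exists_zpow_valuation_eq hp.out hA (pow_ne_zero _ hr0) hfix
  exact ⟨r, v, hr0, hr, hfix, hv⟩

/-- The action of the tame element on a root of valuation `v / n` of an element fixed by inertia. -/
theorem tau_ratio {m : ℕ} {τ : GQ} (hτ : IsTauZero A p τ) {P : Qbar}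
    (hP : P ^ p ^ m = (p : Qbar)) {r : Qbar} (hr0 : r ≠ 0)
    (hfix : ∀ σ ∈ A.inertiaSubgroupIn ℚ, σ (r ^ p ^ m) = r ^ p ^ m) {v : ℤ}
    (hv : A.valuation (r ^ p ^ m) = A.valuation (p : Qbar) ^ v) :
    A.valuation (r / P ^ v) = 1 ∧ τ r / r = (τ P / P) ^ v := by
  have hn : p ^ m ≠ 0 := pow_ne_zero m hp.out.ne_zero
  have hP0 : P ≠ 0 := fun h => by
    rw [h, zero_pow hn] at hP
    exact hp.out.ne_zero (by exact_mod_cast hP.symm)
  have hP' : (P ^ v) ^ p ^ m = (p : Qbar) ^ v := by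
    rw [← zpow_natCast, ← zpow_mul, mul_comm, zpow_mul, zpow_natCast, hP]
  have hs1 : A.valuation (r / P ^ v) = 1 := valuation_eq_one_of_pow hn (by
    rw [div_pow, hP', map_div₀, hv, map_zpow₀,
      div_self (zpow_ne_zero v (valuation_natCast_ne_zero hp.out))])
  refine ⟨hs1, ?_⟩
  have hs : τ (r / P ^ v) = r / P ^ v := hτ.fixes m _ hs1 fun σ hσ => by
    rw [div_pow, hP', map_div₀, hfix σ hσ, map_zpow₀, map_natCast]
  rw [map_div₀, map_zpow₀, div_eq_div_iff ((zpow_ne_zero v ((map_ne_zero τ).mpr hP0)))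
    (zpow_ne_zero v hP0)] at hs
  rw [div_zpow, div_eq_div_iff hr0 (zpow_ne_zero v hP0), hs, mul_comm]

variable [Finite B]

omit [IsLocalRing 𝒪] in
/-- **The eigenvalue on the quotient has square one where the tame element acts nontrivially.** -/
theorem sq_sub_one_smul_tau (hA : A.LiesOverPrime p)
    (S : OrdShape A M (fun σ => algebraMap 𝒪 B (cycloO p 𝒪 σ)) π) (hpB : IsNilpotent (p : B))
    (hcont : ∃ L : IntermediateField ℚ Qbar, FiniteDimensional ℚ L ∧
      ∀ σ ∈ L.fixingSubgroup, M σ = 1)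
    {τ : GQ} (hτ : IsTauZero A p τ) {F : GQ} (hF : F ∈ A.decompositionSubgroup ℚ) :
    (((1 - π) * M F).trace * ((1 - π) * M F).trace - 1) • (M τ - 1) = 0 := by
  obtain ⟨m, hm⟩ := hpB
  obtain ⟨L, hL, hLM⟩ := hcont
  have : NeZero (p ^ m) := ⟨pow_ne_zero m hp.out.ne_zero⟩
  have hχτ : algebraMap 𝒪 B (cycloO p 𝒪 τ) = 1 := by
    rw [cyclo_eq_exponent hm (a := 1) fun z hz => by rw [pow_one]; exact hτ.fixes_root hz,
      Nat.cast_one]
  set τ' := F⁻¹ * τ * F
  have hτ'I : τ' ∈ A.inertiaSubgroupIn ℚ := by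
    simpa [τ'] using conj_mem_inertiaSubgroupIn_of_mem hp.out hA hτ.mem (inv_mem hF)
  refine S.sq_char_smul hF hτ.mem hχτ (τ' := τ') (by simp only [τ']; group) ?_
  refine eq_of_functionals fun φ => Units.ext ?_
  rw [functional_cyclo hm]
  obtain ⟨r, v, hr0, hr, hfix, hv⟩ := exists_radicand hA hm φ (fun σ => M σ - 1)
    (fun σ hσ τ hτ => S.cocycle hσ hτ) (L.fixingSubgroup_isOpen)
    (fun σ hσ => by rw [hLM σ hσ, sub_self])
  obtain ⟨P, hP⟩ :=
    IsAlgClosed.exists_pow_nat_eq (p : Qbar) (Nat.pos_of_ne_zero (NeZero.ne (p ^ m)))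
  have h1 := (tau_ratio hτ hP hr0 hfix hv).2
  have hfixI : ∀ σ ∈ A.inertiaSubgroupIn ℚ, σ ((F r) ^ p ^ m) = (F r) ^ p ^ m := fun σ hσ => by
    have hσ' : F⁻¹ * σ * F ∈ A.inertiaSubgroupIn ℚ := by
      simpa using conj_mem_inertiaSubgroupIn_of_mem hp.out hA hσ (inv_mem hF)
    rw [← map_pow F, ← AlgEquiv.mul_apply, show σ * F = F * (F⁻¹ * σ * F) by group,
      AlgEquiv.mul_apply, hfix _ hσ']
  have hv' : A.valuation ((F r) ^ p ^ m) = A.valuation (p : Qbar) ^ v := by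
    rw [← map_pow F, val_map hF, hv]
  have h2 := (tau_ratio hτ hP ((map_ne_zero F).mpr hr0) hfixI hv').2
  rw [← h1, hr τ hτ.mem, mul_div_cancel_right₀ _ hr0, ← AlgEquiv.mul_apply,
    show τ * F = F * τ' by simp only [τ']; group, AlgEquiv.mul_apply, hr τ' hτ'I, map_mul,
    mul_div_cancel_right₀ _ ((map_ne_zero F).mpr hr0)] at h2
  exact h2

/-- The relation at an index of the weak equations. -/
theorem weakOrd_sq_sub_one_smul [IsLocalRing B] (hpB : IsNilpotent (p : B))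
    (hw : (Lifting.weakOrdMatCond (cycloO p 𝒪) p).P M)
    (hdet : ∀ σ, (M σ).det = algebraMap 𝒪 B (cycloO p 𝒪 σ))
    (hcont : ∃ L : IntermediateField ℚ Qbar, FiniteDimensional ℚ L ∧
      ∀ σ ∈ L.fixingSubgroup, M σ = 1)
    (i : OrdIndex (cycloO p 𝒪) p) {τ : GQ} (hτ : IsTauZero i.P p τ) {F : GQ}
    (hF : F ∈ i.P.decompositionSubgroup ℚ) :
    (((1 - ordProj i M) * M F).trace * ((1 - ordProj i M) * M F).trace - 1) • (M τ - 1) = 0 :=
  sq_sub_one_smul_tau i.lies (ordShape_of_weakOrd hw hdet i) hpB hcont hτ hF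

end FermatAgent.CFT.SelmerP

end
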