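import Fermat.Agent.CFT.Selmer.LineP
import Fermat.Agent.CFT.SelmerP.OrdTau
import Fermat.Agent.GaloisBasic.FiniteFrobenius

/-!
# Classes of a weakly ordinary deformation with constant quotient eigenvalue

Such a deformation is, after a change of basis, given on the decomposition group by a cocycle with
values in the line of trace free matrices mapping the quotient to the line.
-/

set_option autoImplicit false

noncomputable section

open scoped Classical

namespace FermatAgent.CFT.SelmerP

open GaloisBasic Selmer Euler Pairing Global Local LocalEuler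

section Ring

variable {B B' : Type} [CommRing B] [CommRing B'] {A : ValuationSubring Qbar} {M : MatRep B}
  {χ : GQ → B} {π : Matrix (Fin 2) (Fin 2) B}

/-- The shape along a map of matrix rings compatible with traces and determinants. -/
theorem OrdShape.comp (S : OrdShape A M χ π)
    (Φ : Matrix (Fin 2) (Fin 2) B →+* Matrix (Fin 2) (Fin 2) B') (φ : B →+* B')
    (htr : ∀ X, (Φ X).trace = φ X.trace) (hdet : ∀ X, (Φ X).det = φ X.det) :
    OrdShape A (Φ.toMonoidHom.comp M) (fun σ => φ (χ σ)) (Φ π) where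
  idem := by rw [← map_mul, S.idem]
  trace := by rw [htr, S.trace, map_one]
  stable σ hσ := by
    show (1 - Φ π) * Φ (M σ) * Φ π = 0
    rw [← map_one Φ, ← map_sub, ← map_mul, ← map_mul, S.stable σ hσ, map_zero]
  quot σ hσ := by
    show (1 - Φ π) * (Φ (M σ) - 1) = 0
    rw [← map_one Φ, ← map_sub, ← map_sub, ← map_mul, S.quot σ hσ, map_zero]
  det σ := by
    show (Φ (M σ)).det = φ (χ σ)
    rw [hdet, S.det]

end Ring

section Alg

variable {k : Type} [Field k] {A : ValuationSubring Qbar} {r : MatRep k} {χ : GQ → k} {π : M22 k}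
  (S : OrdShape A r χ π)
include S

/-- The two opposite nilpotent elements. -/
lemma OrdShape.exists_nilpotents :
    ∃ n n' : M22 k, π * n = n ∧ n * π = 0 ∧ π * n' = 0 ∧
      (n * n').trace = 1 ∧ ∀ Y, π * Y = Y → Y * π = 0 → Y = (Y * n').trace • n := by
  obtain ⟨X₀, hX₀⟩ : ∃ X, π * X * (1 - π) ≠ 0 := by
    by_contra hall
    push Not at hall
    have h : ∀ a b c d, π a b * (1 - π) c d = 0 := fun a b c d => by
      have h1 := congrFun (congrFun (hall (Matrix.single b c 1)) a) d
      rw [Matrix.mul_assoc, Matrix.mul_apply, Finset.sum_eq_single b, Matrix.single_mul_apply_same,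
        one_mul] at h1
      · exact h1
      · intro x _ hxb; rw [Matrix.single_mul_apply_of_ne (h := hxb), mul_zero]
      · exact fun hb => absurd (Finset.mem_univ b) hb
    have h2 : π.trace * (1 - π).trace = 0 := by
      simp only [Matrix.trace_fin_two, add_mul, mul_add, h, add_zero]
    rw [S.trace, S.trace_one_sub, mul_one] at h2
    exact one_ne_zero h2
  set n := π * X₀ * (1 - π) with hn
  obtain ⟨i, j, hij⟩ : ∃ i j, n i j ≠ 0 := by
    by_contra hall
    push Not at hall
    exact hX₀ (Matrix.ext hall)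
  set n' := (1 - π) * ((n i j)⁻¹ • Matrix.single j i 1) * π with hn'
  have hπn : π * n = n := by rw [hn, ← mul_assoc, ← mul_assoc, S.idem]
  have hnπ : n * π = 0 := by rw [hn, mul_assoc, S.one_sub_mul, mul_zero]
  have hn1 : n * (1 - π) = n := by rw [mul_sub, mul_one, hnπ, sub_zero]
  have hπn' : π * n' = 0 := by
    rw [hn', ← mul_assoc, ← mul_assoc, S.mul_one_sub, zero_mul, zero_mul]
  have hn'π : n' * π = n' := by rw [hn', mul_assoc, S.idem]
  have htr : (n * n').trace = 1 := by
    rw [hn', ← mul_assoc, ← mul_assoc, hn1, Matrix.trace_mul_comm, ← mul_assoc, hπn,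
      mul_smul_comm, Matrix.trace_smul, smul_eq_mul, Matrix.trace_fin_two]
    fin_cases i <;> fin_cases j <;>
      simp_all [Matrix.mul_apply, Fin.sum_univ_two, Matrix.single_apply]
  have hn'n : n' * n = 1 - π := by
    have h1 := S.compl.sandwich (n' * n)
    have h2 : (1 - π) * n' = n' := by rw [sub_mul, one_mul, hπn', sub_zero]
    rw [← mul_assoc, h2, mul_assoc, hn1, Matrix.trace_mul_comm, htr, one_smul] at h1
    exact h1
  refine ⟨n, n', hπn, hnπ, hπn', htr, fun Y hY hY' => ?_⟩
  have hY1 : Y * (1 - π) = Y := by rw [mul_sub, mul_one, hY', sub_zero]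
  conv_lhs => rw [← hY1, ← hn'n, ← mul_assoc]
  have h3 : Y * n' = (Y * n').trace • π := by
    have h := S.sandwich (Y * n')
    rw [← mul_assoc, hY, mul_assoc, hn'π] at h
    exact h
  conv_lhs => rw [h3, smul_mul_assoc, hπn]

/-- The eigenvalues are nonzero. -/
lemma OrdShape.quotChar_ne_zero {σ : GQ} (hσ : σ ∈ A.decompositionSubgroup ℚ) :
    ((1 - π) * r σ).trace ≠ 0 :=
  right_ne_zero_of_mul (a := (π * r σ).trace)
    (by rw [S.char_mul hσ]; exact (S.isUnit_char σ).ne_zero)

/-- Conjugating a line element. -/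
lemma OrdShape.conj_line {σ : GQ} (hσ : σ ∈ A.decompositionSubgroup ℚ) {Y : M22 k}
    (hY : π * Y = Y) (hY' : Y * π = 0) :
    r σ * Y * r σ⁻¹ = ((π * r σ).trace * ((1 - π) * r σ⁻¹).trace) • Y := by
  have hY1 : Y * (1 - π) = Y := by rw [mul_sub, mul_one, hY', sub_zero]
  conv_lhs => rw [← hY, ← hY1]
  have h1 := S.mul_proj hσ
  have h2 := S.one_sub_mul_rep (inv_mem hσ)
  generalize (π * r σ).trace = a at h1 ⊢
  generalize ((1 - π) * r σ⁻¹).trace = b at h2 ⊢
  rw [show r σ * (π * (Y * (1 - π))) * r σ⁻¹ = (r σ * π) * Y * ((1 - π) * r σ⁻¹) by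
    simp only [mul_assoc], h1, h2, smul_mul_assoc, smul_mul_assoc, mul_smul_comm, smul_smul, hY,
    hY1]

/-- The scalar on the line. -/
lemma OrdShape.line_scalar {σ : GQ} (hσ : σ ∈ A.decompositionSubgroup ℚ)
    (hsq : ((1 - π) * r σ).trace * ((1 - π) * r σ).trace = 1) :
    (π * r σ).trace * ((1 - π) * r σ⁻¹).trace = χ σ := by
  have h1 := S.quotChar_mul (τ := σ⁻¹) hσ
  rw [mul_inv_cancel, map_one, mul_one, S.trace_one_sub] at h1
  rw [← S.char_mul hσ]
  congr 1
  exact (mul_left_cancel₀ (S.quotChar_ne_zero hσ) (hsq.trans h1)).symm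

end Alg

section DualNumber

variable {k : Type} [Field k]

/-- The infinitesimal part of one. -/
lemma sndMat_one : sndMat (1 : Matrix (Fin 2) (Fin 2) (DualNumber k)) = 0 := by
  ext i j; fin_cases i <;> fin_cases j <;> simp [sndMat]

lemma sndMat_sub (X Y : Matrix (Fin 2) (Fin 2) (DualNumber k)) :
    sndMat (X - Y) = sndMat X - sndMat Y := by
  ext i j; simp [sndMat]

lemma sndMat_zero : sndMat (0 : Matrix (Fin 2) (Fin 2) (DualNumber k)) = 0 := by
  ext i j; simp [sndMat]

lemma sndMat_smul_inl (u : k) (X : Matrix (Fin 2) (Fin 2) (DualNumber k)) :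
    sndMat ((TrivSqZeroExt.inl u : DualNumber k) • X) = u • sndMat X := by
  ext i j; simp [sndMat]

lemma trace_sndMat (X : Matrix (Fin 2) (Fin 2) (DualNumber k)) :
    (sndMat X).trace = X.trace.snd := by
  simp [sndMat, Matrix.trace_fin_two]

/-- The trace of the constant part. -/
lemma trace_fstMat (X : Matrix (Fin 2) (Fin 2) (DualNumber k)) :
    (fstMat X).trace = X.trace.fst := by
  simp [fstMat, Matrix.trace_fin_two]

end DualNumber

section Dual

variable {p : ℕ} [hp : Fact p.Prime] {k : Type} [Field k] {A : ValuationSubring Qbar}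

/-- The constant part of a shape over dual numbers is a shape. -/
private lemma OrdShape.fst_of_dual {N : MatRep (DualNumber k)} {r : MatRep k}
    (hfN : ∀ g, fstMat (N g) = r g) {χ : GQ → k} {πN : Matrix (Fin 2) (Fin 2) (DualNumber k)}
    (S : OrdShape A N (fun σ => TrivSqZeroExt.inl (χ σ)) πN) :
    OrdShape A r χ (fstMat πN) := by
  have h := S.comp (fstMat : _ →+* M22 k) (TrivSqZeroExt.fstHom k k k).toRingHom
    (fun X => trace_fstMat X) (fun X => ((TrivSqZeroExt.fstHom k k k).toRingHom.map_det X).symm)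
  rw [show (fstMat : _ →+* M22 k).toMonoidHom.comp N = r from MonoidHom.ext hfN,
    show (fun σ => (TrivSqZeroExt.fstHom k k k).toRingHom (TrivSqZeroExt.inl (χ σ))) = χ from
      funext fun σ => TrivSqZeroExt.fst_inl k (χ σ)] at h
  exact h

/-- An infinitesimal deformation `P` of an idempotent `π` comes from a change of basis. -/
private lemma exists_conj_idempotent {π P : M22 k} (hπ : π * π = π) (hP : π * P + P * π = P) :
    ∃ e, P + e * π - π * e = 0 := by
  have hP1 : π * P * π = 0 := by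
    have h := congrArg (fun X => π * X * π) hP
    simp only [mul_add, add_mul, mul_assoc, hπ] at h
    rw [← mul_assoc π π, hπ, ← mul_assoc π P π] at h
    exact left_eq_add.mp h.symm
  refine ⟨π * P * (1 - π) - (1 - π) * P * π, ?_⟩
  simp only [sub_mul, mul_sub, mul_one, one_mul, mul_assoc, hπ]
  simp only [← mul_assoc, hπ, hP1]
  refine Eq.trans ?_ (sub_eq_zero.mpr hP.symm)
  abel

/-- After the change of basis the infinitesimal part `X` still respects the line. -/
private lemma stable_conj_of_stable_snd {π P e R X : M22 k} (heP : P + e * π - π * e = 0)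
    (h0 : (1 - π) * R * π = 0)
    (h : (1 - π) * R * P + ((1 - π) * X + -P * R) * π = 0) :
    (1 - π) * (X + e * R - R * e) * π = 0 := by
  rw [mul_sub, sub_mul, mul_add, add_mul]
  have e1 : e * π = π * e - P := by linear_combination (norm := abel) heP
  have e2 : (1 - π) * (R * e) * π = -((1 - π) * R * P) := by
    rw [show (1 - π) * (R * e) * π = (1 - π) * R * (e * π) by simp only [mul_assoc], e1,
      mul_sub, ← mul_assoc, h0, zero_mul, zero_sub]
  have e3 : (1 - π) * (e * R) * π = -(P * R * π) := by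
    have e4 : (1 - π) * e = e * (1 - π) - P := by
      rw [sub_mul, mul_sub, one_mul, mul_one, e1]; abel
    rw [← mul_assoc, e4, sub_mul, sub_mul, mul_assoc e, mul_assoc e, h0, mul_zero, zero_sub]
  rw [e2, e3]
  linear_combination (norm := noncomm_ring) h

/-- The change of basis shifts the quotient trace by `-P * R`. -/
private lemma trace_sub_conj {π P e : M22 k} (heP : P + e * π - π * e = 0) (R : M22 k) :
    ((1 - π) * (e * R)).trace - ((1 - π) * (R * e)).trace = (-P * R).trace := by
  rw [show -P = e * π - π * e by linear_combination (norm := abel) -heP]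
  simp only [sub_mul, one_mul, Matrix.trace_sub]
  rw [Matrix.trace_mul_comm e R, mul_assoc e π, Matrix.trace_mul_comm e (π * R),
    mul_assoc π e, mul_assoc π R e]
  ring

/-- A function additive on the decomposition group vanishes there once it vanishes on inertia, at
a Frobenius and on the group fixing a finite extension. -/
private lemma eq_zero_of_add_on_decomposition (hA : A.LiesOverPrime p) {F : GQ}
    (hF : A.IsFrobeniusAt F p) (L : IntermediateField ℚ Qbar) [FiniteDimensional ℚ L]
    {δ : GQ → k}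
    (hadd : ∀ σ ∈ A.decompositionSubgroup ℚ, ∀ τ ∈ A.decompositionSubgroup ℚ,
      δ (σ * τ) = δ σ + δ τ)
    (hI : ∀ σ ∈ A.inertiaSubgroupIn ℚ, δ σ = 0) (hF0 : δ F = 0)
    (hL : ∀ σ ∈ L.fixingSubgroup, δ σ = 0) {σ : GQ} (hσ : σ ∈ A.decompositionSubgroup ℚ) :
    δ σ = 0 := by
  obtain ⟨j, ι, hι, h, hh, rfl⟩ := exists_frob_pow_mul_inertia hp.out hA hF hσ L
  have hFD := pow_mem hF.mem_decompositionSubgroup j
  have hιD := inertiaSubgroupIn_le_decompositionSubgroup A hι
  have hhD : h ∈ A.decompositionSubgroup ℚ := by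
    have := mul_mem (inv_mem (mul_mem hFD hιD)) hσ
    rwa [inv_mul_cancel_left] at this
  have hpow : ∀ i : ℕ, δ (F ^ i) = 0 := fun i => by
    induction i with
    | zero =>
      have h0 := hadd 1 (one_mem _) 1 (one_mem _)
      rw [one_mul] at h0
      rw [pow_zero]
      exact left_eq_add.mp h0
    | succ i ih =>
      rw [pow_succ, hadd _ (pow_mem hF.mem_decompositionSubgroup i) _ hF.mem_decompositionSubgroup,
        ih, hF0, add_zero]
  rw [hadd _ (mul_mem hFD hιD) _ hhD, hadd _ hFD _ hιD, hpow, hI ι hι, hL h hh, add_zero, add_zero]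

/-- The quotient trace of a cocycle preserving the line is additive on the decomposition group. -/
private lemma OrdShape.trace_one_sub_cocycle_add {r : MatRep k} {χ : GQ → k} {π : M22 k}
    (S : OrdShape A r χ π) {Y : GQ → M22 k}
    (hY : ∀ σ τ, Y (σ * τ) = Y σ + r σ * Y τ * r σ⁻¹)
    (hone : ∀ σ ∈ A.decompositionSubgroup ℚ,
      (1 - π) * Y σ = ((1 - π) * Y σ).trace • (1 - π))
    {σ τ : GQ} (hσ : σ ∈ A.decompositionSubgroup ℚ) (hτ : τ ∈ A.decompositionSubgroup ℚ) :
    ((1 - π) * Y (σ * τ)).trace = ((1 - π) * Y σ).trace + ((1 - π) * Y τ).trace := by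
  rw [hY, mul_add, Matrix.trace_add]
  congr 1
  have hτ' := hone τ hτ
  generalize ((1 - π) * Y τ).trace = d at hτ' ⊢
  rw [← mul_assoc, ← mul_assoc, S.one_sub_mul_rep hσ, smul_mul_assoc, hτ', smul_smul,
    smul_mul_assoc, S.one_sub_mul_rep (inv_mem hσ), smul_smul, Matrix.trace_smul,
    S.trace_one_sub, smul_eq_mul, mul_one, mul_right_comm, ← S.quotChar_mul hσ,
    mul_inv_cancel, map_one, mul_one, S.trace_one_sub, one_mul]

/-- **The class of a deformation with constant quotient eigenvalue.** -/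
theorem exists_line_normalisation (hA : A.LiesOverPrime p) {r : MatRep k} {c : GQ → M22 k}
    (hc : c ∈ adCoc r) {N : MatRep (DualNumber k)} (hN : ∀ g, N g = epsLift r c g)
    {χ : GQ → k} {σ₀ : GQ} {u : k}
    (S : OrdShape A N (fun σ => TrivSqZeroExt.inl (χ σ))
      ((TrivSqZeroExt.inl u : DualNumber k) • (N σ₀ - 1)))
    {L : IntermediateField ℚ Qbar} [FiniteDimensional ℚ L]
    (hL : ∀ σ ∈ L.fixingSubgroup, r σ = 1 ∧ c σ = 0)
    {F : GQ} (hF : A.IsFrobeniusAt F p) {d₀ : k}
    (hd : ((1 - (TrivSqZeroExt.inl u : DualNumber k) • (N σ₀ - 1)) * N F).trace =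
      TrivSqZeroExt.inl d₀) :
    OrdShape A r χ (u • (r σ₀ - 1)) ∧ ((1 - u • (r σ₀ - 1)) * r F).trace = d₀ ∧
      ∃ e : M22 k, ∀ σ ∈ A.decompositionSubgroup ℚ,
        u • (r σ₀ - 1) * (c σ - (r σ * e * r σ⁻¹ - e)) = c σ - (r σ * e * r σ⁻¹ - e) ∧
          (c σ - (r σ * e * r σ⁻¹ - e)) * (u • (r σ₀ - 1)) = 0 := by
  set πN := (TrivSqZeroExt.inl u : DualNumber k) • (N σ₀ - 1) with hπN
  set π := u • (r σ₀ - 1) with hπ
  set P := u • (c σ₀ * r σ₀)
  have hfN : ∀ g, fstMat (N g) = r g := fun g => by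
    ext i j; simp [fstMat, hN, epsLift]
  have hsN : ∀ g, sndMat (N g) = c g * r g := fun g => by
    ext i j; simp [sndMat, hN, epsLift]
  have hfπ : fstMat πN = π := by
    ext i j
    simp [hπN, hπ, fstMat, hN, epsLift, Matrix.one_apply]
    split_ifs <;> simp
  have hsπ : sndMat πN = P := by
    rw [hπN, sndMat_smul_inl, sndMat_sub, hsN, sndMat_one, sub_zero]
  have Sr : OrdShape A r χ π := hfπ ▸ OrdShape.fst_of_dual hfN S
  have hdF : ((1 - π) * r F).trace = d₀ := by
    have h := congrArg TrivSqZeroExt.fst hd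
    rwa [← trace_fstMat, map_mul fstMat, map_sub fstMat, map_one fstMat, hfπ, hfN,
      TrivSqZeroExt.fst_inl] at h
  refine ⟨Sr, hdF, ?_⟩
  -- the change of basis
  have hP : π * P + P * π = P := by
    have h := congrArg sndMat S.idem
    rwa [sndMat_mul, hfπ, hsπ] at h
  obtain ⟨e, heP⟩ := exists_conj_idempotent Sr.idem hP
  refine ⟨e, ?_⟩
  set Y : GQ → M22 k := fun σ => c σ - (r σ * e * r σ⁻¹ - e)
  have hY : ∀ σ, Y σ * r σ = c σ * r σ + e * r σ - r σ * e := fun σ => by
    simp only [Y, sub_mul, mul_assoc, rep_inv_mul, mul_one]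
    abel
  have hYcoc : ∀ σ τ, Y (σ * τ) = Y σ + r σ * Y τ * r σ⁻¹ := fun σ τ => by
    simp only [Y, hc.1 σ τ, map_mul, mul_inv_rev, mul_sub, sub_mul, mul_assoc]
    abel
  have hYtr : ∀ σ, (Y σ).trace = 0 := fun σ => by
    simp only [Y, Matrix.trace_sub, hc.2 σ, Matrix.trace_mul_comm (r σ * e) (r σ⁻¹), ← mul_assoc,
      rep_inv_mul, one_mul, sub_self]
  -- the equations
  have hstable : ∀ σ ∈ A.decompositionSubgroup ℚ, (1 - π) * Y σ * π = 0 := fun σ hσ => by
    have h := congrArg sndMat (S.stable σ hσ)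
    rw [sndMat_mul, sndMat_mul, map_mul fstMat, map_sub fstMat, map_one fstMat, hfπ, hfN,
      sndMat_sub, sndMat_one, zero_sub, hsπ, hsN, sndMat_zero] at h
    have h1 : (1 - π) * (Y σ * r σ) * π = 0 := by
      rw [hY]
      exact stable_conj_of_stable_snd heP (Sr.stable σ hσ) h
    rw [mul_assoc, mul_assoc, Sr.mul_proj hσ, mul_smul_comm, mul_smul_comm, ← mul_assoc,
      smul_eq_zero] at h1
    refine h1.resolve_left fun h2 => (Sr.isUnit_char σ).ne_zero ?_
    rw [← Sr.char_mul hσ, h2, zero_mul]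
  have hone : ∀ σ ∈ A.decompositionSubgroup ℚ,
      (1 - π) * Y σ = ((1 - π) * Y σ).trace • (1 - π) := fun σ hσ => by
    rw [← Sr.compl.sandwich (Y σ), mul_sub ((1 - π) * Y σ), mul_one, hstable σ hσ, sub_zero]
  set δ : GQ → k := fun σ => ((1 - π) * Y σ).trace with hδ
  have htrd : ∀ σ ∈ A.decompositionSubgroup ℚ,
      ((1 - π) * (Y σ * r σ)).trace = δ σ * ((1 - π) * r σ).trace := fun σ hσ => by
    rw [← mul_assoc, hone σ hσ, smul_mul_assoc, Matrix.trace_smul, smul_eq_mul]
  -- the quotient part of the infinitesimal component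
  have hsnd : ∀ σ, (((1 - πN) * N σ).trace).snd = ((1 - π) * (Y σ * r σ)).trace := fun σ => by
    rw [← trace_sndMat, sndMat_mul, sndMat_sub, sndMat_one, zero_sub, map_sub fstMat,
      map_one fstMat, hfπ, hfN, hsN, hsπ, hY, mul_sub, mul_add, Matrix.trace_add, Matrix.trace_sub,
      Matrix.trace_add]
    linear_combination -trace_sub_conj heP (r σ)
  have hδI : ∀ σ ∈ A.inertiaSubgroupIn ℚ, δ σ = 0 := fun σ hσ => by
    have hD := inertiaSubgroupIn_le_decompositionSubgroup A hσ
    have h1 := hsnd σ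
    rw [S.quotChar_inertia hσ, TrivSqZeroExt.snd_one, htrd σ hD, Sr.quotChar_inertia hσ, mul_one]
      at h1
    exact h1.symm
  have hδF : δ F = 0 := by
    have h1 := hsnd F
    rw [hd, TrivSqZeroExt.snd_inl, htrd F hF.mem_decompositionSubgroup] at h1
    exact (mul_eq_zero.mp h1.symm).resolve_right
      (Sr.quotChar_ne_zero hF.mem_decompositionSubgroup)
  have hδ0 : ∀ σ ∈ A.decompositionSubgroup ℚ, δ σ = 0 := fun σ hσ =>
    eq_zero_of_add_on_decomposition hA hF L
      (fun _ h₁ _ h₂ => Sr.trace_one_sub_cocycle_add hYcoc hone h₁ h₂) hδI hδF (fun h hh => by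
        simp only [hδ, Y, (hL h hh).2, (hL h⁻¹ (inv_mem hh)).1, (hL h hh).1, one_mul, mul_one,
          sub_self, mul_zero, Matrix.trace_zero]) hσ
  intro σ hσ
  have h1 : (1 - π) * Y σ = 0 := by
    rw [hone σ hσ, show ((1 - π) * Y σ).trace = 0 from hδ0 σ hσ, zero_smul]
  have h2 : π * Y σ = Y σ := by
    rw [sub_mul, one_mul, sub_eq_zero] at h1
    exact h1.symm
  refine ⟨h2, ?_⟩
  show Y σ * π = 0
  rw [← h2, Sr.sandwich, h2, hYtr, zero_smul]

end Dual

end FermatAgent.CFT.SelmerP

end
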