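import Fermat.Agent.CFT.SelmerP.OrdBound
import Fermat.Agent.GaloisBasic.Generated

/-!
# The ordinary bound in terms of the lifting condition

The weak equations at any place over `p` are moved to the chosen place by conjugation.
-/

set_option autoImplicit false

noncomputable section

open scoped Classical Pointwise

namespace FermatAgent.CFT.SelmerP

open GaloisBasic Selmer Euler Pairing Global Local LocalEuler IsLocalRing GaloisRep

attribute [local instance] dualAlgebra

variable {p : ℕ} [hp : Fact p.Prime]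

/-- The conjugate of a tame element. -/
lemma IsTauZero.of_smul {A : ValuationSubring Qbar} (hA : A.LiesOverPrime p) {g τ : GQ}
    (h : IsTauZero (g • A) p τ) : IsTauZero A p (g⁻¹ * τ * g) := by
  have hgA := liesOverPrime_smul g hA
  refine ⟨?_, fun P hP heq => ?_, fun m s hs hfix => ?_⟩
  · have h1 := conj_mem_inertiaSubgroupIn hp.out hgA h.mem g⁻¹
    rwa [inv_smul_smul, inv_inv] at h1
  · refine h.move (g P) (by rw [← map_pow, hP, map_natCast]) ?_
    have h1 : g ((g⁻¹ * τ * g) P) = g P := congrArg g heq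
    rwa [← AlgEquiv.mul_apply, show g * (g⁻¹ * τ * g) = τ * g by group, AlgEquiv.mul_apply] at h1
  · have hval : ∀ x : Qbar, A.valuation x = 1 → (g • A).valuation (g x) = 1 := fun x hx => by
      have hx0 : x ≠ 0 := fun h0 => by simp [h0] at hx
      refine le_antisymm ((ValuationSubring.valuation_le_one_iff _ _).mpr
        (ValuationSubring.smul_mem_pointwise_smul g _ A
          ((A.valuation_le_one_iff x).mp hx.le))) (le_of_not_gt fun hlt => ?_)
      have h1 : g x⁻¹ ∈ g • A := ValuationSubring.smul_mem_pointwise_smul g _ A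
        ((A.valuation_le_one_iff _).mp (by rw [map_inv₀, hx, inv_one]))
      have h2 := ((g • A).valuation_le_one_iff _).mpr h1
      rw [map_inv₀ g, map_inv₀] at h2
      exact not_lt.mpr h2 (one_lt_inv_iff₀.mpr ⟨zero_lt_iff.mpr (by simpa using hx0), hlt⟩)
    have h1 : τ (g s) = g s := h.fixes m (g s) (hval s hs) fun σ hσ => by
      have h2 := conj_mem_inertiaSubgroupIn hp.out hgA hσ g⁻¹
      rw [inv_smul_smul, inv_inv] at h2
      have h3 := hfix _ h2
      rw [← map_pow g, ← AlgEquiv.mul_apply, show σ * g = g * (g⁻¹ * σ * g) by group,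
        AlgEquiv.mul_apply, h3]
    rw [AlgEquiv.mul_apply, AlgEquiv.mul_apply, h1]
    exact g.symm_apply_apply s

variable {𝒪 : Type} [CommRing 𝒪] [IsLocalRing 𝒪] [Algebra ℤ_[p] 𝒪] [Finite (ResidueField 𝒪)]

omit [Finite (ResidueField 𝒪)] in
/-- The cyclotomic character in the residue field. -/
lemma residue_cycloO [CharP (ResidueField 𝒪) p] (σ : GQ) :
    residue 𝒪 (RT.cycloO p 𝒪 σ) = (chiK (ResidueField 𝒪) p σ : ResidueField 𝒪) := by
  have : NeZero p := ⟨hp.out.ne_zero⟩
  have h := cyclo_eq_exponent (𝒪 := 𝒪) (B := ResidueField 𝒪) (m := 1)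
    (by rw [pow_one]; exact CharP.cast_eq_zero (ResidueField 𝒪) p) (σ := σ)
    (a := (chiQ p σ : ZMod p).val) fun _ hμ => apply_root_chiQ p σ hμ
  refine Eq.trans h ?_
  rw [coe_chiK, ← map_natCast (ZMod.castHom (dvd_refl p) (ResidueField 𝒪)), ZMod.natCast_zmod_val]

omit [Finite (ResidueField 𝒪)] in
/-- An element of inertia with residually nontrivial cyclotomic character. -/
lemma exists_inertia_isUnit_cycloO [CharP (ResidueField 𝒪) p] (hp2 : p ≠ 2) :
    ∃ τ ∈ (padicPlace p).inertiaSubgroupIn ℚ, IsUnit (RT.cycloO p 𝒪 τ - 1) := by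
  obtain ⟨τ, hτ, hχτ⟩ := exists_inertia_chiQ_neg_one p
  refine ⟨τ, hτ, ?_⟩
  rw [← residue_ne_zero_iff_isUnit, map_sub, map_one, residue_cycloO, coe_chiK, hχτ,
    Units.val_neg, Units.val_one, map_neg, map_one,
    show (-1 - 1 : ResidueField 𝒪) = -2 by ring, neg_ne_zero]
  exact fun h0 => hp2 ((Nat.prime_dvd_prime_iff_eq hp.out Nat.prime_two).mp
    ((CharP.cast_eq_zero_iff _ p 2).mp (by exact_mod_cast h0)))

omit [Finite (ResidueField 𝒪)] in
/-- The projection to the line over dual numbers. -/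
lemma ordProj_dual (i : RT.OrdIndex (RT.cycloO p 𝒪) p)
    (N : MatRep (DualNumber (ResidueField 𝒪))) :
    RT.ordProj i N =
      (TrivSqZeroExt.inl (residue 𝒪 i.u) : DualNumber (ResidueField 𝒪)) • (N i.σ₀ - 1) := by
  rw [RT.ordProj]
  refine Matrix.ext fun a b => ?_
  simp only [Matrix.smul_apply, smul_eq_mul, ← dual_algebraMap]
  exact Algebra.smul_def i.u _

/-- **The bound for weakly ordinary lifts with constant quotient eigenvalue of square one and
trivial value at the tame element.** -/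
theorem finrank_le_weakOrd (hp2 : p ≠ 2) (hp𝒪 : (p : 𝒪) ∈ maximalIdeal 𝒪)
    (r : MatRep (ResidueField 𝒪))
    (hr : ∃ L : IntermediateField ℚ Qbar, FiniteDimensional ℚ L ∧ ∀ σ ∈ L.fixingSubgroup, r σ = 1)
    (V : Submodule (ResidueField 𝒪) (GQ → M22 (ResidueField 𝒪)))
    [Module.Finite (ResidueField 𝒪) V] (hV : V ≤ adCoc r)
    (hcont : ∀ c ∈ V, ∃ L : IntermediateField ℚ Qbar, FiniteDimensional ℚ L ∧
      ∀ σ ∈ L.fixingSubgroup, c σ = 0)
    (i : RT.OrdIndex (RT.cycloO p 𝒪) p) {τ : GQ} (hτ : IsTauZero i.P p τ)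
    {F : GQ} (hF : i.P.IsFrobeniusAt F p) {d₀ : ResidueField 𝒪} (hd₀ : d₀ * d₀ = 1)
    (hlift : ∀ c ∈ V, ∃ N : MatRep (DualNumber (ResidueField 𝒪)),
      (∀ g, N g = epsLift r c g) ∧
      (Lifting.weakOrdMatCond (RT.cycloO p 𝒪) p).P N ∧
      (∀ σ, (N σ).det = algebraMap 𝒪 (DualNumber (ResidueField 𝒪)) (RT.cycloO p 𝒪 σ)) ∧
      ((1 - RT.ordProj i N) * N F).trace = TrivSqZeroExt.inl d₀ ∧ N τ = 1) :
    Module.finrank (ResidueField 𝒪) V ≤
      Module.finrank (ResidueField 𝒪) (V ⊓ locCob r ((padicPlace p).decompositionSubgroup ℚ) :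
        Submodule (ResidueField 𝒪) (GQ → M22 (ResidueField 𝒪))) +
      Module.finrank (ResidueField 𝒪) (locFix r ((padicPlace p).decompositionSubgroup ℚ)) := by
  have : CharP (ResidueField 𝒪) p := (CharP.charP_iff_prime_eq_zero hp.out).mpr (by
    rw [← map_natCast (residue 𝒪), residue_eq_zero_iff]; exact hp𝒪)
  have hA : (padicPlace p).LiesOverPrime p := liesOverPrime_padicPlace
  obtain ⟨g, hg⟩ := GaloisBasic.exists_smul_eq hp.out hA i.lies
  have hFA : (padicPlace p).IsFrobeniusAt (g⁻¹ * F * g) p := by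
    have h1 := conj_isFrobeniusAt hp.out i.lies hF g⁻¹
    rwa [inv_inv, ← hg, inv_smul_smul] at h1
  -- the conjugated index at the chosen place
  let j : RT.OrdIndex (RT.cycloO p 𝒪) p := ⟨padicPlace p, hA, g⁻¹ * i.σ₀ * g, by
      have h1 := conj_mem_inertiaSubgroupIn hp.out i.lies i.mem g⁻¹
      rwa [inv_inv, ← hg, inv_smul_smul] at h1, i.u, by
      rw [map_mul, map_mul, mul_right_comm, ← map_mul, inv_mul_cancel, map_one, one_mul]
      exact i.u_spec⟩
  refine finrank_le_ordinary hp2 r hr V hV hcont (σ₀ := j.σ₀) (u := residue 𝒪 j.u)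
    (IsTauZero.of_smul hA (g := g) (hg ▸ hτ)) hFA hd₀ fun c hc => ?_
  obtain ⟨N, hN, hw, hdet, hd, hNτ⟩ := hlift c hc
  have hconj : ∀ x, N (g⁻¹ * x * g) = N g⁻¹ * N x * N g := fun x => by rw [map_mul, map_mul]
  have hgg : N g * N g⁻¹ = 1 := by rw [← map_mul, mul_inv_cancel, map_one]
  have hgg' : N g⁻¹ * N g = 1 := by rw [← map_mul, inv_mul_cancel, map_one]
  refine ⟨N, hN, ordProj_dual j N ▸ ordShape_of_weakOrd hw
    (fun σ => by rw [hdet σ, dual_algebraMap, residue_cycloO]) j, ?_, ?_⟩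
  · rw [← ordProj_dual j N, hconj, ← hd, show 1 - RT.ordProj j N =
      N g⁻¹ * (1 - RT.ordProj i N) * N g by
        simp only [RT.ordProj, j, hconj, mul_smul_comm, smul_mul_assoc, mul_sub, mul_one, sub_mul,
          hgg'], Matrix.trace_mul_comm]
    simp only [mul_assoc]
    rw [← mul_assoc (N g) (N g⁻¹), hgg, one_mul, Matrix.trace_mul_comm]
    simp only [mul_assoc]
    rw [hgg, mul_one, Matrix.trace_mul_comm]
  · rw [hconj, hNτ, mul_one, hgg']

end FermatAgent.CFT.SelmerP

end
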