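import Fermat.Agent.Lifting.Conditions
import Fermat.Agent.GaloisBasic.Inertia

/-!
# The shape of weakly ordinary representations

The equations of the ordinary condition at a place give two characters on the decomposition group
and a cocycle on inertia.
-/

set_option autoImplicit false

noncomputable section

open scoped Matrix

namespace FermatAgent.CFT.SelmerP

open GaloisBasic RT IsLocalRing

/-- A representation preserving the image of an idempotent of trace one on the decomposition group,
with trivial inertia on the quotient. -/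
structure OrdShape {B : Type} [CommRing B] (A : ValuationSubring Qbar) (M : MatRep B)
    (χ : GQ → B) (π : Matrix (Fin 2) (Fin 2) B) : Prop where
  idem : π * π = π
  trace : π.trace = 1
  stable : ∀ σ ∈ A.decompositionSubgroup ℚ, (1 - π) * M σ * π = 0
  quot : ∀ σ ∈ A.inertiaSubgroupIn ℚ, (1 - π) * (M σ - 1) = 0
  det : ∀ σ, (M σ).det = χ σ

namespace OrdShape

variable {B : Type} [CommRing B]

/-- A matrix times its trace minus itself is its determinant. -/
lemma mul_trace_sub (X : Matrix (Fin 2) (Fin 2) B) :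
    X * (X.trace • 1 - X) = X.det • 1 := by
  ext i j
  fin_cases i <;> fin_cases j <;>
    simp [Matrix.mul_apply, Fin.sum_univ_two, Matrix.trace_fin_two, Matrix.det_fin_two] <;> ring

variable {A : ValuationSubring Qbar} {M : MatRep B} {χ : GQ → B} {π : Matrix (Fin 2) (Fin 2) B}
  (S : OrdShape A M χ π)
include S

lemma det_proj : π.det = 0 := by
  have h := mul_trace_sub π
  rw [S.trace, one_smul, mul_sub, mul_one, S.idem, sub_self] at h
  have h1 := congrFun (congrFun h 0) 0
  simpa using h1.symm

lemma one_sub_idem : (1 - π) * (1 - π) = 1 - π := by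
  rw [sub_mul, one_mul, mul_sub, mul_one, S.idem, sub_self, sub_zero]

/-- The complement times the projection. -/
lemma one_sub_mul : (1 - π) * π = 0 := by rw [sub_mul, one_mul, S.idem, sub_self]

/-- The projection times the complement. -/
lemma mul_one_sub : π * (1 - π) = 0 := by rw [mul_sub, mul_one, S.idem, sub_self]

/-- The complement has trace one. -/
lemma trace_one_sub : (1 - π).trace = 1 := by
  rw [Matrix.trace_sub, Matrix.trace_one, Fintype.card_fin, S.trace]; push_cast; ring

/-- Compressions to a rank one projection are scalars. -/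
lemma sandwich (X : Matrix (Fin 2) (Fin 2) B) : π * X * π = (π * X).trace • π := by
  have hd := S.det_proj
  rw [Matrix.det_fin_two] at hd
  ext i j
  fin_cases i <;> fin_cases j <;>
    simp [Matrix.mul_apply, Fin.sum_univ_two, Matrix.trace_fin_two]
  · linear_combination -(X 1 1) * hd
  · linear_combination (X 0 1) * hd
  · linear_combination (X 1 0) * hd
  · linear_combination -(X 0 0) * hd

/-- The complement gives an ordinary shape with trivial character. -/
lemma compl : OrdShape (B := B) A 1 (fun _ => 1) (1 - π) where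
  idem := S.one_sub_idem
  trace := S.trace_one_sub
  stable σ _ := by
    rw [MonoidHom.one_apply, mul_one, sub_sub_cancel, S.mul_one_sub]
  quot σ _ := by rw [MonoidHom.one_apply, sub_self, mul_zero]
  det σ := by rw [MonoidHom.one_apply, Matrix.det_one]

/-- The eigenvalue on the line. -/
lemma mul_proj {σ : GQ} (hσ : σ ∈ A.decompositionSubgroup ℚ) :
    M σ * π = (π * M σ).trace • π := by
  rw [← S.sandwich]
  have h := S.stable σ hσ
  rw [sub_mul, one_mul, sub_mul, sub_eq_zero] at h
  exact h

/-- The eigenvalue on the quotient. -/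
lemma one_sub_mul_rep {σ : GQ} (hσ : σ ∈ A.decompositionSubgroup ℚ) :
    (1 - π) * M σ = ((1 - π) * M σ).trace • (1 - π) := by
  rw [← S.compl.sandwich (M σ)]
  conv_lhs => rw [← mul_one ((1 - π) * M σ)]
  rw [mul_sub ((1 - π) * M σ), S.stable σ hσ, sub_zero]

/-- The quotient character is multiplicative. -/
lemma quotChar_mul {σ τ : GQ} (hσ : σ ∈ A.decompositionSubgroup ℚ) :
    ((1 - π) * M (σ * τ)).trace = ((1 - π) * M σ).trace * ((1 - π) * M τ).trace := by
  conv_lhs => rw [map_mul, ← mul_assoc, S.one_sub_mul_rep hσ, smul_mul_assoc, Matrix.trace_smul,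
    smul_eq_mul]

/-- The quotient character is unramified. -/
lemma quotChar_inertia {σ : GQ} (hσ : σ ∈ A.inertiaSubgroupIn ℚ) :
    ((1 - π) * M σ).trace = 1 := by
  have h := S.quot σ hσ
  rw [mul_sub, mul_one, sub_eq_zero] at h
  rw [h, S.trace_one_sub]

/-- The product of the two characters. -/
lemma char_mul {σ : GQ} (hσ : σ ∈ A.decompositionSubgroup ℚ) :
    (π * M σ).trace * ((1 - π) * M σ).trace = χ σ := by
  have htr : (M σ).trace = (π * M σ).trace + ((1 - π) * M σ).trace := by
    rw [← Matrix.trace_add, ← add_mul, add_sub_cancel, one_mul]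
  have h := congrArg (fun X => (π * X * π).trace) (mul_trace_sub (M σ))
  simp only [S.det] at h
  rw [mul_sub, mul_smul_comm, mul_one, mul_sub, mul_smul_comm, sub_mul, smul_mul_assoc, S.sandwich,
    show π * (M σ * M σ) * π = π * M σ * (M σ * π) by simp only [mul_assoc], S.mul_proj hσ,
    mul_smul_comm, S.sandwich, mul_smul_comm, mul_one, smul_mul_assoc, S.idem] at h
  simp only [Matrix.trace_sub, Matrix.trace_smul, S.trace, smul_eq_mul, mul_one] at h
  rw [htr] at h
  linear_combination h

/-- Inertia acts by the character on the line. -/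
lemma mul_proj_inertia {σ : GQ} (hσ : σ ∈ A.inertiaSubgroupIn ℚ) : M σ * π = χ σ • π := by
  have hD := inertiaSubgroupIn_le_decompositionSubgroup A hσ
  rw [S.mul_proj hD, ← S.char_mul hD, S.quotChar_inertia hσ, mul_one]

/-- Deviations of inertia land in the line. -/
lemma proj_mul_sub {σ : GQ} (hσ : σ ∈ A.inertiaSubgroupIn ℚ) : π * (M σ - 1) = M σ - 1 := by
  have h := S.quot σ hσ
  rw [sub_mul, one_mul, sub_eq_zero] at h
  exact h.symm

/-- Deviations of inertia form a cocycle. -/
lemma cocycle {σ τ : GQ} (hσ : σ ∈ A.inertiaSubgroupIn ℚ) (hτ : τ ∈ A.inertiaSubgroupIn ℚ) :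
    M (σ * τ) - 1 = χ σ • (M τ - 1) + (M σ - 1) := by
  have h1 : M σ * (M τ - 1) = χ σ • (M τ - 1) := by
    rw [← S.proj_mul_sub hτ, ← mul_assoc, S.mul_proj_inertia hσ, smul_mul_assoc]
  rw [← h1, map_mul, mul_sub, mul_one]
  abel

/-- The values of the character are units. -/
lemma isUnit_char (σ : GQ) : IsUnit (χ σ) := by
  rw [← S.det]
  exact ((Group.isUnit σ).map M).map Matrix.detMonoidHom

/-- Conjugation of the cocycle at an inertia element with trivial character. -/
lemma sq_char_smul {F τ τ' : GQ} (hF : F ∈ A.decompositionSubgroup ℚ)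
    (hτ : τ ∈ A.inertiaSubgroupIn ℚ) (hτ' : χ τ = 1) (hτF : F * τ' = τ * F)
    (h : χ F • (M τ' - 1) = M τ - 1) :
    (((1 - π) * M F).trace * ((1 - π) * M F).trace - 1) • (M τ - 1) = 0 := by
  set a := (π * M F).trace
  set d := ((1 - π) * M F).trace
  set N := M τ - 1
  have hN : π * N = N := S.proj_mul_sub hτ
  have hN' : N * π = 0 := by
    rw [sub_mul, one_mul, S.mul_proj_inertia hτ, hτ', one_smul, sub_self]
  have h1 : M F * N = a • N := by
    rw [← hN, ← mul_assoc, S.mul_proj hF, smul_mul_assoc]
  have h2 : N * M F = d • N := by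
    have h3 : N * (1 - π) = N := by rw [mul_sub, mul_one, hN', sub_zero]
    conv_lhs => rw [← h3, mul_assoc, S.one_sub_mul_rep hF, mul_smul_comm, h3]
  have h4 : M F * (M τ' - 1) = N * M F := by
    rw [mul_sub, mul_one, sub_mul, one_mul, ← map_mul, ← map_mul, hτF]
  have h5 : a • N = χ F • (d • N) := by
    rw [← h2, ← h4, ← mul_smul_comm, h, h1]
  have h6 : χ F • ((d * d - 1) • N) = 0 := by
    rw [sub_smul, one_smul, smul_sub, mul_smul, smul_comm (χ F) d, ← h5, ← mul_smul, mul_comm,
      S.char_mul hF, sub_self]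
  obtain ⟨u, hu⟩ := S.isUnit_char F
  rw [← hu] at h6
  have h7 := congrArg (fun X => (↑u⁻¹ : B) • X) h6
  rwa [smul_smul, Units.inv_mul, one_smul, smul_zero] at h7

end OrdShape

variable {𝒪 : Type} [CommRing 𝒪] [IsLocalRing 𝒪] {p : ℕ}

/-- The shape given by the weak equations at an index. -/
lemma ordShape_of_weakOrd {c : GQ →* 𝒪} {B : Type} [CommRing B] [IsLocalRing B] [Algebra 𝒪 B]
    {M : MatRep B} (h : (Lifting.weakOrdMatCond c p).P M) {χ : GQ → B}
    (hdet : ∀ σ, (M σ).det = χ σ) (i : OrdIndex c p) :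
    OrdShape i.P M χ (ordProj i M) where
  idem := sub_eq_zero.mp (h ⟨.idem i, trivial⟩)
  trace := by
    have h1 : algebraMap B (Matrix (Fin 2) (Fin 2) B) ((ordProj i M).trace - 1) = 0 :=
      h ⟨.rank i, trivial⟩
    have h2 := congrFun (congrFun h1 0) 0
    rwa [Matrix.algebraMap_matrix_apply, if_pos rfl, Algebra.algebraMap_self, RingHom.id_apply,
      Matrix.zero_apply, sub_eq_zero] at h2
  stable σ hσ := h ⟨.stable i ⟨σ, hσ⟩, trivial⟩
  quot σ hσ := h ⟨.quot i ⟨σ, hσ⟩, trivial⟩
  det := hdet

variable [hp : Fact p.Prime] [Algebra ℤ_[p] 𝒪]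

omit [IsLocalRing 𝒪] in
/-- The cyclotomic character as an exponent in a ring killed by a power of `p`. -/
lemma cyclo_eq_exponent {B : Type} [CommRing B] [Algebra 𝒪 B] {m : ℕ} (hm : (p : B) ^ m = 0)
    {σ : GQ} {a : ℕ} (h : ∀ z : Qbar, z ^ p ^ m = 1 → σ z = z ^ a) :
    algebraMap 𝒪 B (cycloO p 𝒪 σ) = a := by
  obtain ⟨y, hy⟩ := cycloO_congr p (𝒪 := 𝒪) h
  have h1 := congrArg (algebraMap 𝒪 B) hy
  rw [map_sub, map_mul, map_pow, map_natCast, map_natCast, hm, zero_mul, sub_eq_zero] at h1
  exact h1

end FermatAgent.CFT.SelmerP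

end
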