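import Fermat.Agent.BAD.InertiaRoot
import Fermat.Agent.Mazur.Kummer
import Fermat.Agent.ECLocal.AtPrime

/-!
# Places over `p` and a tame root of `p`

Valuations of elements fixed by inertia and by a root `π` of `p` of order prime to `p`, residues,
and the action of inertia and Frobenius on `π` and on the `p`-th roots of unity.
-/

set_option autoImplicit false

noncomputable section

open scoped Classical Pointwise

namespace FermatAgent.CFT.SelmerP

open GaloisBasic Mazur
open ECLocal (valuation_natCast_lt_one)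

variable {A : ValuationSubring Qbar}

/-- The residue of an element of `A`, zero outside. -/
def red (A : ValuationSubring Qbar) (x : Qbar) : IsLocalRing.ResidueField A :=
  if h : x ∈ A then IsLocalRing.residue A ⟨x, h⟩ else 0

lemma red_of_mem {x : Qbar} (h : x ∈ A) : red A x = IsLocalRing.residue A ⟨x, h⟩ := dif_pos h

/-- The reduction of zero. -/
lemma red_zero : red A (0 : Qbar) = 0 := by
  rw [red_of_mem (zero_mem A)]; exact map_zero _

/-- The reduction of one. -/
lemma red_one : red A (1 : Qbar) = 1 := by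
  rw [red_of_mem (one_mem A)]; exact map_one _

/-- The reduction of a natural number. -/
lemma red_natCast (n : ℕ) : red A (n : Qbar) = n := by
  rw [red_of_mem (natCast_mem A n)]; exact map_natCast _ n

/-- Reductions add. -/
lemma red_add {x y : Qbar} (hx : x ∈ A) (hy : y ∈ A) : red A (x + y) = red A x + red A y := by
  rw [red_of_mem hx, red_of_mem hy, red_of_mem (add_mem hx hy)]
  exact map_add (IsLocalRing.residue A) ⟨x, hx⟩ ⟨y, hy⟩

/-- Reductions subtract. -/
lemma red_sub {x y : Qbar} (hx : x ∈ A) (hy : y ∈ A) : red A (x - y) = red A x - red A y := by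
  rw [red_of_mem hx, red_of_mem hy, red_of_mem (sub_mem hx hy)]
  exact map_sub (IsLocalRing.residue A) ⟨x, hx⟩ ⟨y, hy⟩

/-- Reductions multiply. -/
lemma red_mul {x y : Qbar} (hx : x ∈ A) (hy : y ∈ A) : red A (x * y) = red A x * red A y := by
  rw [red_of_mem hx, red_of_mem hy, red_of_mem (mul_mem hx hy)]
  exact map_mul (IsLocalRing.residue A) ⟨x, hx⟩ ⟨y, hy⟩

/-- Reductions of powers. -/
lemma red_pow {x : Qbar} (hx : x ∈ A) (n : ℕ) : red A (x ^ n) = red A x ^ n := by
  rw [red_of_mem hx, red_of_mem (pow_mem hx n)]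
  exact map_pow (IsLocalRing.residue A) ⟨x, hx⟩ n

/-- Reductions of sums. -/
lemma red_sum {ι : Type*} (s : Finset ι) {f : ι → Qbar} (hf : ∀ i ∈ s, f i ∈ A) :
    red A (∑ i ∈ s, f i) = ∑ i ∈ s, red A (f i) := by
  induction s using Finset.induction with
  | empty => simp [red_zero]
  | insert a s ha ih =>
    rw [Finset.sum_insert ha, Finset.sum_insert ha,
      red_add (hf a (Finset.mem_insert_self a s)) (sum_mem fun i hi =>
        hf i (Finset.mem_insert_of_mem hi)),
      ih fun i hi => hf i (Finset.mem_insert_of_mem hi)]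

/-- The reduction vanishes exactly in the maximal ideal. -/
lemma red_eq_zero_iff {x : Qbar} (hx : x ∈ A) : red A x = 0 ↔ A.valuation x < 1 := by
  rw [red_of_mem hx, IsLocalRing.residue_eq_zero_iff, IsLocalRing.mem_maximalIdeal]
  exact A.valuation_lt_one_iff ⟨x, hx⟩

/-- Values at most one are integral. -/
lemma mem_of_val {x : Qbar} (hx : A.valuation x ≤ 1) : x ∈ A := (A.valuation_le_one_iff x).mp hx

/-- Integral elements have value at most one. -/
lemma val_le_one {x : Qbar} (hx : x ∈ A) : A.valuation x ≤ 1 := (A.valuation_le_one_iff x).mpr hx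

/-- Equal reductions mean congruent elements. -/
lemma red_eq_red_iff {x y : Qbar} (hx : x ∈ A) (hy : y ∈ A) :
    red A x = red A y ↔ A.valuation (x - y) < 1 := by
  rw [← red_eq_zero_iff (sub_mem hx hy), red_sub hx hy, sub_eq_zero]

/-- Decomposition elements preserve valuations. -/
lemma val_map {σ : GQ} (hσ : σ ∈ A.decompositionSubgroup ℚ) (x : Qbar) :
    A.valuation (σ x) = A.valuation x := by
  rcases eq_or_ne x 0 with rfl | hx
  · simp
  have hmono : ∀ τ ∈ A.decompositionSubgroup ℚ, ∀ a b : Qbar, A.valuation a < A.valuation b →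
      A.valuation (τ a) < A.valuation (τ b) := fun τ hτ a b hab => by
    by_contra hle
    rw [not_lt] at hle
    have hb : b ≠ 0 := fun h => by simp [h] at hab
    have ha : τ a ≠ 0 := fun h => by simp [h, hb] at hle
    have hmem : τ b / τ a ∈ A := mem_of_val (by
      rw [map_div₀, div_le_one₀ (zero_lt_iff.mpr (by simpa using ha))]; exact hle)
    have h1 := map_mem_of_mem_decomposition (inv_mem hτ) hmem
    rw [← map_div₀ τ, show τ⁻¹ (τ (b / a)) = b / a from τ.symm_apply_apply _] at h1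
    have h2 := val_le_one h1
    rw [map_div₀, div_le_one₀ (zero_lt_iff.mpr (by simpa using ha))] at h2
    exact not_lt.mpr h2 hab
  -- a strict inequality would propagate along a finite orbit
  have key : ∀ τ ∈ A.decompositionSubgroup ℚ, ¬ A.valuation (τ x) < A.valuation x := by
    intro τ hτ hlt
    have hstep : ∀ n, A.valuation ((τ ^ (n + 1)) x) < A.valuation ((τ ^ n) x) := fun n => by
      rw [pow_succ, AlgEquiv.mul_apply]
      exact hmono _ (pow_mem hτ n) _ _ hlt
    have hanti : StrictAnti fun n => A.valuation ((τ ^ n) x) := strictAnti_nat_of_succ_lt hstep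
    have hinj : Function.Injective fun n => (τ ^ n) x := fun a b h =>
      hanti.injective (congrArg A.valuation h)
    refine Set.infinite_range_of_injective hinj
      (Set.Finite.subset (Polynomial.rootSet_finite (minpoly ℚ x) Qbar) ?_)
    rintro _ ⟨n, rfl⟩
    have hi := Algebra.IsIntegral.isIntegral (R := ℚ) x
    refine (Polynomial.mem_rootSet_of_ne (minpoly.ne_zero hi)).mpr ?_
    exact (Polynomial.aeval_algHom_apply (τ ^ n).toAlgHom x _).trans (by simp)
  refine le_antisymm (not_lt.mp fun h => ?_) (not_lt.mp (key σ hσ))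
  refine key σ⁻¹ (inv_mem hσ) ?_
  have h1 := hmono σ⁻¹ (inv_mem hσ) _ _ h
  rwa [show σ⁻¹ (σ x) = x from σ.symm_apply_apply _] at h1

/-- Inertia lies in the decomposition group. -/
lemma inertia_le_decomposition {σ : GQ} (hσ : σ ∈ A.inertiaSubgroupIn ℚ) :
    σ ∈ A.decompositionSubgroup ℚ := by
  obtain ⟨⟨g, hg⟩, -, rfl⟩ := hσ
  exact hg

section Prime

variable {p : ℕ} [hp : Fact p.Prime] (hA : A.LiesOverPrime p)
include hA

/-- Inertia fixes reductions. -/
lemma red_inertia {σ : GQ} (hσ : σ ∈ A.inertiaSubgroupIn ℚ) {x : Qbar} (hx : x ∈ A) :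
    red A (σ x) = red A x :=
  (red_eq_red_iff (map_mem_of_mem_decomposition (inertia_le_decomposition hσ) hx) hx).mpr
    (valuation_map_sub_lt_one hp.out hA hσ (val_le_one hx))

/-- Frobenius raises reductions to the `p`-th power. -/
lemma red_frobenius {F : GQ} (hF : A.IsFrobeniusAt F p) {x : Qbar} (hx : x ∈ A) :
    red A (F x) = red A x ^ p := by
  obtain ⟨b, s, hs, hbs⟩ := (mem_iff_exists_mul_eq hp.out hA x).mp hx
  have hFD := hF.mem_decompositionSubgroup
  have h := (isFrobeniusAt_iff hp.out hA F).mp hF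
  have key : ∀ c : ZBar, red A (F c) = red A (c : Qbar) ^ p := fun c => by
    rw [← red_pow (zbar_mem A c)]
    refine (red_eq_red_iff (map_mem_of_mem_decomposition hFD (zbar_mem A c))
      (pow_mem (zbar_mem A c) p)).mpr ?_
    exact A.mem_nonunits_iff.mp (mem_center.mp (h c))
  have hs0 : red A (s : Qbar) ≠ 0 := by
    rw [ne_eq, red_eq_zero_iff (zbar_mem A s), valuation_eq_one_of_notMem_center hs]
    exact lt_irrefl 1
  refine mul_right_cancel₀ (pow_ne_zero p hs0) ?_
  rw [← mul_pow, ← red_mul hx (zbar_mem A s), hbs, ← key, ← key,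
    ← red_mul (map_mem_of_mem_decomposition hFD hx)
      (map_mem_of_mem_decomposition hFD (zbar_mem A s)),
    ← map_mul, hbs]

/-- Units are congruent to roots of unity of order prime to `p`. -/
theorem exists_root_lift {x : Qbar} (hx : A.valuation x = 1) :
    ∃ (m : ℕ) (ζ : Qbar), ¬ p ∣ m ∧ m ≠ 0 ∧ ζ ^ m = 1 ∧ A.valuation (x - ζ) < 1 := by
  have := ECLocal.residueChar A hA
  have hxA : x ∈ A := mem_of_val hx.le
  set k := IsLocalRing.ResidueField A
  let : Algebra (ZMod p) k := ZMod.algebra k p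
  obtain ⟨b, s, hs, hbs⟩ := (mem_iff_exists_mul_eq hp.out hA x).mp hxA
  have hint : ∀ c : ZBar, IsIntegral (ZMod p) (red A (c : Qbar)) := fun c => by
    obtain ⟨P, hP, hP0⟩ := c.2
    refine ⟨P.map (Int.castRingHom (ZMod p)), hP.map _, ?_⟩
    have h1 : P.eval₂ (Int.castRingHom A) ⟨c, zbar_mem A c⟩ = 0 := Subtype.ext (by
      have e := Polynomial.hom_eval₂ P (Int.castRingHom A) A.subtype ⟨c, zbar_mem A c⟩
      rw [RingHom.ext_int (A.subtype.comp (Int.castRingHom A)) (algebraMap ℤ Qbar)] at e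
      exact e.trans hP0)
    have h2 := congrArg (IsLocalRing.residue A) h1
    rw [map_zero, Polynomial.hom_eval₂] at h2
    rw [Polynomial.eval₂_map, red_of_mem (zbar_mem A c)]
    refine Eq.trans ?_ h2
    exact congrArg (fun f : ℤ →+* k => Polynomial.eval₂ f _ P) (RingHom.ext_int _ _)
  have hs0 : red A (s : Qbar) ≠ 0 := by
    rw [ne_eq, red_eq_zero_iff (zbar_mem A s), valuation_eq_one_of_notMem_center hs]
    exact lt_irrefl 1
  have hx0 : red A x ≠ 0 := by
    rw [ne_eq, red_eq_zero_iff hxA, hx]; exact lt_irrefl 1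
  set E := IntermediateField.adjoin (ZMod p) ({red A (b : Qbar), red A (s : Qbar)} : Set k)
  have : FiniteDimensional (ZMod p) E := by
    refine IntermediateField.finiteDimensional_adjoin ?_
    rintro _ (rfl | rfl)
    exacts [hint b, hint s]
  have : Finite E := Module.finite_of_finite (ZMod p)
  have := Fintype.ofFinite E
  have hxE : red A x ∈ E := by
    rw [show red A x = red A (b : Qbar) / red A (s : Qbar) by
      rw [eq_div_iff hs0, ← red_mul hxA (zbar_mem A s), hbs]]
    exact div_mem (IntermediateField.subset_adjoin _ _ (by simp))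
      (IntermediateField.subset_adjoin _ _ (by simp))
  set m := Fintype.card E - 1 with hm
  have hpow : red A x ^ m = 1 := by
    have h := FiniteField.pow_card_sub_one_eq_one (⟨red A x, hxE⟩ : E)
      (fun h => hx0 (congrArg Subtype.val h))
    exact congrArg Subtype.val h
  have hm0 : m ≠ 0 := by have := Fintype.one_lt_card (α := E); omega
  have hmp : ¬ p ∣ m := by
    obtain ⟨n, -, hn⟩ := FiniteField.card E p
    intro hd
    have hd' : p ∣ Fintype.card E := hn ▸ dvd_pow_self p n.pos.ne'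
    exact hp.out.not_dvd_one ((Nat.dvd_add_right hd).mp
      (show p ∣ m + 1 by rwa [show m + 1 = Fintype.card E by omega]))
  refine ⟨m, ?_⟩
  have : NeZero m := ⟨hm0⟩
  obtain ⟨ξ, hξ⟩ := HasEnoughRootsOfUnity.exists_primitiveRoot Qbar m
  by_contra hall
  push Not at hall
  have hξA : ∀ i, ξ ^ i ∈ A := fun i => mem_of_val (by
    rw [valuation_eq_one_of_pow hm0 (x := ξ ^ i)
      (by rw [← pow_mul, mul_comm, pow_mul, hξ.pow_eq_one, one_pow, map_one])])
  have hprod : ∏ ζ ∈ Polynomial.nthRootsFinset m (1 : Qbar), (x - ζ) = x ^ m - 1 := by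
    have h :=
      congrArg (Polynomial.eval x) (Polynomial.X_pow_sub_one_eq_prod (Nat.pos_of_ne_zero hm0) hξ)
    simpa [Polynomial.eval_prod] using h.symm
  have hlt : A.valuation (x ^ m - 1) < 1 := by
    refine (red_eq_red_iff (pow_mem hxA m) (one_mem A)).mp ?_
    rw [red_pow hxA, hpow, red_one]
  rw [← hprod, map_prod] at hlt
  refine absurd hlt (not_lt.mpr ?_)
  refine Finset.one_le_prod' fun ζ hζ => ?_
  exact hall ζ hmp hm0 ((Polynomial.mem_nthRootsFinset (Nat.pos_of_ne_zero hm0) 1).mp hζ)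

end Prime

/-- The inertia elements fixing `π`. -/
def rootFix (A : ValuationSubring Qbar) (π : Qbar) : Subgroup GQ :=
  A.inertiaSubgroupIn ℚ ⊓ MulAction.stabilizer GQ π

/-- Membership in the fixer of the root. -/
lemma mem_rootFix {π : Qbar} {σ : GQ} :
    σ ∈ rootFix A π ↔ σ ∈ A.inertiaSubgroupIn ℚ ∧ σ π = π := Iff.rfl

/-- A root of `p` of order `e` prime to `p` with `e = eK (p - 1)`. -/
structure TameRoot (A : ValuationSubring Qbar) (p : ℕ) where
  /-- the root of `p` -/
  π : Qbar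
  /-- the order of the root -/
  e : ℕ
  /-- the quotient `e / (p - 1)` -/
  eK : ℕ
  e_eq : e = eK * (p - 1)
  eK_pos : 0 < eK
  not_dvd : ¬ p ∣ e
  pow_eq : π ^ e = (p : Qbar)
  lies : A.LiesOverPrime p

/-- A tame root of given order exists. -/
theorem TameRoot.exists_of {p : ℕ} [hp : Fact p.Prime] (hA : A.LiesOverPrime p) {eK : ℕ}
    (h0 : 0 < eK) (h : ¬ p ∣ eK) : ∃ R : TameRoot A p, R.eK = eK := by
  have hp1 : 0 < p - 1 := by have := hp.out.two_le; omega
  obtain ⟨π, hπ⟩ := IsAlgClosed.exists_pow_nat_eq (p : Qbar) (Nat.mul_pos h0 hp1)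
  refine ⟨⟨π, eK * (p - 1), eK, rfl, h0, fun hd => ?_, hπ, hA⟩, rfl⟩
  exact (hp.out.dvd_mul.mp hd).elim h fun hd' => by
    have := Nat.le_of_dvd hp1 hd'; omega

namespace TameRoot

variable {p : ℕ} [hp : Fact p.Prime] (R : TameRoot A p)
include R

/-- The subgroup of inertia fixing the root. -/
abbrev H : Subgroup GQ := rootFix A R.π

/-- The tame exponent is positive. -/
lemma e_pos : 0 < R.e := by
  rw [R.e_eq]
  exact Nat.mul_pos R.eK_pos (by have := hp.out.two_le; omega)

/-- The tame root is nonzero. -/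
lemma ne_zero : R.π ≠ 0 := fun h => by
  have := R.pow_eq
  rw [h, zero_pow R.e_pos.ne'] at this
  exact hp.out.ne_zero (by exact_mod_cast this.symm)

/-- The tame root has nonzero value. -/
lemma val_ne_zero : A.valuation R.π ≠ 0 := by simpa using R.ne_zero

/-- The tame root has value less than one. -/
lemma val_lt_one : A.valuation R.π < 1 := by
  have h := valuation_natCast_lt_one R.lies
  rw [← R.pow_eq, map_pow] at h
  exact (pow_lt_one_iff R.e_pos.ne').mp h

/-- The tame root has positive value. -/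
lemma val_pos : 0 < A.valuation R.π := zero_lt_iff.mpr R.val_ne_zero

/-- Powers of the tame root compare reversely. -/
lemma zpow_le {i j : ℤ} : A.valuation R.π ^ i ≤ A.valuation R.π ^ j ↔ j ≤ i :=
  zpow_le_zpow_iff_right_of_lt_one₀ R.val_pos R.val_lt_one

/-- Powers of the tame root compare strictly. -/
lemma zpow_lt {i j : ℤ} : A.valuation R.π ^ i < A.valuation R.π ^ j ↔ j < i :=
  zpow_lt_zpow_iff_right_of_lt_one₀ R.val_pos R.val_lt_one

/-- Powers of the tame root are distinct. -/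
lemma zpow_inj {i j : ℤ} : A.valuation R.π ^ i = A.valuation R.π ^ j ↔ i = j :=
  (zpow_right_injective₀ R.val_pos R.val_lt_one.ne).eq_iff

/-- Natural powers of the tame root compare reversely. -/
lemma pow_le {i j : ℕ} : A.valuation R.π ^ i ≤ A.valuation R.π ^ j ↔ j ≤ i :=
  pow_le_pow_iff_right_of_lt_one₀ R.val_pos R.val_lt_one

/-- Natural powers of the tame root compare strictly. -/
lemma pow_lt {i j : ℕ} : A.valuation R.π ^ i < A.valuation R.π ^ j ↔ j < i :=
  pow_lt_pow_iff_right_of_lt_one₀ R.val_pos R.val_lt_one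

omit hp in
/-- The value of `p`. -/
lemma val_natCast_p : A.valuation (p : Qbar) = A.valuation R.π ^ R.e := by
  rw [← R.pow_eq, map_pow]

/-- The tame multiplier is a root of unity. -/
lemma kappa_pow (σ : GQ) : (σ R.π / R.π) ^ R.e = 1 := by
  rw [div_pow, ← map_pow, R.pow_eq, map_natCast, div_self]
  exact_mod_cast hp.out.ne_zero

/-- The tame multiplier is integral. -/
lemma kappa_mem (σ : GQ) : σ R.π / R.π ∈ A :=
  mem_of_val (valuation_eq_one_of_pow R.e_pos.ne' (by rw [R.kappa_pow, map_one])).le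

/-- Inertia fixes roots of unity prime to `p`. -/
lemma inertia_fixes {σ : GQ} (hσ : σ ∈ A.inertiaSubgroupIn ℚ) {ζ : Qbar} {m : ℕ} (hm : ¬ p ∣ m)
    (hm0 : m ≠ 0) (hζ : ζ ^ m = 1) : σ ζ = ζ :=
  inertia_fixes_rootsOfUnity hp.out R.lies hm hm0 hσ hζ

/-- Inertia fixes tame multipliers. -/
lemma inertia_kappa {σ : GQ} (hσ : σ ∈ A.inertiaSubgroupIn ℚ) (τ : GQ) :
    σ (τ R.π / R.π) = τ R.π / R.π :=
  R.inertia_fixes hσ R.not_dvd R.e_pos.ne' (R.kappa_pow τ)

/-- The tame multiplier is multiplicative on inertia. -/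
lemma kappa_mul {σ : GQ} (hσ : σ ∈ A.inertiaSubgroupIn ℚ) (τ : GQ) :
    (σ * τ) R.π / R.π = σ R.π / R.π * (τ R.π / R.π) := by
  have h1 : τ R.π = τ R.π / R.π * R.π := (div_mul_cancel₀ _ R.ne_zero).symm
  rw [AlgEquiv.mul_apply]
  conv_lhs => rw [h1, map_mul, R.inertia_kappa hσ]
  ring

/-- Inertia acts transitively on the roots. -/
lemma exists_inertia_smul {ζ : Qbar} (hζ : ζ ^ R.e = 1) :
    ∃ σ ∈ A.inertiaSubgroupIn ℚ, σ R.π = ζ * R.π := by
  obtain ⟨σ, hσ, h1, -⟩ := BAD.exists_inertia_smul_root hp.out R.lies R.e_pos.ne'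
    (((Nat.Prime.coprime_iff_not_dvd hp.out).mpr R.not_dvd).symm) R.pow_eq hζ
  exact ⟨σ, hσ, h1⟩

/-- `H` is normal in the decomposition group. -/
lemma conj_mem_H {g : GQ} (hg : g ∈ A.decompositionSubgroup ℚ) {h : GQ} (hh : h ∈ R.H) :
    g⁻¹ * h * g ∈ R.H := by
  obtain ⟨h1, h2⟩ := mem_rootFix.mp hh
  refine mem_rootFix.mpr ⟨by
    simpa using conj_mem_inertiaSubgroupIn_of_mem hp.out R.lies h1 (inv_mem hg), ?_⟩
  have e : g R.π = g R.π / R.π * R.π := (div_mul_cancel₀ _ R.ne_zero).symm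
  show g⁻¹ (h (g R.π)) = R.π
  rw [show h (g R.π) = g R.π from by
    conv_lhs => rw [e, map_mul, R.inertia_kappa h1, h2, ← e]]
  exact g.symm_apply_apply _

/-- The valuation of an element fixed by `H` is a power of that of the root. -/
theorem exists_zpow {x : Qbar} (hx : x ≠ 0) (hfix : ∀ h ∈ R.H, h x = x) :
    ∃ n : ℤ, A.valuation x = A.valuation R.π ^ n := by
  have : NeZero R.e := ⟨R.e_pos.ne'⟩
  have : Fintype (rootsOfUnity R.e Qbar) := Fintype.ofFinite _
  choose s hs hsπ using fun ζ : rootsOfUnity R.e Qbar => R.exists_inertia_smul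
    (ζ := ((ζ : Qbarˣ) : Qbar)) (by
      rw [← Units.val_pow_eq_pow_val, (mem_rootsOfUnity R.e _).mp ζ.2, Units.val_one])
  have hsx : ∀ (σ : GQ) (ζ : rootsOfUnity R.e Qbar), σ ∈ A.inertiaSubgroupIn ℚ →
      σ R.π = ((ζ : Qbarˣ) : Qbar) * R.π → σ x = s ζ x := fun σ ζ hσ hσπ => by
    have h1 : (s ζ)⁻¹ * σ ∈ R.H := mem_rootFix.mpr ⟨mul_mem (inv_mem (hs ζ)) hσ, by
      rw [AlgEquiv.mul_apply, hσπ, ← hsπ]; exact (s ζ).symm_apply_apply _⟩
    conv_lhs => rw [show σ = s ζ * ((s ζ)⁻¹ * σ) by group, AlgEquiv.mul_apply, hfix _ h1]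
  set N := ∏ ζ : rootsOfUnity R.e Qbar, s ζ x with hN
  have hN0 : N ≠ 0 := Finset.prod_ne_zero_iff.mpr fun ζ _ => by simpa using hx
  have hNfix : ∀ σ ∈ A.inertiaSubgroupIn ℚ, σ N = N := fun σ hσ => by
    rw [hN, map_prod]
    refine Fintype.prod_equiv (Equiv.mulLeft (rootsOfUnity.mkOfPowEq _ (R.kappa_pow σ))) _ _
      fun ζ => ?_
    refine hsx (σ * s ζ) _ (mul_mem hσ (hs ζ)) ?_
    rw [Equiv.coe_mulLeft, Subgroup.coe_mul, Units.val_mul, rootsOfUnity.val_mkOfPowEq_coe,
        AlgEquiv.mul_apply, hsπ, map_mul,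
        R.inertia_fixes hσ R.not_dvd R.e_pos.ne' (by
          rw [← Units.val_pow_eq_pow_val, (mem_rootsOfUnity R.e _).mp ζ.2, Units.val_one])]
    have := R.ne_zero
    field_simp
  obtain ⟨n, hn⟩ := exists_zpow_valuation_eq hp.out R.lies hN0 hNfix
  refine ⟨n, ?_⟩
  have hv : A.valuation N = A.valuation x ^ R.e := by
    rw [hN, map_prod, Finset.prod_congr rfl fun ζ _ => val_map (inertia_le_decomposition (hs ζ)) x,
      Finset.prod_const, Finset.card_univ, ← Nat.card_eq_fintype_card,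
      HasEnoughRootsOfUnity.natCard_rootsOfUnity Qbar R.e]
  rw [hv, R.val_natCast_p, ← zpow_natCast (A.valuation R.π), ← zpow_mul, mul_comm, zpow_mul,
    zpow_natCast] at hn
  exact (pow_left_inj₀ zero_le zero_le R.e_pos.ne').mp hn

/-- An element fixed by `H` smaller than a power of the root is at most the next power. -/
theorem le_succ {x : Qbar} (hfix : ∀ h ∈ R.H, h x = x) {j : ℕ}
    (h : A.valuation x < A.valuation R.π ^ j) : A.valuation x ≤ A.valuation R.π ^ (j + 1) := by
  rcases eq_or_ne x 0 with rfl | hx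
  · rw [map_zero]; exact zero_le
  obtain ⟨n, hn⟩ := R.exists_zpow hx hfix
  rw [hn, ← zpow_natCast, R.zpow_lt] at h
  rw [hn, ← zpow_natCast, R.zpow_le]
  omega

/-- The valuation of `ζ - 1`. -/
theorem val_zeta_sub_one {ζ : Qbar} (hζ : IsPrimitiveRoot ζ p) :
    A.valuation (ζ - 1) = A.valuation R.π ^ R.eK := by
  have hp1 : p - 1 ≠ 0 := by have := hp.out.two_le; omega
  refine (pow_left_inj₀ zero_le zero_le hp1).mp ?_
  rw [← pow_mul, ← R.e_eq, ← R.val_natCast_p]
  have h := congrArg A.valuation (IsPrimitiveRoot.prod_one_sub_pow_eq_order (n := p - 1)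
    (show IsPrimitiveRoot ζ (p - 1 + 1) by rwa [Nat.sub_add_cancel hp.out.one_le]))
  rw [map_prod, ← Nat.cast_add_one, Nat.sub_add_cancel hp.out.one_le] at h
  rw [← h, Finset.prod_congr rfl (g := fun _ => A.valuation (ζ - 1)), Finset.prod_const,
    Finset.card_range]
  intro k hk
  rw [Finset.mem_range] at hk
  have hζA : ∀ i, ζ ^ i ∈ A := fun i => mem_of_val (le_of_eq (valuation_eq_one_of_pow hp.out.ne_zero
    (by rw [← pow_mul, mul_comm, pow_mul, hζ.pow_eq_one, one_pow, map_one])))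
  have hcop : (k + 1).Coprime p := ((hp.out.coprime_iff_not_dvd).mpr fun hd => by
    have := Nat.le_of_dvd k.succ_pos hd; omega).symm
  have e1 : ∀ (η : Qbar) (i : ℕ), (∀ l, η ^ l ∈ A) →
      A.valuation (η ^ i - 1) ≤ A.valuation (η - 1) :=
    fun η i hη => by
      rw [← geom_sum_mul, map_mul]
      exact mul_le_of_le_one_left zero_le (val_le_one (sum_mem fun l _ => hη l))
  rw [Valuation.map_sub_swap]
  refine le_antisymm (e1 ζ (k + 1) hζA) ?_
  obtain ⟨m, hm⟩ := Nat.exists_mul_mod_eq_one_of_coprime hcop hp.out.one_lt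
  calc A.valuation (ζ - 1) = A.valuation ((ζ ^ (k + 1)) ^ m - 1) := by
        conv_lhs => rw [← pow_one ζ, ← hm.2]
        rw [← pow_mul, ← pow_mod_orderOf, ← hζ.eq_orderOf]
        conv_rhs => rw [← pow_mod_orderOf, ← hζ.eq_orderOf]
        rw [Nat.mod_mod]
    _ ≤ _ := e1 _ m fun l => by rw [← pow_mul]; exact hζA _

/-- `ζ - 1` is in the maximal ideal. -/
lemma val_zeta_sub_one_lt {ζ : Qbar} (hζ : IsPrimitiveRoot ζ p) : A.valuation (ζ - 1) < 1 := by
  rw [R.val_zeta_sub_one hζ]
  exact pow_lt_one₀ zero_le R.val_lt_one R.eK_pos.ne'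

/-- The exponent on `p`-th roots of unity is the residue of the tame character. -/
theorem cyclo_eq {ζ : Qbar} (hζ : IsPrimitiveRoot ζ p) {σ : GQ} (hσ : σ ∈ A.inertiaSubgroupIn ℚ)
    {a : ℕ} (ha : σ ζ = ζ ^ a) :
    (a : IsLocalRing.ResidueField A) = red A (σ R.π / R.π) ^ R.eK := by
  set u := (ζ - 1) / R.π ^ R.eK with hu
  have hu1 : A.valuation u = 1 := by
    rw [hu, map_div₀, R.val_zeta_sub_one hζ, map_pow, div_self (pow_ne_zero _ R.val_ne_zero)]
  have huA : u ∈ A := mem_of_val hu1.le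
  have hζA : ∀ i, ζ ^ i ∈ A := fun i => mem_of_val (le_of_eq (valuation_eq_one_of_pow hp.out.ne_zero
    (by rw [← pow_mul, mul_comm, pow_mul, hζ.pow_eq_one, one_pow, map_one])))
  have hsumA : (∑ i ∈ Finset.range a, ζ ^ i) ∈ A := sum_mem fun i _ => hζA i
  have e : (∑ i ∈ Finset.range a, ζ ^ i) * u = σ u * (σ R.π / R.π) ^ R.eK := by
    have h1 : σ (ζ - 1) = (∑ i ∈ Finset.range a, ζ ^ i) * (ζ - 1) := by
      rw [map_sub, map_one, ha, geom_sum_mul]
    have hσπ : σ R.π ≠ 0 := by simpa using R.ne_zero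
    rw [hu, map_div₀, h1, map_pow, div_pow]
    field_simp
  have h2 := congrArg (red A) e
  rw [red_mul hsumA huA, red_mul (map_mem_of_mem_decomposition
      (inertia_le_decomposition hσ) huA) (pow_mem (R.kappa_mem σ) _),
    red_inertia R.lies hσ huA, red_pow (R.kappa_mem σ), mul_comm (red A u),
    red_sum _ fun i _ => hζA i] at h2
  have hz : red A ζ = 1 := by
    rw [← red_one (A := A)]
    exact (red_eq_red_iff (by simpa using hζA 1) (one_mem A)).mpr (R.val_zeta_sub_one_lt hζ)
  have hζ1 : ζ ∈ A := by simpa using hζA 1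
  rw [Finset.sum_congr rfl fun i _ => (show red A (ζ ^ i) = 1 by rw [red_pow hζ1, hz, one_pow]),
    Finset.sum_const, Finset.card_range, nsmul_eq_mul, mul_one] at h2
  refine mul_right_cancel₀ ?_ h2
  rw [ne_eq, red_eq_zero_iff huA, hu1]
  exact lt_irrefl 1

/-- `H` fixes the `p`-th roots of unity. -/
theorem H_fixes_zeta {h : GQ} (hh : h ∈ R.H) {ζ : Qbar} (hζ : ζ ^ p = 1) : h ζ = ζ := by
  have := ECLocal.residueChar A R.lies
  have : NeZero p := ⟨hp.out.ne_zero⟩
  obtain ⟨ξ, hξ⟩ := HasEnoughRootsOfUnity.exists_primitiveRoot Qbar p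
  obtain ⟨a, ha, hae⟩ := hξ.eq_pow_of_pow_eq_one (show h ξ ^ p = 1 by
    rw [← map_pow, hξ.pow_eq_one, map_one])
  obtain ⟨hI, hπ⟩ := mem_rootFix.mp hh
  have h1 := R.cyclo_eq hξ hI hae.symm
  rw [hπ, div_self R.ne_zero, red_one, one_pow, ← Nat.cast_one,
    CharP.natCast_eq_natCast (IsLocalRing.ResidueField A) p, Nat.ModEq, Nat.mod_eq_of_lt ha,
    Nat.mod_eq_of_lt hp.out.one_lt] at h1
  rw [h1, pow_one] at hae
  obtain ⟨i, -, rfl⟩ := hξ.eq_pow_of_pow_eq_one hζ
  rw [map_pow, ← hae]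

/-- A Frobenius element fixing the root. -/
theorem exists_frobenius_fix : ∃ F : GQ, A.IsFrobeniusAt F p ∧ F R.π = R.π := by
  obtain ⟨F, hF⟩ := exists_isFrobeniusAt hp.out R.lies
  have hz : ((F⁻¹ R.π) / R.π) ^ R.e = 1 := R.kappa_pow F⁻¹
  obtain ⟨σ, hσ, hσπ⟩ := R.exists_inertia_smul hz
  refine ⟨F * σ, (isFrobeniusAt_iff hp.out R.lies _).mpr fun b => ?_, ?_⟩
  · have h1 := (mem_inertiaSubgroupIn_iff hp.out R.lies σ).mp hσ b
    have h2 := (isFrobeniusAt_iff hp.out R.lies F).mp hF b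
    have h3 : F • center A = center A :=
      (smul_eq_iff hp.out R.lies F).mp hF.mem_decompositionSubgroup
    have h4 : F • (σ • b - b) ∈ F • center A := Ideal.smul_mem_pointwise_smul F _ _ h1
    rw [h3, smul_sub, ← mul_smul] at h4
    have := add_mem h4 h2
    rwa [sub_add_sub_cancel] at this
  · rw [AlgEquiv.mul_apply, hσπ, div_mul_cancel₀ _ R.ne_zero]
    exact F.apply_symm_apply _

end TameRoot

end FermatAgent.CFT.SelmerP

end
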