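import Fermat.Agent.CFT.SelmerP.Place
import Fermat.Agent.Flat.Closure
import Mathlib.Algebra.Group.ForwardDiff

/-!
# Coordinate systems relative to a subgroup of the decomposition group

Translates and closeness to the origin for a coordinate system in the sense of `Flat.Sys`; such
systems are stable under submodules and products.  A nonzero point killed by `p` is not too close to
the origin.
-/

set_option autoImplicit false

noncomputable section

open scoped Classical fwdDiff

namespace FermatAgent.Flat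

open GaloisBasic Mazur
open ECLocal (valuation_natCast_lt_one valuation_natCast_ne_zero)
open CFT.SelmerP (mem_of_val val_le_one)

variable {A : ValuationSubring Qbar}

/-- The elements of valuation at most `t`, a module over the valuation ring. -/
def valBall (A : ValuationSubring Qbar) (t : A.ValueGroup) : Submodule A Qbar where
  carrier := {a | A.valuation a ≤ t}
  zero_mem' := by simp
  add_mem' ha hb := A.valuation.map_add_le ha hb
  smul_mem' c a ha := by
    show A.valuation ((c : Qbar) * a) ≤ _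
    rw [map_mul]
    exact (mul_le_of_le_one_left zero_le (val_le_one c.2)).trans ha

namespace Sys

section

variable {S : Subgroup GQ} {M : Type} [AddCommGroup M] {act : GQ → M → M} (Z : Sys A S act)

/-- Translates of elements of the span are in the span. -/
lemma translate_mem {f : M → Qbar} (hf : f ∈ Z.B) (z : M) : (fun x => f (x + z)) ∈ Z.B := by
  refine (Submodule.span_le.mpr ?_ : Submodule.span A (tens Z.gens Z.gens : Set (M × M → Qbar)) ≤
    Z.B.comap (pullA A fun x : M => ((x, z) : M × M))) (Z.add_mem_tens hf)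
  intro Q hQ
  obtain ⟨g, hg, h, hh, rfl⟩ := Finset.mem_image₂.mp hQ
  have h1 := Z.B.smul_mem ⟨h z, Z.integral h hh z⟩ (Z.gen_mem hg)
  show (fun x => g x * h z) ∈ Z.B
  convert h1 using 1
  exact funext fun x => mul_comm _ _

/-- A point is close to the origin to the order `t`. -/
def Close (z : M) (t : A.ValueGroup) : Prop := ∀ g ∈ Z.gens, A.valuation (g z - g 0) ≤ t

/-- A point reduces to the origin. -/
def Small (z : M) : Prop := ∀ g ∈ Z.gens, A.valuation (g z - g 0) < 1

variable {Z}

lemma Close.of_mem {z : M} {t : A.ValueGroup} (h : Z.Close z t) {f : M → Qbar} (hf : f ∈ Z.B) :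
    A.valuation (f z - f 0) ≤ t := by
  refine Submodule.span_induction ?_ ?_ ?_ ?_ hf (p := fun f _ => A.valuation (f z - f 0) ≤ t)
  · exact fun g hg => h g hg
  · simp
  · intro a b _ _ ha hb
    rw [show (a + b) z - (a + b) 0 = (a z - a 0) + (b z - b 0) by simp only [Pi.add_apply]; ring]
    exact Valuation.map_add_le _ ha hb
  · intro c a _ ha
    show A.valuation ((c : Qbar) * a z - (c : Qbar) * a 0) ≤ t
    rw [← mul_sub, map_mul]
    exact (mul_le_of_le_one_left zero_le (val_le_one c.2)).trans ha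

variable (Z)

/-- Closeness is tested at any translate. -/
lemma close_of_translate {z : M} {t : A.ValueGroup} (y : M)
    (h : ∀ g ∈ Z.gens, A.valuation (g (y + z) - g y) ≤ t) : Z.Close z t := by
  intro g hg
  have key : ∀ f ∈ Z.B, A.valuation (f (y + z) - f y) ≤ t := fun f hf => by
    refine Submodule.span_induction ?_ ?_ ?_ ?_ hf
      (p := fun f _ => A.valuation (f (y + z) - f y) ≤ t)
    · exact fun g hg => h g hg
    · simp
    · intro a b _ _ ha hb
      rw [show (a + b) (y + z) - (a + b) y = (a (y + z) - a y) + (b (y + z) - b y) by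
        simp only [Pi.add_apply]; ring]
      exact Valuation.map_add_le _ ha hb
    · intro c a _ ha
      show A.valuation ((c : Qbar) * a (y + z) - (c : Qbar) * a y) ≤ t
      rw [← mul_sub, map_mul]
      exact (mul_le_of_le_one_left zero_le (val_le_one c.2)).trans ha
  have := key _ (Z.translate_mem (Z.gen_mem hg) (-y))
  simpa using this

/-- Smallness is tested on all coordinates. -/
lemma small_iff {z : M} : Z.Small z ↔ ∀ f ∈ Z.B, A.valuation (f z - f 0) < 1 := by
  refine ⟨fun h f hf => ?_, fun h g hg => h g (Z.gen_mem hg)⟩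
  rcases Z.gens.eq_empty_or_nonempty with he | hne
  · have : f = 0 := by
      have hf' := hf
      rw [B, he, Finset.coe_empty, Submodule.span_empty, Submodule.mem_bot] at hf'
      exact hf'
    simp [this]
  · obtain ⟨g₀, hg₀, hmax⟩ := Z.gens.exists_max_image (fun g => A.valuation (g z - g 0)) hne
    exact (Close.of_mem (Z := Z) (t := A.valuation (g₀ z - g₀ 0)) hmax hf).trans_lt (h g₀ hg₀)

/-- The points reducing to the origin. -/
def smallPts : AddSubgroup M where
  carrier := {z | Z.Small z}
  zero_mem' g _ := by simp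
  add_mem' {a b} ha hb g hg := by
    rw [show g (a + b) - g 0 = (g (a + b) - g (0 + b)) + (g b - g 0) by rw [zero_add]; ring]
    exact Valuation.map_add_lt _ (Z.small_iff.mp ha _ (Z.translate_mem (Z.gen_mem hg) b)) (hb g hg)
  neg_mem' {a} ha g hg := by
    have h1 := Z.small_iff.mp ha _ (Z.translate_mem (Z.gen_mem hg) (-a))
    rw [add_neg_cancel, zero_add, Valuation.map_sub_swap] at h1
    exact h1

lemma eq_zero_of_close_zero {z : M} (h : Z.Close z 0) : z = 0 := by
  by_contra hz
  have h1 : ∀ f : M → Qbar, f z = f 0 := fun f => by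
    refine Submodule.span_induction ?_ ?_ ?_ ?_ (Z.spans ▸ Submodule.mem_top : f ∈ Submodule.span
      Qbar (Z.gens : Set (M → Qbar))) (p := fun f _ => f z = f 0)
    · exact fun g hg => sub_eq_zero.mp ((Valuation.zero_iff _).mp (le_antisymm (h g hg) zero_le))
    · rfl
    · intro a b _ _ ha hb; rw [Pi.add_apply, Pi.add_apply, ha, hb]
    · intro c a _ ha; rw [Pi.smul_apply, Pi.smul_apply, ha]
  have := h1 fun x => if x = 0 then 1 else 0
  simp [hz] at this

lemma exists_pos {z : M} (hz : z ≠ 0) :
    ∃ g ∈ Z.gens, 0 < A.valuation (g z - g 0) := by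
  by_contra h
  push Not at h
  exact hz (Z.eq_zero_of_close_zero h)

/-- The farthest generator. -/
lemma exists_max {z : M} (hz : z ≠ 0) :
    ∃ g ∈ Z.gens, Z.Close z (A.valuation (g z - g 0)) ∧ 0 < A.valuation (g z - g 0) := by
  obtain ⟨g₁, hg₁, h1⟩ := Z.exists_pos hz
  obtain ⟨g₀, hg₀, hmax⟩ := Z.gens.exists_max_image (fun g => A.valuation (g z - g 0)) ⟨g₁, hg₁⟩
  exact ⟨g₀, hg₀, hmax, h1.trans_le (hmax g₁ hg₁)⟩

/-- Iterated differences decay geometrically. -/
lemma iter_le {z : M} {t : A.ValueGroup} (h : Z.Close z t) :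
    ∀ j : ℕ, ∀ f ∈ Z.B, ∀ x, A.valuation ((Δ_[z])^[j] f x) ≤ t ^ j := by
  intro j
  induction j with
  | zero => intro f hf x; rw [pow_zero]; exact val_le_one (Z.B_integral hf x)
  | succ j ih =>
    intro f hf x
    rw [Function.iterate_succ_apply]
    let D : (M × M → Qbar) →ₗ[A] Qbar :=
      { toFun := fun Q => (Δ_[z])^[j] (fun y => Q (y, z) - Q (y, 0)) x
        map_add' := fun Q Q' => by
          rw [show (fun y => (Q + Q') (y, z) - (Q + Q') (y, 0)) =
            (fun y => Q (y, z) - Q (y, 0)) + (fun y => Q' (y, z) - Q' (y, 0)) from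
              funext fun y => by simp only [Pi.add_apply]; ring, fwdDiff_iter_add, Pi.add_apply]
        map_smul' := fun c Q => by
          rw [show (fun y => (c • Q) (y, z) - (c • Q) (y, 0)) =
            c • (fun y => Q (y, z) - Q (y, 0)) from funext fun y => (smul_sub c _ _).symm,
            fwdDiff_iter_const_smul]
          rfl }
    have hle : Submodule.span A (tens Z.gens Z.gens : Set (M × M → Qbar)) ≤
        (valBall A (t ^ (j + 1))).comap D := by
      refine Submodule.span_le.mpr fun Q hQ => ?_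
      obtain ⟨g, hg, k, hk, rfl⟩ := Finset.mem_image₂.mp hQ
      show A.valuation ((Δ_[z])^[j] (fun y => g y * k z - g y * k 0) x) ≤ t ^ (j + 1)
      rw [show (fun y => g y * k z - g y * k 0) = (k z - k 0) • g from
          funext fun y => by simp only [Pi.smul_apply, smul_eq_mul]; ring, fwdDiff_iter_const_smul,
        Pi.smul_apply, smul_eq_mul, map_mul, pow_succ']
      exact mul_le_mul' (h k hk) (ih g (Z.gen_mem hg) x)
    have h1 : A.valuation (D fun q => f (q.1 + q.2)) ≤ t ^ (j + 1) := hle (Z.add_mem_tens hf)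
    convert h1 using 3
    show (Δ_[z])^[j] (fwdDiff z f) x = (Δ_[z])^[j] (fun y => f (y + z) - f (y + 0)) x
    simp only [add_zero]
    rfl

/-- **A nonzero point killed by `p` is not too close to the origin.** -/
theorem exists_far {p : ℕ} [hp : Fact p.Prime] (hA : A.LiesOverPrime p) {z : M} (hz : z ≠ 0)
    (hpz : p • z = 0) :
    ∃ g ∈ Z.gens, A.valuation (p : Qbar) ≤ A.valuation (g z - g 0) ^ (p - 1) := by
  obtain ⟨g, hg, hmax, hpos⟩ := Z.exists_max hz
  refine ⟨g, hg, ?_⟩
  by_contra hcon
  rw [not_le] at hcon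
  set t := A.valuation (g z - g 0)
  have hp1 := hp.out.two_le
  have hvp1 : A.valuation (p : Qbar) < 1 := valuation_natCast_lt_one hA
  have hvp0 : 0 < A.valuation (p : Qbar) := zero_lt_iff.mpr (valuation_natCast_ne_zero hp.out)
  have ht1 : t < 1 := (pow_lt_one_iff (by omega : p - 1 ≠ 0)).mp (hcon.trans hvp1)
  have e := shift_eq_sum_fwdDiff_iter (h := z) g p 0
  rw [hpz, add_zero, Finset.sum_range_succ', Nat.choose_zero_right, one_smul,
    Function.iterate_zero_apply, right_eq_add,
    ← Finset.add_sum_erase _ _ (Finset.mem_range.mpr hp.out.pos), zero_add, Nat.choose_one_right,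
    Function.iterate_one, fwdDiff, zero_add] at e
  have e' : A.valuation (p • (g z - g 0)) = A.valuation (∑ k ∈ (Finset.range p).erase 0,
      p.choose (k + 1) • (Δ_[z])^[k + 1] g 0) := by
    rw [eq_neg_of_add_eq_zero_left e, Valuation.map_neg]
  rw [nsmul_eq_mul, map_mul] at e'
  refine (lt_irrefl (A.valuation (p : Qbar) * t)) ?_
  conv_lhs => rw [e']
  refine Valuation.map_sum_lt _ (mul_pos hvp0 hpos).ne' fun k hk => ?_
  obtain ⟨hk0, hkp⟩ := Finset.mem_erase.mp hk
  rw [Finset.mem_range] at hkp
  have hit := Z.iter_le hmax (k + 1) g (Z.gen_mem hg) 0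
  rw [nsmul_eq_mul, map_mul]
  rcases eq_or_ne (k + 1) p with hkp' | hkp'
  · rw [hkp', Nat.choose_self, Nat.cast_one, map_one, one_mul]
    refine (hkp' ▸ hit).trans_lt ?_
    rw [← pow_sub_one_mul hp.out.ne_zero t]
    exact mul_lt_mul_of_pos_right hcon hpos
  · obtain ⟨m, hm⟩ := hp.out.dvd_choose_self (k := k + 1) (by omega) (by omega)
    rw [hm, Nat.cast_mul, map_mul, mul_assoc]
    refine mul_lt_mul_of_pos_left ?_ hvp0
    refine (mul_le_of_le_one_left zero_le (val_le_one (natCast_mem A m))).trans_lt (hit.trans_lt ?_)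
    calc t ^ (k + 1) ≤ t ^ 2 := pow_le_pow_right_of_le_one' ht1.le (by omega)
      _ < t := by rw [pow_two]; exact mul_lt_of_lt_one_left hpos ht1

/-- A nonzero point killed by `p` and fixed by inertia does not reduce to the origin. -/
theorem not_small_of_fixed {p : ℕ} [hp : Fact p.Prime] (hp2 : p ≠ 2) (hA : A.LiesOverPrime p)
    (hI : A.inertiaSubgroupIn ℚ ≤ S) {z : M} (hz : z ≠ 0) (hpz : p • z = 0)
    (hfix : ∀ σ ∈ A.inertiaSubgroupIn ℚ, act σ z = z ∧ act σ 0 = 0) : ¬ Z.Small z := by
  intro hs
  obtain ⟨g, hg, hfar⟩ := Z.exists_far hA hz hpz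
  have hp1 := hp.out.two_le
  set a := g z - g 0
  have ha : ∀ σ ∈ A.inertiaSubgroupIn ℚ, σ a = a := fun σ hσ => by
    rw [map_sub, ← Z.equiv g hg σ (hI hσ), ← Z.equiv g hg σ (hI hσ), (hfix σ hσ).1, (hfix σ hσ).2]
  have hvp0 : 0 < A.valuation (p : Qbar) := zero_lt_iff.mpr (valuation_natCast_ne_zero hp.out)
  have hvp1 : A.valuation (p : Qbar) < 1 := valuation_natCast_lt_one hA
  have ha0 : a ≠ 0 := fun h => by
    rw [h, map_zero, zero_pow (by omega : p - 1 ≠ 0)] at hfar
    exact not_lt.mpr hfar hvp0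
  obtain ⟨n, hn⟩ := exists_zpow_valuation_eq hp.out hA ha0 ha
  have h1 : A.valuation a < 1 := hs g hg
  rw [hn, zpow_lt_one_iff_right_of_lt_one₀ hvp0 hvp1] at h1
  have h2 : A.valuation a ≤ A.valuation (p : Qbar) := by
    rw [hn]; conv_rhs => rw [← zpow_one (A.valuation (p : Qbar))]
    exact (zpow_le_zpow_iff_right_of_lt_one₀ hvp0 hvp1).mpr h1
  have h3 := hfar.trans (pow_le_pow_left₀ zero_le h2 _)
  exact not_lt.mpr h3 (pow_lt_self_of_lt_one₀ hvp0 hvp1 (by omega))

variable {M' : Type} [AddCommGroup M'] {act' : GQ → M' → M'}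

/-- Smaller groups. -/
def mono {T : Subgroup GQ} (h : T ≤ S) : Sys A T act :=
  { gens := Z.gens, integral := Z.integral, equiv := fun g hg σ hσ x => Z.equiv g hg σ (h hσ) x
    one := Z.one, mul := Z.mul, add := Z.add, spans := Z.spans }

lemma one_mem_image {β : Type} (π : β → M) :
    (fun _ => (1 : Qbar)) ∈ Submodule.span A ((Z.gens.image fun g => g ∘ π : Finset (β → Qbar)) :
      Set (β → Qbar)) := by
  rw [Finset.coe_image]
  have h := Submodule.mem_map_of_mem (f := pullA A π) Z.one
  rw [Submodule.map_span] at h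
  exact h

/-- Submodules. -/
def restrict (ι : M' →+ M) (hι : Function.Injective ι)
    (heq : ∀ σ ∈ S, ∀ x, ι (act' σ x) = act σ (ι x)) : Sys A S act' where
  gens := Z.gens.image fun g => g ∘ ι
  integral := by
    intro g hg x
    obtain ⟨f, hf, rfl⟩ := Finset.mem_image.mp hg
    exact Z.integral f hf _
  equiv := by
    intro g hg σ hσ x
    obtain ⟨f, hf, rfl⟩ := Finset.mem_image.mp hg
    rw [Function.comp_apply, heq σ hσ, Z.equiv f hf σ hσ, Function.comp_apply]
  one := Z.one_mem_image ι
  mul := by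
    intro f hf g hg
    obtain ⟨f, hf', rfl⟩ := Finset.mem_image.mp hf
    obtain ⟨g, hg', rfl⟩ := Finset.mem_image.mp hg
    rw [Finset.coe_image]
    have h := Submodule.mem_map_of_mem (f := pullA A ι) (Z.mul f hf' g hg')
    rw [Submodule.map_span] at h
    exact h
  add := by
    intro g hg
    obtain ⟨f, hf, rfl⟩ := Finset.mem_image.mp hg
    have h := Submodule.mem_map_of_mem (f := pullA A (Prod.map ι ι)) (Z.add f hf)
    rw [Submodule.map_span] at h
    have e : (fun q : M' × M' => (f ∘ ι) (q.1 + q.2)) =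
        pullA A (Prod.map ι ι) fun q => f (q.1 + q.2) := funext fun q => congrArg f (map_add ι _ _)
    rw [e]
    refine Submodule.span_mono ?_ h
    rintro _ ⟨Q, hQ, rfl⟩
    obtain ⟨a, ha, b, hb, rfl⟩ := Finset.mem_image₂.mp hQ
    exact Finset.mem_image₂.mpr
      ⟨a ∘ ι, Finset.mem_image_of_mem _ ha, b ∘ ι, Finset.mem_image_of_mem _ hb, rfl⟩
  spans := by
    rw [Finset.coe_image,
      show (fun g : M → Qbar => g ∘ ι) = ⇑(LinearMap.funLeft Qbar Qbar ι) from rfl,
      ← Submodule.map_span, Z.spans, Submodule.map_top, LinearMap.range_eq_top]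
    exact LinearMap.funLeft_surjective_of_injective _ _ ι hι

/-- Products. -/
def prod [Finite M] [Finite M'] (Z' : Sys A S act') :
    Sys A S (fun σ (z : M × M') => (act σ z.1, act' σ z.2)) where
  gens := tens Z.gens Z'.gens
  integral := by
    intro g hg x
    obtain ⟨a, ha, b, hb, rfl⟩ := Finset.mem_image₂.mp hg
    exact MulMemClass.mul_mem (Z.integral a ha _) (Z'.integral b hb _)
  equiv := by
    intro g hg σ hσ x
    obtain ⟨a, ha, b, hb, rfl⟩ := Finset.mem_image₂.mp hg
    simp only [map_mul, Z.equiv a ha σ hσ, Z'.equiv b hb σ hσ]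
  one := by
    have key : ∀ f ∈ Z.B, ∀ g ∈ Z'.B, (fun q : M × M' => f q.1 * g q.2) ∈
        Submodule.span A (tens Z.gens Z'.gens : Set (M × M' → Qbar)) := fun f hf g hg => by
      have h := Submodule.apply_mem_map₂ (LinearMap.mk₂ A (fun (f : M → Qbar) (g : M' → Qbar) =>
        fun q : M × M' => f q.1 * g q.2) (fun a b c => funext fun q => add_mul _ _ _)
        (fun c a b => funext fun q => mul_assoc _ _ _) (fun a b c => funext fun q => mul_add _ _ _)
        (fun c a b => funext fun q => mul_left_comm _ _ _)) hf hg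
      rw [Submodule.map₂_span_span] at h
      refine Submodule.span_mono ?_ h
      rintro _ ⟨a, ha, b, hb, rfl⟩
      exact Finset.mem_image₂.mpr ⟨a, ha, b, hb, rfl⟩
    have := key _ Z.one _ Z'.one
    convert this using 1
    exact funext fun _ => (one_mul _).symm
  mul := by
    intro f hf g hg
    obtain ⟨a, ha, b, hb, rfl⟩ := Finset.mem_image₂.mp hf
    obtain ⟨c, hc, d, hd, rfl⟩ := Finset.mem_image₂.mp hg
    have h := Submodule.apply_mem_map₂ (LinearMap.mk₂ A (fun (f : M → Qbar) (g : M' → Qbar) =>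
      fun q : M × M' => f q.1 * g q.2) (fun a b c => funext fun q => add_mul _ _ _)
      (fun c a b => funext fun q => mul_assoc _ _ _) (fun a b c => funext fun q => mul_add _ _ _)
      (fun c a b => funext fun q => mul_left_comm _ _ _)) (Z.mul a ha c hc) (Z'.mul b hb d hd)
    rw [Submodule.map₂_span_span] at h
    have e : ((fun q : M × M' => a q.1 * b q.2) * fun q => c q.1 * d q.2) =
        fun q => (a * c) q.1 * (b * d) q.2 := funext fun q => by simp only [Pi.mul_apply]; ring
    rw [e]
    refine Submodule.span_mono ?_ h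
    rintro _ ⟨a, ha, b, hb, rfl⟩
    exact Finset.mem_image₂.mpr ⟨a, ha, b, hb, rfl⟩
  add := by
    intro g hg
    obtain ⟨a, ha, b, hb, rfl⟩ := Finset.mem_image₂.mp hg
    have h := Submodule.apply_mem_map₂ (LinearMap.mk₂ A
      (fun (f : M × M → Qbar) (g : M' × M' → Qbar) =>
      fun q : (M × M') × (M × M') => f (q.1.1, q.2.1) * g (q.1.2, q.2.2))
      (fun a b c => funext fun q => add_mul _ _ _)
      (fun c a b => funext fun q => mul_assoc _ _ _) (fun a b c => funext fun q => mul_add _ _ _)
      (fun c a b => funext fun q => mul_left_comm _ _ _)) (Z.add a ha) (Z'.add b hb)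
    rw [Submodule.map₂_span_span] at h
    refine Submodule.span_mono ?_ h
    rintro _ ⟨P, hP, Q, hQ, rfl⟩
    obtain ⟨c, hc, d, hd, rfl⟩ := Finset.mem_image₂.mp hP
    obtain ⟨c', hc', d', hd', rfl⟩ := Finset.mem_image₂.mp hQ
    refine Finset.mem_image₂.mpr ⟨_, Finset.mem_image₂.mpr ⟨c, hc, c', hc', rfl⟩, _,
      Finset.mem_image₂.mpr ⟨d, hd, d', hd', rfl⟩, funext fun q => ?_⟩
    show _ = c q.1.1 * d q.2.1 * (c' q.1.2 * d' q.2.2)
    ring
  spans := by
    rw [eq_top_iff, ← (Pi.basisFun Qbar (M × M')).span_eq]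
    refine Submodule.span_le.mpr ?_
    rintro _ ⟨⟨x, y⟩, rfl⟩
    have h := Submodule.apply_mem_map₂ (LinearMap.mk₂ Qbar (fun (f : M → Qbar) (g : M' → Qbar) =>
      fun q : M × M' => f q.1 * g q.2) (fun a b c => funext fun q => add_mul _ _ _)
      (fun c a b => funext fun q => mul_assoc _ _ _) (fun a b c => funext fun q => mul_add _ _ _)
      (fun c a b => funext fun q => mul_left_comm _ _ _))
      (Z.spans ▸ Submodule.mem_top : Pi.single x (1 : Qbar) ∈
        Submodule.span Qbar (Z.gens : Set (M → Qbar)))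
      (Z'.spans ▸ Submodule.mem_top :
        Pi.single y (1 : Qbar) ∈ Submodule.span Qbar (Z'.gens : Set (M' → Qbar)))
    rw [Submodule.map₂_span_span] at h
    have e : Pi.basisFun Qbar (M × M') (x, y) =
        fun q : M × M' => (Pi.single x (1 : Qbar) : M → Qbar) q.1 *
          (Pi.single y (1 : Qbar) : M' → Qbar) q.2 := by
      funext q
      simp only [Pi.basisFun_apply, Pi.single_apply, Prod.ext_iff, mul_ite, mul_one, mul_zero]
      by_cases h1 : q.1 = x <;> by_cases h2 : q.2 = y <;> simp [h1, h2]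
    rw [SetLike.mem_coe, e]
    refine Submodule.span_mono ?_ h
    rintro _ ⟨a, ha, b, hb, rfl⟩
    exact Finset.mem_image₂.mpr ⟨a, ha, b, hb, rfl⟩

end

/-- Coordinate systems of flat actions. -/
theorem exists_of_isFlatAct {p : ℕ} [Fact p.Prime] (hA : A.LiesOverPrime p) {X : Type}
    [AddCommGroup X] {ρ : GQ →* AddMonoid.End X} (h : Flat.IsFlatAct p ρ) :
    Nonempty (Sys A ⊤ (fun σ (x : X) => ρ σ x)) := by
  have : Finite (Flat.EndMod ρ) := h.1
  obtain ⟨L, Φ, hL, hLG, hΦ⟩ := h.2 A hA
  exact hΦ.exists_sys (M := Flat.EndMod ρ) hA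

end Sys

end FermatAgent.Flat

end
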