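import Fermat.Agent.CFT.SelmerP.OrdShape
import Fermat.Agent.CFT.SelmerP.TauZero

/-!
# The value at the tame element of a weakly ordinary representation through one trace

Against a constant matrix which residually maps the line out of itself, the trace of the value at
the tame element vanishes only if the value is the identity.
-/

set_option autoImplicit false

noncomputable section

open scoped Matrix

namespace FermatAgent.CFT.SelmerP

open GaloisBasic RT IsLocalRing

variable {p : ℕ} [hp : Fact p.Prime]

/-- The cyclotomic character is trivial at the tame element. -/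
lemma padCyclo_tauZero {A : ValuationSubring Qbar} {τ : GQ} (hτ : IsTauZero A p τ) :
    ES.padCyclo p τ = 1 := by
  refine PadicInt.ext_of_toZModPow.mp fun k => ?_
  obtain ⟨ζ, hζ⟩ := ES.exists_primitive_qbar p k
  rw [ES.toZModPow_padCyclo_eq p (c := 1) hζ (by rw [pow_one]; exact hτ.fixes_root hζ.pow_eq_one),
    Nat.cast_one, map_one]

namespace OrdShape

variable {B : Type} [CommRing B] {A : ValuationSubring Qbar} {M : MatRep B} {χ : GQ → B}
  {π : Matrix (Fin 2) (Fin 2) B} (S : OrdShape A M χ π)
include S

/-- An element of inertia with trivial character is trivial if its trace against a matrix moving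
the line is zero. -/
theorem eq_one_of_trace {τ : GQ} (hτ : τ ∈ A.inertiaSubgroupIn ℚ) (hχ : χ τ = 1)
    (E G : Matrix (Fin 2) (Fin 2) B) (hu : IsUnit ((1 - π) * E * π * G).trace)
    (h : ((M τ - 1) * E).trace = 0) : M τ = 1 := by
  set N := M τ - 1 with hN
  have h1 : π * N = N := S.proj_mul_sub hτ
  have h2 : N * π = 0 := by
    rw [hN, sub_mul, one_mul, S.mul_proj_inertia hτ, hχ, one_smul, sub_self]
  have h3 : N * (1 - π) = N := by rw [mul_sub, mul_one, h2, sub_zero]
  have h4 : N * ((1 - π) * E * π) = 0 := by
    calc N * ((1 - π) * E * π) = π * (N * E) * π := by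
          rw [← mul_assoc, ← mul_assoc, h3, ← mul_assoc, h1]
      _ = 0 := by
          rw [S.sandwich, ← mul_assoc, h1, h, zero_smul]
  have h5 : (1 - π) * E * π * G * (1 - π) =
      ((1 - π) * E * π * G).trace • (1 - π) := by
    have := S.compl.sandwich (E * π * G)
    simpa only [← mul_assoc] using this
  have h6 : ((1 - π) * E * π * G).trace • N = 0 := by
    have := congrArg (fun X => X * (G * (1 - π))) h4
    simp only [zero_mul] at this
    rw [mul_assoc N, ← mul_assoc ((1 - π) * E * π) G, h5, mul_smul_comm, h3] at this
    exact this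
  obtain ⟨u, hu⟩ := hu
  rw [← hu] at h6
  have h7 := congrArg (fun X => (↑u⁻¹ : B) • X) h6
  rw [smul_smul, Units.inv_mul, one_smul, smul_zero] at h7
  exact sub_eq_zero.mp h7

end OrdShape

end FermatAgent.CFT.SelmerP

end
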